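/-
Laurent expansions in `Q = exp (2πiτ/h)` of functions on the upper half plane (helper50, S28).
-/
import Fermat.Prelude.Def_ModularCurve_X0
import Fermat.Prelude.Def_ModularCurve_LaurentCoeff
import Mathlib.NumberTheory.ModularForms.QExpansion
import Mathlib.Analysis.Normed.Module.FiniteDimension

set_option autoImplicit false

noncomputable section

open UpperHalfPlane Function HahnSeries
open scoped Manifold

namespace Fermat.Agent.Igusa

local notation "𝕢" => Periodic.qParam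

/-- Power series form of an expansion: `p` is the expansion of `f` at level `h`. -/
def HasPSum (h : ℕ) (f : ℍ → ℂ) (p : PowerSeries ℂ) : Prop :=
  ∀ τ : ℍ, HasSum (fun n ↦ PowerSeries.coeff n p * 𝕢 h τ ^ n) (f τ)

/-- `f τ = ∑ s_n Q^n` with `Q = exp (2πiτ/h)`. -/
def HasExp (h : ℕ) (f : ℍ → ℂ) (s : LaurentSeries ℂ) : Prop :=
  ∃ (M : ℕ) (p : PowerSeries ℂ), ofPowerSeries ℤ ℂ p = single (M : ℤ) 1 * s ∧
    HasPSum h (fun τ ↦ f τ * 𝕢 h τ ^ M) p

variable {h : ℕ}

theorem HasPSum.X_pow_mul {f : ℍ → ℂ} {p : PowerSeries ℂ} (hp : HasPSum h f p) (k : ℕ) :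
    HasPSum h (fun τ ↦ f τ * 𝕢 h τ ^ k) (PowerSeries.X ^ k * p) := by
  intro τ
  refine ((add_left_injective k).hasSum_iff fun n hn ↦ ?_).mp ?_
  · rw [PowerSeries.coeff_X_pow_mul', if_neg, zero_mul]
    intro hkn
    exact hn ⟨n - k, Nat.sub_add_cancel hkn⟩
  · convert! (hp τ).mul_right (𝕢 h τ ^ k) using 1
    funext n
    simp [PowerSeries.coeff_X_pow_mul', pow_add, mul_assoc]

theorem HasPSum.add {f g : ℍ → ℂ} {p r : PowerSeries ℂ} (hp : HasPSum h f p)
    (hr : HasPSum h g r) : HasPSum h (f + g) (p + r) := fun τ ↦ by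
  simpa [add_mul] using (hp τ).add (hr τ)

theorem HasPSum.mul {f g : ℍ → ℂ} {p r : PowerSeries ℂ} (hp : HasPSum h f p)
    (hr : HasPSum h g r) : HasPSum h (f * g) (p * r) := fun τ ↦ by
  have h1 := summable_norm_iff.mpr (hp τ).summable
  have h2 := summable_norm_iff.mpr (hr τ).summable
  have h3 := tsum_mul_tsum_eq_tsum_sum_antidiagonal_of_summable_norm h1 h2
  have h4 := (summable_norm_sum_mul_antidiagonal_of_summable_norm h1 h2).of_norm.hasSum
  rw [← h3, (hp τ).tsum_eq, (hr τ).tsum_eq] at h4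
  convert! h4 using 1
  funext n
  rw [PowerSeries.coeff_mul, Finset.sum_mul]
  refine Finset.sum_congr rfl fun x hx ↦ ?_
  rw [← Finset.HasAntidiagonal.mem_antidiagonal.mp hx, pow_add]
  ring

theorem cuspFunction_zero_fun : cuspFunction (h : ℝ) (0 : ℍ → ℂ) = 0 := by
  simpa [cuspFunction, Periodic.cuspFunction]
    using! (tendsto_const_nhds.mono_left nhdsWithin_le_nhds).limUnder_eq

theorem HasPSum.eq_zero (hh : 0 < h) {p : PowerSeries ℂ} (hp : HasPSum h 0 p) : p = 0 := by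
  have h1 := UpperHalfPlane.hasFPowerSeriesOnBall_cuspFunction (f := (0 : ℍ → ℂ)) (h := (h : ℝ))
    (c := fun n ↦ PowerSeries.coeff n p) (by exact_mod_cast hh)
    (by rw [cuspFunction_zero_fun]; exact analyticAt_const)
    (fun τ ↦ by simpa [smul_eq_mul] using! hp τ)
  rw [cuspFunction_zero_fun] at h1
  ext n
  have h2 := congrArg (FormalMultilinearSeries.coeff · n) h1.hasFPowerSeriesAt.eq_zero
  simp only [FormalMultilinearSeries.coeff_ofScalars] at h2
  exact h2

theorem HasPSum.unique (hh : 0 < h) {f : ℍ → ℂ} {p r : PowerSeries ℂ} (hp : HasPSum h f p)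
    (hr : HasPSum h f r) : p = r :=
  sub_eq_zero.mp <| HasPSum.eq_zero hh fun τ ↦ by simpa [sub_mul] using (hp τ).sub (hr τ)

theorem HasPSum.isBoundedAtImInfty (hh : 0 < h) {f : ℍ → ℂ} {p : PowerSeries ℂ}
    (hp : HasPSum h f p) : IsBoundedAtImInfty f :=
  isBoundedAtImInfty_of_hasSum_qExpansion (h := (h : ℝ)) (c := fun n ↦ PowerSeries.coeff n p)
    (by exact_mod_cast hh) fun τ ↦ by simpa [smul_eq_mul] using hp τ

theorem ofPowerSeries_X_pow (k : ℕ) :
    ofPowerSeries ℤ ℂ (PowerSeries.X ^ k) = single (k : ℤ) 1 := by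
  rw [map_pow, HahnSeries.ofPowerSeries_X, single_pow, one_pow]
  simp

/-- Raise the shift of a representation. -/
theorem HasExp.exists_rep {f : ℍ → ℂ} {s : LaurentSeries ℂ} (hs : HasExp h f s) :
    ∃ M : ℕ, ∀ M' ≥ M, ∃ p : PowerSeries ℂ, ofPowerSeries ℤ ℂ p = single (M' : ℤ) 1 * s ∧
      HasPSum h (fun τ ↦ f τ * 𝕢 h τ ^ M') p := by
  obtain ⟨M, p, hp, hsum⟩ := hs
  refine ⟨M, fun M' hM ↦ ⟨PowerSeries.X ^ (M' - M) * p, ?_, ?_⟩⟩
  · rw [map_mul, ofPowerSeries_X_pow, hp, ← mul_assoc, single_mul_single, one_mul]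
    congr 2
    push_cast [Nat.cast_sub hM]
    ring_nf
  · intro τ
    simpa [mul_assoc, ← pow_add, show M + (M' - M) = M' by omega]
      using hsum.X_pow_mul (M' - M) τ

theorem single_mul_left_cancel {R : Type*} [CommRing R] {M : ℤ} {s t : LaurentSeries R}
    (h : single M (1 : R) * s = single M (1 : R) * t) : s = t := by
  have := congrArg (fun x ↦ single (-M) (1 : R) * x) h
  simpa [← mul_assoc, single_mul_single] using this

theorem HasExp.unique (hh : 0 < h) {f : ℍ → ℂ} {s t : LaurentSeries ℂ} (hs : HasExp h f s)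
    (ht : HasExp h f t) : s = t := by
  obtain ⟨M₁, h₁⟩ := hs.exists_rep
  obtain ⟨M₂, h₂⟩ := ht.exists_rep
  obtain ⟨p, hp, hps⟩ := h₁ (max M₁ M₂) (le_max_left ..)
  obtain ⟨r, hr, hrs⟩ := h₂ (max M₁ M₂) (le_max_right ..)
  rw [hps.unique hh hrs] at hp
  exact single_mul_left_cancel (hp.symm.trans hr)

theorem HasExp.add {f g : ℍ → ℂ} {s t : LaurentSeries ℂ} (hs : HasExp h f s)
    (ht : HasExp h g t) : HasExp h (f + g) (s + t) := by
  obtain ⟨M₁, h₁⟩ := hs.exists_rep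
  obtain ⟨M₂, h₂⟩ := ht.exists_rep
  obtain ⟨p, hp, hps⟩ := h₁ (max M₁ M₂) (le_max_left ..)
  obtain ⟨r, hr, hrs⟩ := h₂ (max M₁ M₂) (le_max_right ..)
  refine ⟨max M₁ M₂, p + r, by rw [map_add, hp, hr, mul_add], fun τ ↦ ?_⟩
  simpa [add_mul] using hps.add hrs τ

theorem HasExp.mul {f g : ℍ → ℂ} {s t : LaurentSeries ℂ} (hs : HasExp h f s)
    (ht : HasExp h g t) : HasExp h (f * g) (s * t) := by
  obtain ⟨M, p, hp, hps⟩ := hs
  obtain ⟨M', r, hr, hrs⟩ := ht
  refine ⟨M + M', p * r, ?_, fun τ ↦ ?_⟩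
  · rw [map_mul, hp, hr, Nat.cast_add, mul_mul_mul_comm, single_mul_single, one_mul]
  · simpa [pow_add, mul_mul_mul_comm] using hps.mul hrs τ

theorem hasExp_const (c : ℂ) : HasExp h (fun _ ↦ c) (single 0 c) := by
  refine ⟨0, PowerSeries.C c, by simp [HahnSeries.ofPowerSeries_C], fun τ ↦ ?_⟩
  convert! hasSum_ite_eq (0 : ℕ) c using 1
  · funext n
    rcases eq_or_ne n 0 with rfl | hn
    · simp
    · simp [PowerSeries.coeff_C, hn]
  · simp

theorem hasExp_zero : HasExp h 0 0 := by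
  simpa using! (hasExp_const (h := h) 0 : HasExp h _ _)

theorem hasExp_one : HasExp h 1 1 := by
  simpa [← HahnSeries.single_zero_one] using! (hasExp_const (h := h) 1 : HasExp h _ _)

theorem HasExp.neg {f : ℍ → ℂ} {s : LaurentSeries ℂ} (hs : HasExp h f s) :
    HasExp h (-f) (-s) := by
  obtain ⟨M, p, hp, hps⟩ := hs
  refine ⟨M, -p, by rw [map_neg, hp]; exact (mul_neg _ _).symm, fun τ ↦ ?_⟩
  simpa [neg_mul] using (hps τ).neg

/-- A series without negative terms gives boundedness at `i∞`. -/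
theorem HasExp.isBoundedAtImInfty (hh : 0 < h) {f : ℍ → ℂ} {s : LaurentSeries ℂ}
    (hs : HasExp h f s) (hpos : ∀ n < 0, s.coeff n = 0) : IsBoundedAtImInfty f := by
  obtain ⟨M, p, hp, hps⟩ := hs
  let r : PowerSeries ℂ := PowerSeries.mk fun n ↦ s.coeff n
  have hpr : p = PowerSeries.X ^ M * r := by
    apply HahnSeries.ofPowerSeries_injective (Γ := ℤ) (R := ℂ)
    rw [hp, map_mul, ofPowerSeries_X_pow]
    congr 1
    ext k
    rcases lt_or_ge k 0 with hk | hk
    · rw [hpos k hk, ModularCurve.ofPowerSeries_coeff_of_neg _ hk]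
    · lift k to ℕ using hk
      rw [HahnSeries.ofPowerSeries_apply_coeff, PowerSeries.coeff_mk]
  refine HasPSum.isBoundedAtImInfty hh (p := r) fun τ ↦ ?_
  have h1 := hps τ
  rw [hpr, ← (add_left_injective M).hasSum_iff (fun n hn ↦ ?_)] at h1
  swap
  · rw [PowerSeries.coeff_X_pow_mul', if_neg, zero_mul]
    intro hkn
    exact hn ⟨n - M, Nat.sub_add_cancel hkn⟩
  have hq : 𝕢 (h : ℝ) τ ^ M ≠ 0 := pow_ne_zero _ (Periodic.qParam_ne_zero _)
  rw [← hasSum_mul_right_iff hq]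
  convert! h1 using 1
  funext n
  simp [PowerSeries.coeff_X_pow_mul', pow_add, mul_assoc]

end Fermat.Agent.Igusa
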