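/-
Formal series used for the conjugates of `j(dτ)`, `Δ(dτ)/Δ(τ)` (helper50, S28).
-/
import Fermat.Prelude.Def_ModularCurve_X0ModL

set_option autoImplicit false

noncomputable section

open HahnSeries ModularCurve

namespace Fermat.Agent.Igusa

variable {R S : Type*} [CommRing R] [CommRing S]

theorem constantCoeff_psMap (φ : R →+* S) (p : PowerSeries R) :
    PowerSeries.constantCoeff (p.map φ) = φ (PowerSeries.constantCoeff p) := by
  rw [← PowerSeries.coeff_zero_eq_constantCoeff_apply, PowerSeries.coeff_map,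
    PowerSeries.coeff_zero_eq_constantCoeff_apply]

/-- `s(Q) ↦ s(u Q)`. -/
def qScale (u : Rˣ) : LaurentSeries R →+* LaurentSeries R where
  toFun x := ⟨fun n ↦ ((u ^ n : Rˣ) : R) * x.coeff n,
    x.isPWO_support.mono fun n hn ↦ by
      simp only [Function.mem_support, ne_eq, mem_support] at hn ⊢
      exact fun h ↦ hn (by rw [h, mul_zero])⟩
  map_one' := by
    ext n
    rcases eq_or_ne n 0 with rfl | hn
    · simp
    · simp [HahnSeries.coeff_one, hn]
  map_zero' := by ext n; simp
  map_add' x y := by ext n; simp [mul_add]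
  map_mul' x y := by
    ext n
    change ((u ^ n : Rˣ) : R) * (x * y).coeff n = _
    rw [HahnSeries.coeff_mul, HahnSeries.coeff_mul, Finset.mul_sum]
    refine Finset.sum_congr ?_ fun ij hij ↦ ?_
    · ext ij
      simp [Function.mem_support]
    · have h3 : ij.1 + ij.2 = n := (Finset.mem_antidiagonal.mp hij).2.2
      change _ = ((u ^ ij.1 : Rˣ) : R) * x.coeff ij.1 * (((u ^ ij.2 : Rˣ) : R) * y.coeff ij.2)
      rw [← h3, zpow_add, Units.val_mul]
      ring

@[simp] theorem qScale_coeff (u : Rˣ) (x : LaurentSeries R) (n : ℤ) :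
    (qScale u x).coeff n = ((u ^ n : Rˣ) : R) * x.coeff n :=
  rfl

theorem qScale_single (u : Rˣ) (m : ℤ) (c : R) :
    qScale u (single m c) = single m (((u ^ m : Rˣ) : R) * c) := by
  ext n
  rcases eq_or_ne n m with rfl | h
  · simp
  · simp [HahnSeries.coeff_single_of_ne h]

theorem qScale_one : qScale (1 : Rˣ) = RingHom.id (LaurentSeries R) := by
  ext x n
  simp

theorem coeffMap_qScale (φ : R →+* S) (u : Rˣ) (x : LaurentSeries R) :
    coeffMap φ (qScale u x) = qScale (Units.map φ.toMonoidHom u) (coeffMap φ x) := by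
  ext n
  simp only [coeffMap_coeff, qScale_coeff, map_mul]
  congr 1
  rw [← map_zpow]
  rfl

theorem qExpand_ofPowerSeries (r : ℕ) [NeZero r] (p : PowerSeries R) :
    qExpand R r (ofPowerSeries ℤ R p) =
      ofPowerSeries ℤ R (PowerSeries.expand r (NeZero.ne r) p) := by
  ext k
  by_cases hk : (r : ℤ) ∣ k
  · obtain ⟨m, rfl⟩ := hk
    rw [qExpand_coeff_mul]
    rcases lt_or_ge m 0 with hm | hm
    · rw [ofPowerSeries_coeff_of_neg _ hm, ofPowerSeries_coeff_of_neg _
        (mul_neg_of_pos_of_neg (by exact_mod_cast Nat.pos_of_ne_zero (NeZero.ne r)) hm)]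
    · lift m to ℕ using hm
      rw [← Nat.cast_mul, ofPowerSeries_apply_coeff, ofPowerSeries_apply_coeff,
        PowerSeries.coeff_expand_mul]
  · rw [qExpand_coeff_of_not_dvd _ _ hk]
    rcases lt_or_ge k 0 with hk0 | hk0
    · rw [ofPowerSeries_coeff_of_neg _ hk0]
    · lift k to ℕ using hk0
      rw [ofPowerSeries_apply_coeff, PowerSeries.coeff_expand_of_not_dvd]
      exact fun h ↦ hk (by exact_mod_cast h)

theorem qScale_ofPowerSeries (u : Rˣ) (p : PowerSeries R) :
    qScale u (ofPowerSeries ℤ R p) = ofPowerSeries ℤ R (PowerSeries.rescale (u : R) p) := by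
  ext k
  rw [qScale_coeff]
  rcases lt_or_ge k 0 with hk | hk
  · rw [ofPowerSeries_coeff_of_neg _ hk, ofPowerSeries_coeff_of_neg _ hk, mul_zero]
  · lift k to ℕ using hk
    rw [ofPowerSeries_apply_coeff, ofPowerSeries_apply_coeff, PowerSeries.coeff_rescale,
      zpow_natCast, Units.val_pow_eq_pow_val]

/-- `s = c Q^m + (higher terms)`. -/
def HasLead (s : LaurentSeries R) (m : ℤ) (c : R) : Prop :=
  ∃ p : PowerSeries R, s = single m 1 * ofPowerSeries ℤ R p ∧ PowerSeries.constantCoeff p = c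

theorem hasLead_C (c : R) : HasLead (single (0 : ℤ) c) 0 c :=
  ⟨PowerSeries.C c, by simp [HahnSeries.ofPowerSeries_C], PowerSeries.constantCoeff_C c⟩

theorem hasLead_one : HasLead (1 : LaurentSeries R) 0 1 := by
  simpa [HahnSeries.single_zero_one] using! hasLead_C (1 : R)

theorem HasLead.mul {s t : LaurentSeries R} {m n : ℤ} {c d : R} (hs : HasLead s m c)
    (ht : HasLead t n d) : HasLead (s * t) (m + n) (c * d) := by
  obtain ⟨p, rfl, rfl⟩ := hs
  obtain ⟨r, rfl, rfl⟩ := ht
  exact ⟨p * r, by rw [mul_mul_mul_comm, single_mul_single, one_mul, map_mul], map_mul _ _ _⟩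

theorem hasLead_prod {ι : Type*} (O : Finset ι) {s : ι → LaurentSeries R} {m : ι → ℤ} {c : ι → R}
    (h : ∀ i ∈ O, HasLead (s i) (m i) (c i)) :
    HasLead (∏ i ∈ O, s i) (∑ i ∈ O, m i) (∏ i ∈ O, c i) := by
  classical
  induction O using Finset.induction with
  | empty => simpa using hasLead_one
  | insert a O ha ih =>
    rw [Finset.prod_insert ha, Finset.sum_insert ha, Finset.prod_insert ha]
    exact (h a (Finset.mem_insert_self a O)).mul
      (ih fun i hi ↦ h i (Finset.mem_insert_of_mem hi))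

theorem HasLead.coeff_eq {s : LaurentSeries R} {m : ℤ} {c : R} (hs : HasLead s m c) :
    s.coeff m = c := by
  obtain ⟨p, rfl, rfl⟩ := hs
  rw [HahnSeries.coeff_single_mul, one_mul, sub_self, show (0 : ℤ) = ((0 : ℕ) : ℤ) from rfl,
    ofPowerSeries_apply_coeff, PowerSeries.coeff_zero_eq_constantCoeff]

theorem HasLead.coeff_of_lt {s : LaurentSeries R} {m n : ℤ} {c : R} (hs : HasLead s m c)
    (hn : n < m) : s.coeff n = 0 := by
  obtain ⟨p, rfl, -⟩ := hs
  rw [HahnSeries.coeff_single_mul, one_mul]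
  exact ofPowerSeries_coeff_of_neg _ (by omega)

theorem HasLead.ext {s : LaurentSeries R} {m n : ℤ} {c d : R} (hs : HasLead s m c)
    (ht : HasLead s n d) (hc : c ≠ 0) (hd : d ≠ 0) : m = n ∧ c = d := by
  rcases lt_trichotomy m n with h | rfl | h
  · exact absurd (hs.coeff_eq.symm.trans (ht.coeff_of_lt h)) hc
  · exact ⟨rfl, hs.coeff_eq.symm.trans ht.coeff_eq⟩
  · exact absurd (ht.coeff_eq.symm.trans (hs.coeff_of_lt h)) hd

theorem HasLead.map {s : LaurentSeries R} {m : ℤ} {c : R} (hs : HasLead s m c) (φ : R →+* S) :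
    HasLead (coeffMap φ s) m (φ c) := by
  obtain ⟨p, rfl, rfl⟩ := hs
  exact ⟨p.map φ, by rw [map_mul, coeffMap_single, map_one, coeffMap_ofPowerSeries],
    constantCoeff_psMap φ p⟩

theorem HasLead.qExpand {s : LaurentSeries R} {m : ℤ} {c : R} (hs : HasLead s m c) (r : ℕ)
    [NeZero r] : HasLead (ModularCurve.qExpand R r s) ((r : ℤ) * m) c := by
  obtain ⟨p, rfl, rfl⟩ := hs
  exact ⟨PowerSeries.expand r (NeZero.ne r) p,
    by rw [map_mul, qExpand_single, qExpand_ofPowerSeries], PowerSeries.constantCoeff_expand _ _ _⟩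

theorem HasLead.qScale {s : LaurentSeries R} {m : ℤ} {c : R} (hs : HasLead s m c) (u : Rˣ) :
    HasLead (qScale u s) m (((u ^ m : Rˣ) : R) * c) := by
  obtain ⟨p, rfl, rfl⟩ := hs
  refine ⟨PowerSeries.C ((u ^ m : Rˣ) : R) * PowerSeries.rescale (u : R) p, ?_, ?_⟩
  · rw [map_mul, map_mul, qScale_single, qScale_ofPowerSeries, HahnSeries.ofPowerSeries_C,
      ← mul_assoc]
    congr 1
    simp [HahnSeries.C_apply, single_mul_single]
  · rw [map_mul, PowerSeries.constantCoeff_C, ← PowerSeries.coeff_zero_eq_constantCoeff_apply,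
      PowerSeries.coeff_rescale, pow_zero, one_mul, PowerSeries.coeff_zero_eq_constantCoeff_apply]

section Named

variable (R)

/-- The expansion `q ∏ (1 - q^n)^24` of the discriminant. -/
def deltaSeries : LaurentSeries R :=
  single (1 : ℤ) 1 * ofPowerSeries ℤ R (dedekindEtaUnit.map (Int.castRingHom R))

/-- The inverse of `deltaSeries`. -/
def deltaInvSeries : LaurentSeries R :=
  single (-1 : ℤ) 1 * ofPowerSeries ℤ R (dedekindEtaUnitInv.map (Int.castRingHom R))

theorem deltaSeries_mul_inv : deltaSeries R * deltaInvSeries R = 1 := by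
  rw [deltaSeries, deltaInvSeries, mul_mul_mul_comm, single_mul_single, ← map_mul, ← map_mul,
    dedekindEtaUnit_mul_inv]
  simp

theorem hasLead_jqModC : HasLead (jqModC R) (-1) 1 :=
  ⟨_, rfl, by rw [constantCoeff_psMap, constantCoeff_jNum, map_one]⟩

theorem hasLead_deltaSeries : HasLead (deltaSeries R) 1 1 :=
  ⟨_, rfl, by rw [constantCoeff_psMap, constantCoeff_dedekindEtaUnit, map_one]⟩

theorem hasLead_deltaInvSeries : HasLead (deltaInvSeries R) (-1) 1 :=
  ⟨_, rfl, by rw [constantCoeff_psMap, constantCoeff_dedekindEtaUnitInv, map_one]⟩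

variable {R}

theorem coeffMap_deltaSeries (φ : R →+* S) : coeffMap φ (deltaSeries R) = deltaSeries S := by
  rw [deltaSeries, map_mul, coeffMap_single, map_one, coeffMap_ofPowerSeries,
    ← RingHom.comp_apply (PowerSeries.map φ) (PowerSeries.map (Int.castRingHom R)),
    ← PowerSeries.map_comp, RingHom.ext_int (φ.comp (Int.castRingHom R)) (Int.castRingHom S)]
  rfl

theorem coeffMap_deltaInvSeries (φ : R →+* S) :
    coeffMap φ (deltaInvSeries R) = deltaInvSeries S := by
  rw [deltaInvSeries, map_mul, coeffMap_single, map_one, coeffMap_ofPowerSeries,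
    ← RingHom.comp_apply (PowerSeries.map φ) (PowerSeries.map (Int.castRingHom R)),
    ← PowerSeries.map_comp, RingHom.ext_int (φ.comp (Int.castRingHom R)) (Int.castRingHom S)]
  rfl

end Named

end Fermat.Agent.Igusa
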