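/-
The ring of holomorphic functions with expansions over the algebraic integers and the basic
expansions of `j`, `Δ`, `1/Δ` (helper50, S28).
-/
import Fermat.Agent.Igusa.HasExp
import Fermat.Agent.Igusa.Series
import Fermat.Agent.MF.JExpansion
import Fermat.Agent.MF.KleinJ

set_option autoImplicit false

noncomputable section

open UpperHalfPlane Function HahnSeries ModularCurve
open scoped Manifold

namespace Fermat.Agent.Igusa

local notation "𝕢" => Periodic.qParam

/-- The ring of algebraic integers inside `ℂ`. -/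
abbrev R0 : Type := ↥(integralClosure ℤ ℂ)

/-- The inclusion of `R0` in `ℂ`. -/
abbrev valC : R0 →+* ℂ := algebraMap R0 ℂ

theorem valC_injective : Injective valC := Subtype.coe_injective

theorem coeffMap_injective {R S : Type*} [CommRing R] [CommRing S] {φ : R →+* S}
    (hφ : Injective φ) : Injective (coeffMap φ) := fun x y hxy ↦ by
  ext n
  exact hφ (by simpa using congrArg (fun s : LaurentSeries S ↦ s.coeff n) hxy)

theorem HasExp.comp {h h' : ℕ} {f : ℍ → ℂ} {s : LaurentSeries ℂ} (hs : HasExp h f s)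
    (g : ℍ → ℍ) (u : ℂˣ) (r : ℕ) [NeZero r]
    (hq : ∀ τ : ℍ, 𝕢 h (g τ) = (u : ℂ) * 𝕢 h' τ ^ r) :
    HasExp h' (f ∘ g) (qExpand ℂ r (qScale u s)) := by
  obtain ⟨M, p, hp, hps⟩ := hs
  refine ⟨r * M, PowerSeries.C (((u ^ (-(M : ℤ)) : ℂˣ) : ℂ)) *
    PowerSeries.expand r (NeZero.ne r) (PowerSeries.rescale (u : ℂ) p), ?_, ?_⟩
  · rw [map_mul, ← qExpand_ofPowerSeries, ← qScale_ofPowerSeries, hp, map_mul, map_mul,
      qScale_single, qExpand_single, HahnSeries.ofPowerSeries_C, ← mul_assoc, Nat.cast_mul]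
    congr 1
    simp [HahnSeries.C_apply, single_mul_single, zpow_neg]
  · intro τ
    have h1 := hps (g τ)
    simp only [hq, mul_pow, ← pow_mul] at h1
    have hu : (u : ℂ) ^ M ≠ 0 := pow_ne_zero _ u.ne_zero
    refine ((mul_right_injective₀ (NeZero.ne r)).hasSum_iff fun n hn ↦ ?_).mp ?_
    · rw [PowerSeries.coeff_C_mul, PowerSeries.coeff_expand_of_not_dvd, mul_zero, zero_mul]
      exact fun ⟨c, hc⟩ ↦ hn ⟨c, hc.symm⟩
    · convert! h1.mul_left ((u : ℂ) ^ M)⁻¹ using 1
      · funext n
        simp only [comp_apply, PowerSeries.coeff_C_mul, PowerSeries.coeff_expand_mul,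
          PowerSeries.coeff_rescale, zpow_neg, zpow_natCast, Units.val_inv_eq_inv_val,
          Units.val_pow_eq_pow_val]
        ring
      · simp only [comp_apply]
        field_simp

/-- Holomorphic functions on `ℍ` with an expansion in `exp (2πiτ/N)` over `R0`. -/
def expRing (N : ℕ) : Subring (ℍ → ℂ) where
  carrier := {f | MDiff f ∧ ∃ s : LaurentSeries R0, HasExp N f (coeffMap valC s)}
  zero_mem' := ⟨mdifferentiable_const, 0, by simpa using hasExp_zero⟩
  one_mem' := ⟨mdifferentiable_const, 1, by simpa using hasExp_one⟩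
  add_mem' := by
    rintro f g ⟨hf, s, hs⟩ ⟨hg, t, ht⟩
    exact ⟨hf.add hg, s + t, by simpa using hs.add ht⟩
  mul_mem' := by
    rintro f g ⟨hf, s, hs⟩ ⟨hg, t, ht⟩
    exact ⟨hf.mul hg, s * t, by simpa using hs.mul ht⟩
  neg_mem' := by
    rintro f ⟨hf, s, hs⟩
    exact ⟨hf.neg, -s, by simpa using hs.neg⟩

theorem mem_expRing {N : ℕ} {f : ℍ → ℂ} :
    f ∈ expRing N ↔ MDiff f ∧ ∃ s : LaurentSeries R0, HasExp N f (coeffMap valC s) := Iff.rfl

variable (N : ℕ) [NeZero N]

theorem expSeries_unique {f : ℍ → ℂ} {s t : LaurentSeries R0}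
    (hs : HasExp N f (coeffMap valC s)) (ht : HasExp N f (coeffMap valC t)) : s = t :=
  coeffMap_injective valC_injective (hs.unique (Nat.pos_of_ne_zero (NeZero.ne N)) ht)

/-- The expansion, as a ring homomorphism. -/
def expHom : ↥(expRing N) →+* LaurentSeries R0 where
  toFun f := f.2.2.choose
  map_zero' := expSeries_unique N (0 : ↥(expRing N)).2.2.choose_spec (by simpa using hasExp_zero)
  map_one' := expSeries_unique N (1 : ↥(expRing N)).2.2.choose_spec (by simpa using hasExp_one)
  map_add' f g := expSeries_unique N (f + g).2.2.choose_spec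
    (by simpa using f.2.2.choose_spec.add g.2.2.choose_spec)
  map_mul' f g := expSeries_unique N (f * g).2.2.choose_spec
    (by simpa using f.2.2.choose_spec.mul g.2.2.choose_spec)

variable {N}

theorem hasExp_expHom (f : ↥(expRing N)) :
    HasExp N (f : ℍ → ℂ) (coeffMap valC (expHom N f)) :=
  f.2.2.choose_spec

theorem expHom_eq {f : ↥(expRing N)} {s : LaurentSeries R0}
    (hs : HasExp N (f : ℍ → ℂ) (coeffMap valC s)) : expHom N f = s :=
  expSeries_unique N (hasExp_expHom f) hs

/-! ### The basic expansions -/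

theorem hasExp_jFun : HasExp 1 MF.kleinJ (jqModC ℂ) := by
  refine ⟨1, jNum.map (Int.castRingHom ℂ), ?_, fun τ ↦ ?_⟩
  · rw [jqModC, ← mul_assoc, single_mul_single]
    simp
  · simpa using MF.hasSum_kleinJ τ

theorem hasExp_discriminant : HasExp 1 ModularForm.discriminant (deltaSeries ℂ) := by
  refine ⟨0, PowerSeries.X * dedekindEtaUnit.map (Int.castRingHom ℂ), ?_, fun τ ↦ ?_⟩
  · simp [deltaSeries]
  · simpa [MF.qExpansion_discriminant] using MF.hasSum_of_mem_qFunctions MF.mem_qFunctions_discriminant τ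

theorem etaProdFun_ne_zero {q : ℂ} (hq : q ∈ Metric.ball (0 : ℂ) 1) :
    MF.etaProdFun q ≠ 0 := by
  refine tprod_one_add_ne_zero_of_summable (f := fun n => -q ^ (n + 1)) (fun i => ?_) ?_
  · rw [← sub_eq_add_neg, sub_ne_zero]
    intro h
    have : ‖q ^ (i + 1)‖ < 1 := by
      rw [norm_pow]; exact pow_lt_one₀ (norm_nonneg q) (by simpa using hq) (by simp)
    simp [← h] at this
  · simpa [summable_nat_add_iff] using
      summable_geometric_of_lt_one (norm_nonneg q) (by simpa using hq)

theorem hasExp_discriminant_inv :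
    HasExp 1 (fun τ ↦ (ModularForm.discriminant τ)⁻¹) (deltaInvSeries ℂ) := by
  set g : ℍ → ℂ := fun τ ↦ (MF.etaProdUHP τ ^ 24)⁻¹
  have hd : DifferentiableOn ℂ (fun q ↦ (MF.etaProdFun q ^ 24)⁻¹) (Metric.ball 0 1) :=
    (MF.differentiableOn_etaProdFun.pow 24).inv fun q hq ↦ pow_ne_zero _ (etaProdFun_ne_zero hq)
  have hg : g ∈ MF.qFunctions := MF.mem_qFunctions_of_disc hd fun _ ↦ rfl
  have hq : qExpansion 1 g = dedekindEtaUnitInv.map (Int.castRingHom ℂ) := by
    have h1 : g * MF.etaProdUHP ^ 24 = 1 := by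
      funext τ
      exact inv_mul_cancel₀ (pow_ne_zero _ (etaProdFun_ne_zero
        (by simpa using MF.norm_q_lt_one τ)))
    have h2 := congrArg (qExpansion 1) h1
    rw [qExpansion_mul (MF.analyticAt_of_mem_qFunctions hg)
        (MF.analyticAt_of_mem_qFunctions (pow_mem MF.mem_qFunctions_etaProdUHP 24)), qExpansion_one,
      MF.qExpansion_pow_of_mem_qFunctions MF.mem_qFunctions_etaProdUHP, MF.qExpansion_etaProdUHP,
      ← map_pow (PowerSeries.map (Int.castRingHom ℂ)),
      show etaProd ^ 24 = dedekindEtaUnit from rfl] at h2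
    calc qExpansion 1 g
        = qExpansion 1 g * ((dedekindEtaUnit * dedekindEtaUnitInv).map
            (Int.castRingHom ℂ)) := by rw [dedekindEtaUnit_mul_inv, map_one, mul_one]
      _ = _ := by rw [map_mul, ← mul_assoc, h2, one_mul]
  refine ⟨1, dedekindEtaUnitInv.map (Int.castRingHom ℂ), ?_, fun τ ↦ ?_⟩
  · rw [deltaInvSeries, ← mul_assoc, single_mul_single]
    simp
  · have h3 := MF.hasSum_of_mem_qFunctions hg τ
    rw [hq] at h3
    have e1 : (ModularForm.discriminant τ)⁻¹ * 𝕢 ((1 : ℕ) : ℝ) τ ^ 1 = g τ := by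
      rw [MF.discriminant_eq_q_mul, Nat.cast_one, pow_one]
      simp only [g, Pi.mul_apply, Pi.pow_apply, MF.qUHP, mul_inv_rev]
      rw [mul_assoc, inv_mul_cancel₀ (Periodic.qParam_ne_zero _), mul_one]
    beta_reduce
    rw [e1, Nat.cast_one]
    exact h3

theorem mdifferentiable_discriminant_inv :
    MDiff (fun τ : ℍ ↦ (ModularForm.discriminant τ)⁻¹) :=
  UpperHalfPlane.mdifferentiable_iff.mpr <|
    (UpperHalfPlane.mdifferentiable_iff.mp MF.mem_qFunctions_discriminant.2.1).inv
      fun _ _ ↦ ModularForm.discriminant_ne_zero _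

end Fermat.Agent.Igusa
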