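/-
Conjugates of `j(dτ)` and of `d^12 Δ(dτ)/Δ(τ)` under `SL(2, ℤ)` (helper50, S28).
-/
import Fermat.Agent.Igusa.ExpRing
import Fermat.Agent.MF.Degeneracy

set_option autoImplicit false

noncomputable section

open UpperHalfPlane Function ModularCurve CongruenceSubgroup Matrix.SpecialLinearGroup
open scoped Manifold MatrixGroups

namespace Fermat.Agent.Igusa

local notation "𝕢" => Periodic.qParam

/-- `τ ↦ (aτ + b)/e`. -/
def affH (a e : ℕ) (b : ℤ) (τ : ℍ) : ℍ :=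
  if h : 0 < a ∧ 0 < e then
    ⟨((a : ℂ) * τ + b) / e, by
      obtain ⟨ha, he⟩ := h
      rw [Complex.div_natCast_im]
      exact div_pos (by simpa using mul_pos (Nat.cast_pos.mpr ha) τ.im_pos) (Nat.cast_pos.mpr he)⟩
  else τ

theorem coe_affH {a e : ℕ} (b : ℤ) (τ : ℍ) (ha : 0 < a) (he : 0 < e) :
    (affH a e b τ : ℂ) = ((a : ℂ) * τ + b) / e := by
  rw [affH, dif_pos ⟨ha, he⟩]

/-- `diag(d, 1) γ = g (a b; 0 e)` entrywise, with `a e = d`. -/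
structure IsTri (γ : SL(2, ℤ)) (d : ℕ) (g : SL(2, ℤ)) (a e : ℕ) (b : ℤ) : Prop where
  mul_eq : a * e = d
  e00 : g 0 0 * a = d * γ 0 0
  e10 : g 1 0 * a = γ 1 0
  e01 : g 0 0 * b + g 0 1 * e = d * γ 0 1
  e11 : g 1 0 * b + g 1 1 * e = γ 1 1

theorem sl2_det (γ : SL(2, ℤ)) : γ 0 0 * γ 1 1 - γ 0 1 * γ 1 0 = 1 := by
  have := γ.2
  rwa [Matrix.det_fin_two] at this

theorem exists_isTri (γ : SL(2, ℤ)) (d : ℕ) [NeZero d] :
    ∃ (g : SL(2, ℤ)) (a e : ℕ) (b : ℤ), IsTri γ d g a e b ∧ a = Int.gcd d (γ 1 0) := by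
  set a := Int.gcd d (γ 1 0) with ha
  have ha0 : a ≠ 0 := by
    simp [ha, Int.gcd_eq_zero_iff, NeZero.ne d]
  obtain ⟨e, he⟩ : a ∣ d := by
    exact_mod_cast (Int.gcd_dvd_left (d : ℤ) (γ 1 0) : (a : ℤ) ∣ (d : ℤ))
  obtain ⟨z', hz'⟩ : (a : ℤ) ∣ γ 1 0 := Int.gcd_dvd_right _ _
  have hco : IsCoprime (e : ℤ) z' := by
    have hb := Int.gcd_eq_gcd_ab (d : ℤ) (γ 1 0)
    rw [← ha] at hb
    refine ⟨Int.gcdA d (γ 1 0), Int.gcdB d (γ 1 0), mul_left_cancel₀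
      (Int.natCast_ne_zero.mpr ha0) ?_⟩
    rw [mul_one]
    conv_rhs => rw [hb]
    have hd' : (d : ℤ) = (a : ℤ) * e := by exact_mod_cast he
    linear_combination (Int.gcdA d (γ 1 0)) * (-hd') - (Int.gcdB d (γ 1 0)) * hz'
  have hco2 : IsCoprime (γ 0 0) z' :=
    IsCoprime.of_isCoprime_of_dvd_right
      (⟨γ 1 1, -γ 0 1, by linear_combination sl2_det γ⟩ : IsCoprime (γ 0 0) (γ 1 0))
      ⟨a, by rw [hz']; ring⟩
  obtain ⟨r, s, hrs⟩ := IsCoprime.mul_left hco hco2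
  let g : SL(2, ℤ) := ⟨!![(e : ℤ) * γ 0 0, -s; z', r], by
    rw [Matrix.det_fin_two_of]; linear_combination hrs⟩
  refine ⟨g, a, e, r * d * γ 0 1 + s * γ 1 1, ⟨he.symm, ?_, ?_, ?_, ?_⟩, rfl⟩
  all_goals
    have hd' : (d : ℤ) = (a : ℤ) * e := by exact_mod_cast he
    have hdet := sl2_det γ
    simp [g]
  · rw [hd']; ring
  · rw [hz']; ring
  · linear_combination ((d : ℤ) * γ 0 1) * hrs - (s * (e : ℤ)) * (-hdet) +
      (-s * γ 0 1 * z') * hd' + (s * e * γ 0 1) * hz'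
  · linear_combination (γ 1 1) * hrs - (r * (e : ℤ)) * hdet +
      (r * γ 0 1 * z') * hd' + (-r * e * γ 0 1) * hz'

variable {γ g : SL(2, ℤ)} {d a e : ℕ} {b : ℤ}

theorem IsTri.pos [NeZero d] (h : IsTri γ d g a e b) : 0 < a ∧ 0 < e := by
  have : a * e ≠ 0 := h.mul_eq ▸ NeZero.ne d
  rw [mul_ne_zero_iff] at this
  omega

theorem IsTri.scaleH_smul [NeZero d] (h : IsTri γ d g a e b) (τ : ℍ) :
    MF.scaleH d (γ • τ) = g • affH a e b τ ∧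
      ((g 1 0 : ℤ) : ℂ) * (affH a e b τ : ℂ) + g 1 1 = ((γ 1 0 : ℤ) * (τ : ℂ) + γ 1 1) / e := by
  obtain ⟨ha, he⟩ := h.pos
  have he' : (e : ℂ) ≠ 0 := by exact_mod_cast he.ne'
  have e00 : ((g 0 0 : ℤ) : ℂ) * a = d * (γ 0 0 : ℤ) := by exact_mod_cast h.e00
  have e10 : ((g 1 0 : ℤ) : ℂ) * a = (γ 1 0 : ℤ) := by exact_mod_cast h.e10
  have e01 : ((g 0 0 : ℤ) : ℂ) * b + (g 0 1 : ℤ) * e = d * (γ 0 1 : ℤ) := by exact_mod_cast h.e01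
  have e11 : ((g 1 0 : ℤ) : ℂ) * b + (g 1 1 : ℤ) * e = (γ 1 1 : ℤ) := by exact_mod_cast h.e11
  have hden : ((g 1 0 : ℤ) : ℂ) * (affH a e b τ : ℂ) + g 1 1 =
      ((γ 1 0 : ℤ) * (τ : ℂ) + γ 1 1) / e := by
    rw [coe_affH b τ ha he]
    field_simp
    linear_combination (τ : ℂ) * e10 + e11
  refine ⟨UpperHalfPlane.ext ?_, hden⟩
  rw [MF.coe_scaleH, coe_specialLinearGroup_apply, coe_specialLinearGroup_apply]
  simp only [eq_intCast, Complex.ofReal_intCast]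
  rw [hden, coe_affH b τ ha he]
  have hnum : ((g 0 0 : ℤ) : ℂ) * (((a : ℂ) * τ + b) / e) + (g 0 1 : ℤ) =
      ((d : ℂ) * ((γ 0 0 : ℤ) * (τ : ℂ) + (γ 0 1 : ℤ))) / e := by
    field_simp
    linear_combination (τ : ℂ) * e00 + e01
  rw [hnum, div_div_div_cancel_right₀ he']
  ring

theorem discriminant_smul (g : SL(2, ℤ)) (w : ℍ) : ModularForm.discriminant (g • w) =
    ((g 1 0 : ℤ) * (w : ℂ) + g 1 1) ^ 12 * ModularForm.discriminant w := by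
  have hg : (g : GL (Fin 2) ℝ) ∈ 𝒮ℒ := ⟨g, rfl⟩
  have hD := congrFun (SlashInvariantForm.slash_action_eqn CuspForm.discriminant _ hg) w
  rw [← ModularForm.SL_slash, ModularForm.SL_slash_apply, CuspForm.coe_discriminant] at hD
  have hd := denom_ne_zero g w
  rw [zpow_neg, ← div_eq_mul_inv, div_eq_iff (zpow_ne_zero _ hd)] at hD
  rw [hD, mul_comm, show ((12 : ℤ)) = ((12 : ℕ) : ℤ) from rfl, zpow_natCast]
  congr 2

/-- `d^12 Δ(dτ)/Δ(τ)`. -/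
def uFun (d : ℕ) (τ : ℍ) : ℂ :=
  (d : ℂ) ^ 12 * (ModularForm.discriminant (MF.scaleH d τ) * (ModularForm.discriminant τ)⁻¹)

/-- `Δ(τ)/Δ(dτ)`. -/
def vFun (d : ℕ) (τ : ℍ) : ℂ :=
  ModularForm.discriminant τ * (ModularForm.discriminant (MF.scaleH d τ))⁻¹

theorem uFun_mul_vFun (d : ℕ) (τ : ℍ) : uFun d τ * vFun d τ = (d : ℂ) ^ 12 := by
  have h1 := ModularForm.discriminant_ne_zero (MF.scaleH d τ)
  have h2 := ModularForm.discriminant_ne_zero τ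
  simp only [uFun, vFun]
  field_simp

theorem IsTri.jFun_eq [NeZero d] (h : IsTri γ d g a e b) (τ : ℍ) :
    MF.kleinJ (MF.scaleH d (γ • τ)) = MF.kleinJ (affH a e b τ) := by
  rw [(h.scaleH_smul τ).1, MF.kleinJ_smul]

theorem IsTri.uFun_eq [NeZero d] (h : IsTri γ d g a e b) (τ : ℍ) :
    uFun d (γ • τ) = (a : ℂ) ^ 12 *
      (ModularForm.discriminant (affH a e b τ) * (ModularForm.discriminant τ)⁻¹) := by
  obtain ⟨h1, h2⟩ := h.scaleH_smul τ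
  obtain ⟨ha, he⟩ := h.pos
  have he' : (e : ℂ) ≠ 0 := by exact_mod_cast he.ne'
  have hne : ((γ 1 0 : ℤ) : ℂ) * (τ : ℂ) + γ 1 1 ≠ 0 := by simpa [denom] using denom_ne_zero γ τ
  have hd : (d : ℂ) = a * e := by exact_mod_cast h.mul_eq.symm
  rw [uFun, h1, discriminant_smul, discriminant_smul, h2, hd, div_pow]
  field_simp [ModularForm.discriminant_ne_zero τ]

theorem IsTri.vFun_eq [NeZero d] (h : IsTri γ d g a e b) (τ : ℍ) :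
    vFun d (γ • τ) = (e : ℂ) ^ 12 *
      (ModularForm.discriminant τ * (ModularForm.discriminant (affH a e b τ))⁻¹) := by
  obtain ⟨h1, h2⟩ := h.scaleH_smul τ
  obtain ⟨ha, he⟩ := h.pos
  have he' : (e : ℂ) ≠ 0 := by exact_mod_cast he.ne'
  have hne : ((γ 1 0 : ℤ) : ℂ) * (τ : ℂ) + γ 1 1 ≠ 0 := by simpa [denom] using denom_ne_zero γ τ
  rw [vFun, h1, discriminant_smul, discriminant_smul, h2, div_pow]
  field_simp [ModularForm.discriminant_ne_zero (affH a e b τ)]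

/-- A function is invariant under `Γ₀(N)`. -/
def GammaInv (N : ℕ) (f : ℍ → ℂ) : Prop :=
  ∀ g ∈ Gamma0 N, ∀ τ : ℍ, f (g • τ) = f τ

theorem isTri_Gamma0 [NeZero d] {N : ℕ} (hd : d ∣ N) {g₀ : SL(2, ℤ)} (hg : g₀ ∈ Gamma0 N) :
    ∃ g : SL(2, ℤ), IsTri g₀ d g d 1 0 := by
  obtain ⟨c, hc⟩ : (d : ℤ) ∣ g₀ 1 0 :=
    (Int.natCast_dvd_natCast.mpr hd).trans
      ((ZMod.intCast_zmod_eq_zero_iff_dvd _ _).mp (Gamma0_mem.mp hg))
  refine ⟨⟨!![g₀ 0 0, d * g₀ 0 1; c, g₀ 1 1], ?_⟩, ⟨by ring, ?_, ?_, ?_, ?_⟩⟩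
  · rw [Matrix.det_fin_two_of]; linear_combination sl2_det g₀ + g₀ 0 1 * hc
  all_goals simp [hc, mul_comm]

theorem affH_diag (d : ℕ) [NeZero d] (τ : ℍ) : affH d 1 0 τ = MF.scaleH d τ := by
  ext
  rw [coe_affH 0 τ (Nat.pos_of_ne_zero (NeZero.ne d)) one_pos, MF.coe_scaleH]
  simp

theorem gammaInv_jFun_scale [NeZero d] {N : ℕ} (hd : d ∣ N) :
    GammaInv N (fun τ ↦ MF.kleinJ (MF.scaleH d τ)) := fun g₀ hg τ ↦ by
  obtain ⟨g, h⟩ := isTri_Gamma0 hd hg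
  simpa [affH_diag] using h.jFun_eq τ

theorem gammaInv_uFun [NeZero d] {N : ℕ} (hd : d ∣ N) : GammaInv N (uFun d) := fun g₀ hg τ ↦ by
  obtain ⟨g, h⟩ := isTri_Gamma0 hd hg
  rw [h.uFun_eq τ, affH_diag, uFun]

theorem gammaInv_vFun [NeZero d] {N : ℕ} (hd : d ∣ N) : GammaInv N (vFun d) := fun g₀ hg τ ↦ by
  obtain ⟨g, h⟩ := isTri_Gamma0 hd hg
  rw [h.vFun_eq τ, affH_diag, vFun, Nat.cast_one, one_pow, one_mul]

/-- The triple `(a, b, e)` with `b` modulo `e` determines the coset. -/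
theorem mem_Gamma0_of_isTri {N : ℕ} [NeZero N] {γ₁ γ₂ g₁ g₂ : SL(2, ℤ)} {b₁ b₂ : ℤ}
    (h₁ : IsTri γ₁ N g₁ a e b₁) (h₂ : IsTri γ₂ N g₂ a e b₂) (hb : (e : ℤ) ∣ b₁ - b₂) :
    γ₁ * γ₂⁻¹ ∈ Gamma0 N := by
  obtain ⟨k, hk⟩ := hb
  have hz : (γ₁ * γ₂⁻¹ : SL(2, ℤ)) 1 0 = γ₁ 1 0 * γ₂ 1 1 - γ₁ 1 1 * γ₂ 1 0 := by
    simp [Matrix.mul_apply, Fin.sum_univ_two, Matrix.adjugate_fin_two]
    ring
  rw [Gamma0_mem, hz, ZMod.intCast_zmod_eq_zero_iff_dvd]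
  refine ⟨g₁ 1 0 * g₂ 1 1 - g₁ 1 1 * g₂ 1 0 - k * g₁ 1 0 * g₂ 1 0, ?_⟩
  have hN : (N : ℤ) = (a : ℤ) * e := by exact_mod_cast h₁.mul_eq.symm
  rw [← h₁.e10, ← h₁.e11, ← h₂.e10, ← h₂.e11, hN]
  linear_combination (-(a : ℤ) * g₁ 1 0 * g₂ 1 0) * hk

end Fermat.Agent.Igusa
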