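/-
Expansions of the conjugates of `j(dτ)`, `d^12 Δ(dτ)/Δ(τ)`, `Δ(τ)/Δ(dτ)` (helper50, S28).
-/
import Fermat.Agent.Igusa.Conjugates

set_option autoImplicit false

noncomputable section

open UpperHalfPlane Function HahnSeries ModularCurve CongruenceSubgroup
open scoped Manifold MatrixGroups

namespace Fermat.Agent.Igusa

local notation "𝕢" => Periodic.qParam

/-- A triangular matrix `(a b; 0 e)` with `a e = d ∣ N`. -/
structure TriData (N : ℕ) where
  a : ℕ
  e : ℕ
  b : ℤ
  dvd : a * e ∣ N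

namespace TriData

variable {N : ℕ} [NeZero N]

theorem a_pos (t : TriData N) : 0 < t.a :=
  Nat.pos_of_ne_zero fun h ↦ NeZero.ne N (Nat.eq_zero_of_zero_dvd (by simpa [h] using t.dvd))

theorem e_pos (t : TriData N) : 0 < t.e :=
  Nat.pos_of_ne_zero fun h ↦ NeZero.ne N (Nat.eq_zero_of_zero_dvd (by simpa [h] using t.dvd))

omit [NeZero N] in
theorem e_dvd (t : TriData N) : t.e ∣ N := (dvd_mul_left _ _).trans t.dvd

/-- The exponent of `Q` replacing `q`. -/
def r (t : TriData N) : ℕ := t.a * (N / t.e)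

instance (t : TriData N) : NeZero t.r :=
  ⟨Nat.mul_ne_zero t.a_pos.ne'
    (Nat.div_pos (Nat.le_of_dvd (Nat.pos_of_ne_zero (NeZero.ne N)) t.e_dvd) t.e_pos).ne'⟩

variable {R S : Type*} [CommRing R] [CommRing S]

/-- `q ↦ z^(bN/e) Q^(aN/e)`. -/
def twist (t : TriData N) (z : Rˣ) : LaurentSeries R →+* LaurentSeries R :=
  (qExpand R t.r).comp (qScale (z ^ (t.b * (N / t.e : ℕ))))

theorem coeffMap_twist (t : TriData N) (z : Rˣ) (φ : R →+* S) (x : LaurentSeries R) :
    coeffMap φ (t.twist z x) = t.twist (Units.map φ.toMonoidHom z) (coeffMap φ x) := by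
  simp only [twist, RingHom.comp_apply]
  rw [coeffMap_qExpand, coeffMap_qScale, map_zpow]

/-- The conjugate series of `j(dτ)`. -/
def jSer (t : TriData N) (z : Rˣ) : LaurentSeries R := t.twist z (jqModC R)

/-- The conjugate series of `d^12 Δ(dτ)/Δ(τ)`. -/
def uSer (t : TriData N) (z : Rˣ) : LaurentSeries R :=
  single (0 : ℤ) ((t.a : R) ^ 12) *
    (t.twist z (deltaSeries R) * qExpand R N (deltaInvSeries R))

/-- The conjugate series of `Δ(τ)/Δ(dτ)`. -/
def vSer (t : TriData N) (z : Rˣ) : LaurentSeries R :=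
  single (0 : ℤ) ((t.e : R) ^ 12) *
    (qExpand R N (deltaSeries R) * t.twist z (deltaInvSeries R))

theorem coeffMap_jSer (t : TriData N) (z : Rˣ) (φ : R →+* S) :
    coeffMap φ (t.jSer z) = t.jSer (Units.map φ.toMonoidHom z) := by
  rw [jSer, coeffMap_twist, ModularCurve.coeffMap_jqModC]
  rfl

theorem coeffMap_uSer (t : TriData N) (z : Rˣ) (φ : R →+* S) :
    coeffMap φ (t.uSer z) = t.uSer (Units.map φ.toMonoidHom z) := by
  rw [uSer, map_mul, map_mul, coeffMap_single, coeffMap_twist, coeffMap_qExpand,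
    coeffMap_deltaSeries, coeffMap_deltaInvSeries, map_pow, map_natCast]
  rfl

theorem coeffMap_vSer (t : TriData N) (z : Rˣ) (φ : R →+* S) :
    coeffMap φ (t.vSer z) = t.vSer (Units.map φ.toMonoidHom z) := by
  rw [vSer, map_mul, map_mul, coeffMap_single, coeffMap_twist, coeffMap_qExpand,
    coeffMap_deltaSeries, coeffMap_deltaInvSeries, map_pow, map_natCast]
  rfl

theorem uSer_mul_vSer (t : TriData N) (z : Rˣ) :
    t.uSer z * t.vSer z = single (0 : ℤ) (((t.a * t.e : ℕ) : R) ^ 12) := by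
  rw [uSer, vSer]
  calc _ = single (0 : ℤ) ((t.a : R) ^ 12) * single (0 : ℤ) ((t.e : R) ^ 12) *
        (t.twist z (deltaSeries R * deltaInvSeries R) *
          qExpand R N (deltaSeries R * deltaInvSeries R)) := by
        rw [map_mul (t.twist z), map_mul (qExpand R N)]; ring
    _ = _ := by
        rw [deltaSeries_mul_inv, map_one, map_one, mul_one, mul_one, single_mul_single]
        simp [mul_pow]

theorem hasLead_jSer (t : TriData N) (z : Rˣ) :
    HasLead (t.jSer z) (-(t.r : ℤ)) ((((z ^ (t.b * (N / t.e : ℕ))) ^ (-1 : ℤ) : Rˣ) : R)) := by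
  have h := ((hasLead_jqModC R).qScale (z ^ (t.b * (N / t.e : ℕ)))).qExpand t.r
  simpa [jSer, twist] using h

theorem hasLead_uSer (t : TriData N) (z : Rˣ) :
    HasLead (t.uSer z) ((t.r : ℤ) - N)
      ((t.a : R) ^ 12 * ((((z ^ (t.b * (N / t.e : ℕ))) : Rˣ) : R))) := by
  have h1 := ((hasLead_deltaSeries R).qScale (z ^ (t.b * (N / t.e : ℕ)))).qExpand t.r
  have h2 := (hasLead_deltaInvSeries R).qExpand N
  have h := (hasLead_C ((t.a : R) ^ 12)).mul (h1.mul h2)
  simp only [zero_add, mul_one, zpow_one, ← sub_eq_add_neg, mul_neg] at h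
  exact h

end TriData

/-- `exp (2πi/N)` as a unit of `R0`. -/
def zetaUnit (N : ℕ) [NeZero N] : R0ˣ :=
  Units.ofPowEqOne
    ⟨Complex.exp (2 * Real.pi * Complex.I / N),
      IsPrimitiveRoot.isIntegral (Complex.isPrimitiveRoot_exp N (NeZero.ne N))
        (Nat.pos_of_ne_zero (NeZero.ne N))⟩
    N (Subtype.ext (Complex.isPrimitiveRoot_exp N (NeZero.ne N)).pow_eq_one) (NeZero.ne N)

variable {N : ℕ} [NeZero N]

@[simp] theorem coe_zetaUnit :
    valC (zetaUnit N : R0) = Complex.exp (2 * Real.pi * Complex.I / N) := rfl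

theorem isPrimitiveRoot_zetaUnit : IsPrimitiveRoot (zetaUnit N : R0) N :=
  IsPrimitiveRoot.of_map_of_injective (f := valC)
    (show IsPrimitiveRoot (Complex.exp (2 * Real.pi * Complex.I / N)) N from
      Complex.isPrimitiveRoot_exp N (NeZero.ne N)) valC_injective

theorem qParam_affH (t : TriData N) (τ : ℍ) :
    𝕢 ((1 : ℕ) : ℝ) (affH t.a t.e t.b τ) =
      ((Units.map valC.toMonoidHom (zetaUnit N) ^ (t.b * (N / t.e : ℕ)) : ℂˣ) : ℂ) *
        𝕢 (N : ℝ) τ ^ t.r := by
  rw [Units.val_zpow_eq_zpow_val, Units.coe_map]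
  have hv : valC.toMonoidHom (zetaUnit N : R0) = Complex.exp (2 * Real.pi * Complex.I / N) := rfl
  simp only [MonoidHom.coe_coe, RingHom.toMonoidHom_eq_coe] at hv ⊢
  rw [hv, Periodic.qParam, Periodic.qParam, ← Complex.exp_int_mul, ← Complex.exp_nat_mul,
    ← Complex.exp_add, coe_affH t.b τ t.a_pos t.e_pos]
  congr 1
  obtain ⟨k, hk⟩ := t.e_dvd
  have he : (t.e : ℂ) ≠ 0 := Nat.cast_ne_zero.mpr t.e_pos.ne'
  have hk0 : (k : ℂ) ≠ 0 := by
    rintro h
    exact NeZero.ne N (by simpa [Nat.cast_eq_zero.mp h] using hk)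
  have hNe : N / t.e = k := Nat.div_eq_of_eq_mul_right t.e_pos hk
  have hkC : (N : ℂ) = (t.e : ℂ) * k := by exact_mod_cast hk
  simp only [TriData.r, hNe]
  push_cast
  rw [hkC]
  field_simp
  ring

theorem hasExp_affH (t : TriData N) {f : ℍ → ℂ} {s : LaurentSeries R0}
    (hs : HasExp 1 f (coeffMap valC s)) :
    HasExp N (fun τ ↦ f (affH t.a t.e t.b τ)) (coeffMap valC (t.twist (zetaUnit N) s)) := by
  rw [TriData.coeffMap_twist]
  exact hs.comp _ _ t.r (qParam_affH t)

theorem hasExp_jFun' : HasExp 1 MF.kleinJ (coeffMap valC (jqModC R0)) := by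
  rw [ModularCurve.coeffMap_jqModC]; exact hasExp_jFun

theorem hasExp_discriminant' :
    HasExp 1 ModularForm.discriminant (coeffMap valC (deltaSeries R0)) := by
  rw [coeffMap_deltaSeries]; exact hasExp_discriminant

theorem hasExp_discriminant_inv' :
    HasExp 1 (fun τ ↦ (ModularForm.discriminant τ)⁻¹) (coeffMap valC (deltaInvSeries R0)) := by
  rw [coeffMap_deltaInvSeries]; exact hasExp_discriminant_inv

variable (N) in
/-- The identity substitution, `q = Q^N`. -/
def triOne : TriData N := ⟨1, 1, 0, one_dvd N⟩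

theorem affH_triOne (τ : ℍ) : affH 1 1 0 τ = τ := by
  rw [affH_diag, MF.scaleH_one]

theorem twist_triOne (z : R0ˣ) (x : LaurentSeries R0) :
    (triOne N).twist z x = qExpand R0 N x := by
  have hr : (triOne N).r = N := by simp [TriData.r, triOne]
  simp only [TriData.twist, RingHom.comp_apply]
  rw [show (triOne N).b = 0 from rfl, zero_mul, zpow_zero, qScale_one, RingHom.id_apply]
  exact qExpand_congr hr _

theorem hasExp_base {f : ℍ → ℂ} {s : LaurentSeries R0} (hs : HasExp 1 f (coeffMap valC s)) :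
    HasExp N f (coeffMap valC (qExpand R0 N s)) := by
  have h := hasExp_affH (triOne N) hs
  rw [twist_triOne] at h
  rwa [show (fun τ ↦ f (affH (triOne N).a (triOne N).e (triOne N).b τ)) = f from
    funext fun τ ↦ congrArg f (affH_triOne τ)] at h

theorem hasExp_jSer (t : TriData N) :
    HasExp N (fun τ ↦ MF.kleinJ (affH t.a t.e t.b τ)) (coeffMap valC (t.jSer (zetaUnit N))) :=
  hasExp_affH t hasExp_jFun'

theorem hasExp_uSer (t : TriData N) :
    HasExp N (fun τ ↦ (t.a : ℂ) ^ 12 * (ModularForm.discriminant (affH t.a t.e t.b τ) *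
        (ModularForm.discriminant τ)⁻¹))
      (coeffMap valC (t.uSer (zetaUnit N))) := by
  rw [TriData.uSer, map_mul, map_mul, coeffMap_single]
  have h := (hasExp_const (h := N) ((t.a : ℂ) ^ 12)).mul
    ((hasExp_affH t hasExp_discriminant').mul (hasExp_base hasExp_discriminant_inv'))
  simpa [map_pow] using! h

theorem hasExp_vSer (t : TriData N) :
    HasExp N (fun τ ↦ (t.e : ℂ) ^ 12 * (ModularForm.discriminant τ *
        (ModularForm.discriminant (affH t.a t.e t.b τ))⁻¹))
      (coeffMap valC (t.vSer (zetaUnit N))) := by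
  rw [TriData.vSer, map_mul, map_mul, coeffMap_single]
  have h := (hasExp_const (h := N) ((t.e : ℂ) ^ 12)).mul
    ((hasExp_base hasExp_discriminant').mul (hasExp_affH t hasExp_discriminant_inv'))
  simpa [map_pow] using! h

end Fermat.Agent.Igusa
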