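/-
Invariant holomorphic functions with expansions over `R0` lie in `R0[j]` (helper50, S28).
-/
import Fermat.Agent.Igusa.ConjSeries
import Mathlib.NumberTheory.ModularForms.LevelOne.Basic

set_option autoImplicit false

noncomputable section

open UpperHalfPlane Function HahnSeries ModularCurve
open scoped Manifold MatrixGroups ModularForm

namespace Fermat.Agent.Igusa

local notation "𝕢" => Periodic.qParam

variable (N : ℕ) [NeZero N]

/-- `j` as an element of `expRing N`. -/
def jElem : ↥(expRing N) :=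
  ⟨MF.kleinJ, MF.kleinJ_mdifferentiable, qExpand R0 N (jqModC R0), hasExp_base hasExp_jFun'⟩

theorem expHom_jElem : expHom N (jElem N) = qExpand R0 N (jqModC R0) :=
  expHom_eq (hasExp_base hasExp_jFun')

/-- Constants in `expRing N`. -/
def constElem (c : R0) : ↥(expRing N) :=
  ⟨fun _ ↦ valC c, mdifferentiable_const, single (0 : ℤ) c, by
    rw [coeffMap_single]; exact hasExp_const _⟩

theorem expHom_constElem (c : R0) : expHom N (constElem N c) = single (0 : ℤ) c :=
  expHom_eq (by rw [coeffMap_single]; exact hasExp_const _)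

variable {N}

/-- The expansion of a `1`-periodic element only involves powers of `Q^N`. -/
theorem coeff_eq_zero_of_periodic (f : ↥(expRing N))
    (hf : ∀ τ : ℍ, (f : ℍ → ℂ) (ModularGroup.T • τ) = (f : ℍ → ℂ) τ) {n : ℤ}
    (hn : ¬ (N : ℤ) ∣ n) : (expHom N f).coeff n = 0 := by
  set z : ℂˣ := Units.map valC.toMonoidHom (zetaUnit N) with hz
  have hq : ∀ τ : ℍ, 𝕢 (N : ℝ) ((ModularGroup.T • τ : ℍ) : ℂ) = (z : ℂ) * 𝕢 (N : ℝ) τ ^ 1 := by
    intro τ
    have hv : (z : ℂ) = Complex.exp (2 * Real.pi * Complex.I / N) := rfl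
    rw [pow_one, hv, Periodic.qParam, Periodic.qParam, ← Complex.exp_add, modular_T_smul,
      UpperHalfPlane.coe_vadd]
    congr 1
    push_cast
    ring
  have h1 := (hasExp_expHom f).comp (fun τ ↦ ModularGroup.T • τ) z 1 hq
  rw [show ((f : ℍ → ℂ) ∘ fun τ ↦ ModularGroup.T • τ) = (f : ℍ → ℂ) from funext hf,
    qExpand_one_apply] at h1
  have h2 := (hasExp_expHom f).unique (Nat.pos_of_ne_zero (NeZero.ne N)) h1
  have h3 := congrArg (fun s : LaurentSeries ℂ ↦ s.coeff n) h2
  simp only [qScale_coeff, coeffMap_coeff] at h3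
  have hzn : ((z ^ n : ℂˣ) : ℂ) ≠ 1 := by
    rw [Units.val_zpow_eq_zpow_val, show (z : ℂ) = Complex.exp (2 * Real.pi * Complex.I / N) from rfl]
    exact fun h ↦ hn (((Complex.isPrimitiveRoot_exp N (NeZero.ne N)).zpow_eq_one_iff_dvd n).mp h)
  have h4 : valC ((expHom N f).coeff n) = 0 := by
    by_contra h0
    exact hzn (mul_right_cancel₀ h0 (by rw [one_mul]; exact h3.symm))
  exact valC_injective (by rw [h4, map_zero])

/-- A bounded invariant element is constant. -/
theorem exists_expHom_eq_single (f : ↥(expRing N))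
    (hf : ∀ (g : SL(2, ℤ)) (τ : ℍ), (f : ℍ → ℂ) (g • τ) = (f : ℍ → ℂ) τ)
    (hpos : ∀ n < 0, (expHom N f).coeff n = 0) :
    ∃ c : R0, expHom N f = single (0 : ℤ) c := by
  have hslash : ∀ g : SL(2, ℤ), (f : ℍ → ℂ) ∣[(0 : ℤ)] g = (f : ℍ → ℂ) := fun g ↦ by
    funext τ
    rw [ModularForm.SL_slash_apply, hf, neg_zero, zpow_zero, mul_one]
  have hb : IsBoundedAtImInfty (f : ℍ → ℂ) :=
    (hasExp_expHom f).isBoundedAtImInfty (Nat.pos_of_ne_zero (NeZero.ne N))
      fun n hn ↦ by rw [coeffMap_coeff, hpos n hn, map_zero]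
  let F : ModularForm 𝒮ℒ 0 :=
    { toFun := (f : ℍ → ℂ)
      slash_action_eq' := fun _ ⟨g, hg⟩ ↦ hg ▸ hslash g
      holo' := f.2.1
      bdd_at_cusps' := fun {c} hc ↦ by
        rw [Subgroup.IsArithmetic.isCusp_iff_isCusp_SL2Z] at hc
        rw [OnePoint.isBoundedAt_iff_forall_SL2Z hc]
        intro g _
        rw [hslash g]
        exact hb }
  obtain ⟨c, hc⟩ := ModularFormClass.levelOne_weight_zero_const F
  have hfc : (f : ℍ → ℂ) = fun _ ↦ c := hc
  have h1 := (hasExp_expHom f).unique (Nat.pos_of_ne_zero (NeZero.ne N))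
    (hfc ▸ hasExp_const (h := N) c)
  refine ⟨(expHom N f).coeff 0, ?_⟩
  apply coeffMap_injective valC_injective
  rw [coeffMap_single]
  have h2 := congrArg (fun s : LaurentSeries ℂ ↦ s.coeff 0) h1
  simp only [coeffMap_coeff, HahnSeries.coeff_single_same] at h2
  rw [h2]
  exact h1

variable (N) in
/-- Evaluation of a polynomial at the expansion of `j`. -/
def evJ : Polynomial R0 →+* LaurentSeries R0 :=
  Polynomial.eval₂RingHom HahnSeries.C (qExpand R0 N (jqModC R0))

theorem invariant_mem_range_evJ_aux (M : ℕ) : ∀ f : ↥(expRing N),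
    (∀ (g : SL(2, ℤ)) (τ : ℍ), (f : ℍ → ℂ) (g • τ) = (f : ℍ → ℂ) τ) →
    (∀ n < -(M : ℤ), (expHom N f).coeff n = 0) → expHom N f ∈ (evJ N).range := by
  induction M with
  | zero =>
    intro f hf hpos
    obtain ⟨c, hc⟩ := exists_expHom_eq_single f hf (by simpa using hpos)
    exact ⟨Polynomial.C c, by rw [hc, evJ, Polynomial.coe_eval₂RingHom, Polynomial.eval₂_C]; rfl⟩
  | succ M ih =>
    intro f hf hpos
    set c := (expHom N f).coeff (-((M + 1 : ℕ) : ℤ)) with hc
    rcases eq_or_ne c 0 with h0 | h0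
    · refine ih f hf fun n hn ↦ ?_
      rcases lt_trichotomy n (-((M + 1 : ℕ) : ℤ)) with h | h | h
      · exact hpos n h
      · rw [h, ← hc, h0]
      · push_cast at h; omega
    obtain ⟨k, hk⟩ : (N : ℤ) ∣ -((M + 1 : ℕ) : ℤ) := by
      by_contra hnd
      exact h0 (coeff_eq_zero_of_periodic f (hf _) hnd)
    obtain ⟨m, rfl⟩ : ∃ m : ℕ, k = -(m : ℤ) := by
      refine ⟨(-k).toNat, ?_⟩
      have : k ≤ 0 := by
        by_contra hkp
        have : (0 : ℤ) < (N : ℤ) * k :=
          mul_pos (by exact_mod_cast Nat.pos_of_ne_zero (NeZero.ne N)) (by omega)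
        omega
      omega
    set g : ↥(expRing N) := f - constElem N c * jElem N ^ m with hg
    have hgs : expHom N g = expHom N f - single (0 : ℤ) c * qExpand R0 N (jqModC R0) ^ m := by
      rw [hg, map_sub, map_mul, map_pow, expHom_constElem, expHom_jElem]
    have hlead : HasLead (single (0 : ℤ) c * qExpand R0 N (jqModC R0) ^ m)
        (-((M + 1 : ℕ) : ℤ)) c := by
      have h := (hasLead_C c).mul (hasLead_prod (Finset.range m)
        (s := fun _ ↦ qExpand R0 N (jqModC R0)) fun _ _ ↦ (hasLead_jqModC R0).qExpand N)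
      simp only [Finset.prod_const, Finset.card_range, Finset.sum_const, one_pow, mul_one,
        zero_add, nsmul_eq_mul] at h
      rw [hk]
      convert! h using 1
      ring
    have hgr : expHom N g ∈ (evJ N).range := by
      refine ih g (fun γ τ ↦ ?_) fun n hn ↦ ?_
      · show (f : ℍ → ℂ) (γ • τ) - valC c * MF.kleinJ (γ • τ) ^ m =
          (f : ℍ → ℂ) τ - valC c * MF.kleinJ τ ^ m
        rw [hf, MF.kleinJ_smul]
      · rw [hgs, HahnSeries.coeff_sub]
        rcases lt_trichotomy n (-((M + 1 : ℕ) : ℤ)) with h | h | h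
        · rw [hpos n h, hlead.coeff_of_lt h, sub_zero]
        · rw [h, hlead.coeff_eq, ← hc, sub_self]
        · push_cast at h; omega
    have : expHom N f = expHom N g + single (0 : ℤ) c * qExpand R0 N (jqModC R0) ^ m := by
      rw [hgs, sub_add_cancel]
    rw [this]
    refine add_mem hgr ⟨Polynomial.C c * Polynomial.X ^ m, ?_⟩
    simp [evJ, HahnSeries.C_apply]

/-- An `SL(2, ℤ)`-invariant element is a polynomial in `j` over `R0`. -/
theorem invariant_mem_range_evJ (f : ↥(expRing N))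
    (hf : ∀ (g : SL(2, ℤ)) (τ : ℍ), (f : ℍ → ℂ) (g • τ) = (f : ℍ → ℂ) τ) :
    expHom N f ∈ (evJ N).range := by
  refine invariant_mem_range_evJ_aux (expHom N f).order.natAbs f hf fun n hn ↦ ?_
  exact HahnSeries.coeff_eq_zero_of_lt_order (by omega)

end Fermat.Agent.Igusa
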