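/-
The integral modular equations over `R0[j]` (helper50, S28).
-/
import Fermat.Agent.Igusa.LevelOne
import Mathlib.Algebra.Polynomial.Lifts

set_option autoImplicit false

noncomputable section

open UpperHalfPlane Function ModularCurve CongruenceSubgroup Polynomial
open scoped Manifold MatrixGroups ModularForm

namespace Fermat.Agent.Igusa

/-- `SL(2, ℤ) ⧸ Γ₀(N)`. -/
abbrev Coset (N : ℕ) : Type := SL(2, ℤ) ⧸ Gamma0 N

instance cosetFinite (N : ℕ) [NeZero N] : Finite (Coset N) := Subgroup.finite_quotient_of_finiteIndex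

variable {N : ℕ}

/-- A representative of the right coset attached to `q`. -/
def rep (q : Coset N) : SL(2, ℤ) := q.out⁻¹

/-- The lower left entry of the representative. -/
def lowerLeft (q : Coset N) : ℤ := rep q 1 0

theorem rep_mem_iff (q : Coset N) : rep q ∈ Gamma0 N ↔ q = ((1 : SL(2, ℤ)) : Coset N) := by
  conv_rhs => rw [← QuotientGroup.out_eq' q, QuotientGroup.eq, mul_one]
  rfl

theorem dvd_lowerLeft_iff (q : Coset N) :
    (N : ℤ) ∣ lowerLeft q ↔ q = ((1 : SL(2, ℤ)) : Coset N) := by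
  rw [← rep_mem_iff, Gamma0_mem, lowerLeft, ← ZMod.intCast_zmod_eq_zero_iff_dvd]

/-- The conjugate of `f` attached to the coset `q`. -/
def conjFun (f : ℍ → ℂ) (q : Coset N) : ℍ → ℂ := fun τ ↦ f (rep q • τ)

theorem conjFun_smul {f : ℍ → ℂ} (hf : GammaInv N f) (q : Coset N) (γ : SL(2, ℤ)) (τ : ℍ) :
    conjFun f q (γ • τ) = conjFun f (γ⁻¹ • q) τ := by
  set q' := γ⁻¹ • q
  have hmem : (q'.out)⁻¹ * (γ⁻¹ * q.out) ∈ Gamma0 N := by
    rw [← QuotientGroup.eq, QuotientGroup.out_eq']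
    show γ⁻¹ • q = _
    conv_lhs => rw [← QuotientGroup.out_eq' q]
    rfl
  have h := hf _ hmem (rep q • γ • τ)
  simp only [conjFun, rep, smul_smul] at h ⊢
  rw [← h]
  congr 2
  group

/-- Functions all of whose conjugates have expansions over `R0`. -/
structure Conjugable (N : ℕ) (f : ℍ → ℂ) : Prop where
  inv : GammaInv N f
  exp : ∀ q : Coset N, conjFun f q ∈ expRing N

/-- The conjugate as an element of `expRing N`. -/
def Conjugable.conj {f : ℍ → ℂ} (hf : Conjugable N f) (q : Coset N) : ↥(expRing N) :=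
  ⟨conjFun f q, hf.exp q⟩

/-- Evaluation at a point. -/
def evalAtPoint (N : ℕ) (τ : ℍ) : ↥(expRing N) →+* ℂ :=
  (Pi.evalRingHom (fun _ : ℍ ↦ ℂ) τ).comp (expRing N).subtype

@[simp] theorem evalAtPoint_apply (τ : ℍ) (f : ↥(expRing N)) :
    evalAtPoint N τ f = (f : ℍ → ℂ) τ := rfl

section Lagrange

variable {ι R S : Type*} [Fintype ι] [CommRing R] [CommRing S]

open Classical in
/-- The Lagrange numerator `∑ z_q ∏_{q' ≠ q} (Y - x_q')`. -/
def lagrangeNum (x z : ι → R) : R[X] :=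
  ∑ q, C (z q) * ∏ q' ∈ Finset.univ.erase q, (X - C (x q'))

theorem map_lagrangeNum (φ : R →+* S) (x z : ι → R) :
    (lagrangeNum x z).map φ = lagrangeNum (φ ∘ x) (φ ∘ z) := by
  simp [lagrangeNum, Polynomial.map_sum, Polynomial.map_prod]

theorem lagrangeNum_comp_equiv (e : ι ≃ ι) (x z : ι → R) :
    lagrangeNum (x ∘ e) (z ∘ e) = lagrangeNum x z := by
  classical
  simp only [lagrangeNum]
  refine Fintype.sum_equiv e _ _ fun q ↦ ?_
  congr 1
  exact Finset.prod_equiv e (fun q' ↦ by simp) fun q' _ ↦ rfl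

theorem eval_lagrangeNum (x z : ι → R) (q : ι) :
    (lagrangeNum x z).eval (x q) =
      z q * (∏ q' : ι, (X - C (x q'))).derivative.eval (x q) := by
  classical
  simp only [lagrangeNum, derivative_prod_finset, derivative_X_sub_C, mul_one, eval_finset_sum,
    eval_mul, eval_C, eval_prod, eval_sub, eval_X, Finset.mul_sum]
  refine Finset.sum_congr rfl fun q' _ ↦ ?_
  rcases eq_or_ne q' q with rfl | h
  · rfl
  · rw [Finset.prod_eq_zero (i := q) (Finset.mem_erase.mpr ⟨h.symm, Finset.mem_univ q⟩)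
      (sub_self _), mul_zero, mul_zero]

end Lagrange

variable [NeZero N]

open Classical in
/-- A coefficientwise invariant polynomial over `expRing N` comes from `R0[j]`. -/
theorem mem_lifts_of_invariant {p : (↥(expRing N))[X]}
    (hp : ∀ (γ : SL(2, ℤ)) (τ : ℍ), p.map (evalAtPoint N (γ • τ)) = p.map (evalAtPoint N τ)) :
    p.map (expHom N) ∈ Polynomial.lifts (evJ N) := by
  refine (lifts_iff_coeff_lifts _).mpr fun i ↦ ?_
  rw [coeff_map]
  obtain ⟨P, hP⟩ := invariant_mem_range_evJ (p.coeff i) fun γ τ ↦ by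
    simpa using congrArg (fun r : ℂ[X] ↦ r.coeff i) (hp γ τ)
  exact ⟨P, hP⟩

/-- `∏ (Y - f|q)`. -/
theorem exists_charPoly [Fintype (Coset N)] {f : ℍ → ℂ} (hf : Conjugable N f) :
    ∃ P : R0[X][X], P.Monic ∧ P.natDegree = Fintype.card (Coset N) ∧
      P.map (evJ N) = ∏ q : Coset N, (X - C (expHom N (hf.conj q))) := by
  have hinv : ∀ (γ : SL(2, ℤ)) (τ : ℍ),
      (∏ q : Coset N, (X - C (hf.conj q))).map (evalAtPoint N (γ • τ)) =
        (∏ q : Coset N, (X - C (hf.conj q))).map (evalAtPoint N τ) := fun γ τ ↦ by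
    simp only [Polynomial.map_prod, Polynomial.map_sub, map_X, map_C, evalAtPoint_apply,
      Conjugable.conj, conjFun_smul hf.inv]
    exact Fintype.prod_equiv (MulAction.toPerm γ⁻¹) _ _ fun q ↦ rfl
  have hl := mem_lifts_of_invariant hinv
  simp only [Polynomial.map_prod, Polynomial.map_sub, map_X, map_C] at hl
  have hmon : (∏ q : Coset N, (X - C (expHom N (hf.conj q)))).Monic :=
    monic_prod_of_monic _ _ fun q _ ↦ monic_X_sub_C _
  obtain ⟨P, hP, hdeg, hPm⟩ := lifts_and_natDegree_eq_and_monic hl hmon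
  exact ⟨P, hPm, by rw [hdeg, natDegree_finsetProd_X_sub_C_eq_card, Finset.card_univ], hP⟩

/-- The Lagrange numerator `∑ z|q ∏_{q' ≠ q} (Y - y|q')`. -/
theorem exists_lagrange [Fintype (Coset N)] {y z : ℍ → ℂ} (hy : Conjugable N y)
    (hz : Conjugable N z) :
    ∃ Q : R0[X][X], Q.map (evJ N) =
      lagrangeNum (fun q ↦ expHom N (hy.conj q)) (fun q ↦ expHom N (hz.conj q)) := by
  have hcomp : ∀ (w : ℍ → ℂ) (hw : Conjugable N w) (γ : SL(2, ℤ)) (τ : ℍ),
      evalAtPoint N (γ • τ) ∘ hw.conj =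
        (evalAtPoint N τ ∘ hw.conj) ∘ MulAction.toPerm (α := SL(2, ℤ)) γ⁻¹ :=
    fun w hw γ τ ↦ funext fun q ↦ conjFun_smul hw.inv q γ τ
  have hinv : ∀ (γ : SL(2, ℤ)) (τ : ℍ),
      (lagrangeNum hy.conj hz.conj).map (evalAtPoint N (γ • τ)) =
        (lagrangeNum hy.conj hz.conj).map (evalAtPoint N τ) := fun γ τ ↦ by
    rw [map_lagrangeNum, map_lagrangeNum, hcomp y hy, hcomp z hz, lagrangeNum_comp_equiv]
  have hl := mem_lifts_of_invariant hinv
  rw [map_lagrangeNum] at hl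
  exact (mem_lifts _).mp hl

/-! ### The three families -/

omit [NeZero N] in
theorem exists_triData (q : Coset N) {d : ℕ} [NeZero d] (hd : d ∣ N) :
    ∃ (t : TriData N) (g : SL(2, ℤ)),
      IsTri (rep q) d g t.a t.e t.b ∧ t.a = Int.gcd d (lowerLeft q) := by
  obtain ⟨g, a, e, b, h, ha⟩ := exists_isTri (rep q) d
  exact ⟨⟨a, e, b, h.mul_eq.symm ▸ hd⟩, g, h, ha⟩

/-- The triangular matrix of `(d 0; 0 1) rep q`. -/
def tri (q : Coset N) {d : ℕ} [NeZero d] (hd : d ∣ N) : TriData N := (exists_triData q hd).choose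

omit [NeZero N] in
theorem tri_spec (q : Coset N) {d : ℕ} [NeZero d] (hd : d ∣ N) :
    ∃ g : SL(2, ℤ), IsTri (rep q) d g (tri q hd).a (tri q hd).e (tri q hd).b :=
  let ⟨g, h, _⟩ := (exists_triData q hd).choose_spec
  ⟨g, h⟩

omit [NeZero N] in
theorem tri_a (q : Coset N) {d : ℕ} [NeZero d] (hd : d ∣ N) :
    (tri q hd).a = Int.gcd d (lowerLeft q) :=
  let ⟨_, _, h⟩ := (exists_triData q hd).choose_spec
  h

theorem tri_mul (q : Coset N) {d : ℕ} [NeZero d] (hd : d ∣ N) :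
    (tri q hd).a * (tri q hd).e = d :=
  let ⟨_, h⟩ := tri_spec q hd
  h.mul_eq

/-- `j(dτ)`. -/
def jdFun (d : ℕ) (τ : ℍ) : ℂ := MF.kleinJ (MF.scaleH d τ)

theorem mdifferentiable_comp_smul {f : ℍ → ℂ} (hf : MDiff f) (γ : SL(2, ℤ)) :
    MDiff (fun τ ↦ f (γ • τ)) := by
  have h := hf.slash 0 (γ : GL (Fin 2) ℝ)
  rw [← ModularForm.SL_slash] at h
  convert! h using 1
  funext τ
  simp [ModularForm.SL_slash_apply]

theorem mdifferentiable_comp_scaleH {f : ℍ → ℂ} (hf : MDiff f) (d : ℕ) [NeZero d] :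
    MDiff (fun τ ↦ f (MF.scaleH d τ)) := by
  have h0 : MDiff (f ∣[(0 : ℤ)] ModularForm.heckeDiagMatrix d) := hf.slash 0 _
  show MDiff (f ∘ MF.scaleH d)
  rw [MF.comp_scaleH_eq d 0]
  exact h0.const_smul _

theorem mdifferentiable_uFun (d : ℕ) [NeZero d] : MDiff (uFun d) :=
  mdifferentiable_const.mul
    ((mdifferentiable_comp_scaleH MF.mem_qFunctions_discriminant.2.1 d).mul mdifferentiable_discriminant_inv)

theorem mdifferentiable_vFun (d : ℕ) [NeZero d] : MDiff (vFun d) :=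
  MF.mem_qFunctions_discriminant.2.1.mul (mdifferentiable_comp_scaleH mdifferentiable_discriminant_inv d)

variable {d : ℕ} [NeZero d]

theorem hasExp_conj_jdFun (hd : d ∣ N) (q : Coset N) :
    HasExp N (conjFun (jdFun d) q) (coeffMap valC ((tri q hd).jSer (zetaUnit N))) := by
  obtain ⟨g, h⟩ := tri_spec q hd
  rw [show conjFun (jdFun d) q = fun τ ↦ MF.kleinJ (affH (tri q hd).a (tri q hd).e (tri q hd).b τ)
    from funext fun τ ↦ h.jFun_eq τ]
  exact hasExp_jSer _

theorem hasExp_conj_uFun (hd : d ∣ N) (q : Coset N) :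
    HasExp N (conjFun (uFun d) q) (coeffMap valC ((tri q hd).uSer (zetaUnit N))) := by
  obtain ⟨g, h⟩ := tri_spec q hd
  have he : conjFun (uFun d) q = fun τ ↦ ((tri q hd).a : ℂ) ^ 12 * (ModularForm.discriminant
      (affH (tri q hd).a (tri q hd).e (tri q hd).b τ) * (ModularForm.discriminant τ)⁻¹) :=
    funext fun τ ↦ h.uFun_eq τ
  rw [he]
  exact hasExp_uSer _

theorem hasExp_conj_vFun (hd : d ∣ N) (q : Coset N) :
    HasExp N (conjFun (vFun d) q) (coeffMap valC ((tri q hd).vSer (zetaUnit N))) := by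
  obtain ⟨g, h⟩ := tri_spec q hd
  have he : conjFun (vFun d) q = fun τ ↦ ((tri q hd).e : ℂ) ^ 12 * (ModularForm.discriminant τ *
      (ModularForm.discriminant (affH (tri q hd).a (tri q hd).e (tri q hd).b τ))⁻¹) :=
    funext fun τ ↦ h.vFun_eq τ
  rw [he]
  exact hasExp_vSer _

theorem conjugable_jdFun (hd : d ∣ N) : Conjugable N (jdFun d) :=
  ⟨gammaInv_jFun_scale hd, fun q ↦ ⟨mdifferentiable_comp_smul
    (mdifferentiable_comp_scaleH MF.kleinJ_mdifferentiable d) _, _, hasExp_conj_jdFun hd q⟩⟩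

theorem conjugable_uFun (hd : d ∣ N) : Conjugable N (uFun d) :=
  ⟨gammaInv_uFun hd, fun q ↦ ⟨mdifferentiable_comp_smul (mdifferentiable_uFun d) _, _,
    hasExp_conj_uFun hd q⟩⟩

theorem conjugable_vFun (hd : d ∣ N) : Conjugable N (vFun d) :=
  ⟨gammaInv_vFun hd, fun q ↦ ⟨mdifferentiable_comp_smul (mdifferentiable_vFun d) _, _,
    hasExp_conj_vFun hd q⟩⟩

/-- The series of the conjugates. -/
theorem expHom_conj_jdFun (hd : d ∣ N) (q : Coset N) :
    expHom N ((conjugable_jdFun hd).conj q) = (tri q hd).jSer (zetaUnit N) :=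
  expHom_eq (hasExp_conj_jdFun hd q)

theorem expHom_conj_uFun (hd : d ∣ N) (q : Coset N) :
    expHom N ((conjugable_uFun hd).conj q) = (tri q hd).uSer (zetaUnit N) :=
  expHom_eq (hasExp_conj_uFun hd q)

theorem expHom_conj_vFun (hd : d ∣ N) (q : Coset N) :
    expHom N ((conjugable_vFun hd).conj q) = (tri q hd).vSer (zetaUnit N) :=
  expHom_eq (hasExp_conj_vFun hd q)

/-- At the trivial coset the series is that of `j(dτ)`. -/
theorem jSer_tri_one (hd : d ∣ N) :
    (tri ((1 : SL(2, ℤ)) : Coset N) hd).jSer (zetaUnit N) = qExpand R0 (d * N) (jqModC R0) := by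
  haveI : NeZero (d * N) := ⟨Nat.mul_ne_zero (NeZero.ne d) (NeZero.ne N)⟩
  set t : TriData N := ⟨d, 1, 0, by simpa using hd⟩
  have hmem : rep ((1 : SL(2, ℤ)) : Coset N) ∈ Gamma0 N := (rep_mem_iff _).mpr rfl
  obtain ⟨g, h⟩ := isTri_Gamma0 hd hmem
  have h1 : HasExp N (conjFun (jdFun d) ((1 : SL(2, ℤ)) : Coset N))
      (coeffMap valC (t.jSer (zetaUnit N))) := by
    rw [show conjFun (jdFun d) ((1 : SL(2, ℤ)) : Coset N) =
      fun τ ↦ MF.kleinJ (affH t.a t.e t.b τ) from funext fun τ ↦ h.jFun_eq τ]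
    exact hasExp_jSer t
  rw [expSeries_unique N (hasExp_conj_jdFun hd _) h1]
  simp only [TriData.jSer, TriData.twist, RingHom.comp_apply]
  rw [show t.b = 0 from rfl, zero_mul, zpow_zero, qScale_one, RingHom.id_apply]
  exact qExpand_congr (by simp [TriData.r, t]) _

/-- Distinct cosets give distinct triples at `d = N`. -/
theorem eq_of_tri_eq {q₁ q₂ : Coset N} (ha : (tri q₁ (dvd_refl N)).a = (tri q₂ (dvd_refl N)).a)
    (hb : ((tri q₁ (dvd_refl N)).e : ℤ) ∣
      (tri q₁ (dvd_refl N)).b - (tri q₂ (dvd_refl N)).b) : q₁ = q₂ := by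
  obtain ⟨g₁, h₁⟩ := tri_spec q₁ (dvd_refl N)
  obtain ⟨g₂, h₂⟩ := tri_spec q₂ (dvd_refl N)
  have he : (tri q₁ (dvd_refl N)).e = (tri q₂ (dvd_refl N)).e :=
    Nat.eq_of_mul_eq_mul_left (tri q₁ (dvd_refl N)).a_pos
      (by rw [h₁.mul_eq, ha, h₂.mul_eq])
  rw [← ha, ← he] at h₂
  have h := mem_Gamma0_of_isTri h₁ h₂ hb
  simp only [rep, inv_inv] at h
  rw [← QuotientGroup.out_eq' q₁, ← QuotientGroup.out_eq' q₂, QuotientGroup.eq]
  exact h

end Fermat.Agent.Igusa
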