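/-
The counting argument: a set of cusps (with multiplicity) on which all modular units have total
order zero, and which avoids `∞`, is empty (helper50, S28).
-/
import Mathlib.NumberTheory.ArithmeticFunction.Moebius
import Mathlib.Data.Nat.Totient

set_option autoImplicit false

open Finset ArithmeticFunction
open scoped ArithmeticFunction.Moebius

namespace Fermat.Agent.Igusa

theorem sum_moebius_gcd_sq_eq_zero {N : ℕ} (hN : 0 < N) {z : ℤ} (hz : ¬ (N : ℤ) ∣ z) :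
    ∑ x ∈ N.divisorsAntidiagonal, (μ x.1 : ℤ) * ((Int.gcd (x.2 : ℤ) z : ℕ) : ℤ) ^ 2 = 0 := by
  classical
  set J : ℕ → ℤ := fun e ↦ ∑ x ∈ e.divisorsAntidiagonal, (μ x.1 : ℤ) * (x.2 : ℤ) ^ 2
  have hJ : ∀ n : ℕ, n > 0 → ∑ e ∈ n.divisors, J e = (n : ℤ) ^ 2 :=
    (sum_eq_iff_sum_mul_moebius_eq (f := J) (g := fun n : ℕ ↦ (n : ℤ) ^ 2)).mpr fun n _ ↦ rfl
  set h : ℕ → ℤ := fun e ↦ if (e : ℤ) ∣ z then J e else 0
  have hg : ∀ n : ℕ, n > 0 → ∑ e ∈ n.divisors, h e = ((Int.gcd (n : ℤ) z : ℕ) : ℤ) ^ 2 := by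
    intro n hn
    have hg0 : 0 < Int.gcd (n : ℤ) z :=
      Nat.pos_of_ne_zero (by simp [Int.gcd_eq_zero_iff, hn.ne'])
    rw [← hJ _ hg0]
    simp only [h, ← Finset.sum_filter]
    refine Finset.sum_congr ?_ fun _ _ ↦ rfl
    ext e
    simp only [Finset.mem_filter, Nat.mem_divisors]
    refine ⟨fun ⟨⟨h1, _⟩, h2⟩ ↦ ⟨Int.dvd_gcd (Int.natCast_dvd_natCast.mpr h1) h2, hg0.ne'⟩,
      fun ⟨h1, _⟩ ↦ ⟨⟨?_, hn.ne'⟩, ?_⟩⟩
    · exact_mod_cast (Int.natCast_dvd_natCast.mpr h1).trans (Int.gcd_dvd_left _ _)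
    · exact (Int.natCast_dvd_natCast.mpr h1).trans (Int.gcd_dvd_right _ _)
  have := (sum_eq_iff_sum_mul_moebius_eq (f := h)
    (g := fun n : ℕ ↦ ((Int.gcd (n : ℤ) z : ℕ) : ℤ) ^ 2)).mp hg N hN
  simpa [h, hz] using this

theorem sum_moebius_mul_eq_totient {N : ℕ} (hN : 0 < N) :
    ∑ x ∈ N.divisorsAntidiagonal, (μ x.1 : ℤ) * (x.2 : ℤ) = (N.totient : ℤ) :=
  (sum_eq_iff_sum_mul_moebius_eq (f := fun n : ℕ ↦ (n.totient : ℤ)) (g := fun n : ℕ ↦ (n : ℤ))).mp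
    (fun n _ ↦ by exact_mod_cast n.sum_totient) N hN

/-- The combinatorial heart of irreducibility. -/
theorem eq_empty_of_orders {ι : Type*} {N : ℕ} (hN : 0 < N) (D : Finset ι) (z : ι → ℤ)
    (hz : ∀ q ∈ D, ¬ (N : ℤ) ∣ z q)
    (h : ∀ m, m ∣ N → ∑ q ∈ D, ((Int.gcd (m : ℤ) (z q) : ℕ) : ℤ) ^ 2 = (m : ℤ) * (D.card : ℤ)) :
    D = ∅ := by
  have h1 : ∑ q ∈ D, ∑ x ∈ N.divisorsAntidiagonal,
      (μ x.1 : ℤ) * ((Int.gcd (x.2 : ℤ) (z q) : ℕ) : ℤ) ^ 2 = 0 :=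
    Finset.sum_eq_zero fun q hq ↦ sum_moebius_gcd_sq_eq_zero hN (hz q hq)
  rw [Finset.sum_comm] at h1
  have h2 : ∀ x ∈ N.divisorsAntidiagonal,
      ∑ q ∈ D, (μ x.1 : ℤ) * ((Int.gcd (x.2 : ℤ) (z q) : ℕ) : ℤ) ^ 2 =
        (μ x.1 : ℤ) * (x.2 : ℤ) * (D.card : ℤ) := fun x hx ↦ by
    rw [← Finset.mul_sum, h x.2 ⟨x.1, by rw [mul_comm]; exact ((Nat.mem_divisorsAntidiagonal.mp hx).1).symm⟩,
      mul_assoc]
  rw [Finset.sum_congr rfl h2, ← Finset.sum_mul, sum_moebius_mul_eq_totient hN] at h1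
  rcases mul_eq_zero.mp h1 with h3 | h3
  · exact absurd (Int.natCast_eq_zero.mp h3) (Nat.totient_pos.mpr hN).ne'
  · exact Finset.card_eq_zero.mp (Int.natCast_eq_zero.mp h3)

end Fermat.Agent.Igusa
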