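/-
Irreducibility of the modular equation over every field in which `N` is invertible
(helper50, S28).
-/
import Fermat.Agent.Igusa.ModularEquations
import Fermat.Agent.Igusa.OrbitCount
import Mathlib.RingTheory.Polynomial.Resultant.Basic
import Mathlib.FieldTheory.RatFunc.Basic
import Mathlib.RingTheory.Polynomial.Cyclotomic.Roots
import Mathlib.FieldTheory.Minpoly.Field

set_option autoImplicit false

noncomputable section

open ModularCurve Polynomial

namespace Fermat.Agent.Igusa

variable (N : ℕ) [NeZero N] {k : Type} [Field k] (φ : R0 →+* k)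

variable (k) in
/-- `j` in `k((Q))`, `q = Q^N`. -/
def jQ : LaurentSeries k := qExpand k N (jqModC k)

variable (k) in
/-- `k[X] → k((Q))`, `X ↦ j`. -/
def psi0 : k[X] →+* LaurentSeries k := eval₂RingHom HahnSeries.C (jQ N k)

variable {N}

theorem hasLead_jQ : HasLead (jQ N k) (-(N : ℤ)) 1 := by
  simpa [jQ] using (hasLead_jqModC k).qExpand N

theorem psi0_coeff (p : k[X]) :
    (psi0 N k p).coeff (-((N : ℤ) * p.natDegree)) = p.leadingCoeff := by
  rw [psi0, coe_eval₂RingHom, eval₂_eq_sum_range, HahnSeries.coeff_sum,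
    Finset.sum_eq_single p.natDegree]
  · rw [HahnSeries.C_apply, HahnSeries.coeff_single_mul, sub_zero]
    have h := hasLead_prod (Finset.range p.natDegree) (s := fun _ ↦ jQ N k)
      fun _ _ ↦ hasLead_jQ (N := N) (k := k)
    simp only [Finset.prod_const, Finset.card_range, Finset.sum_const, one_pow, nsmul_eq_mul] at h
    rw [show -((N : ℤ) * p.natDegree) = (p.natDegree : ℤ) * (-(N : ℤ)) by ring, h.coeff_eq, mul_one]
    rfl
  · intro i hi hne
    rw [HahnSeries.C_apply, HahnSeries.coeff_single_mul, sub_zero]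
    have h := hasLead_prod (Finset.range i) (s := fun _ ↦ jQ N k)
      fun _ _ ↦ hasLead_jQ (N := N) (k := k)
    simp only [Finset.prod_const, Finset.card_range, Finset.sum_const, one_pow, nsmul_eq_mul] at h
    rw [h.coeff_of_lt, mul_zero]
    have : i < p.natDegree := lt_of_le_of_ne (Nat.lt_succ_iff.mp (Finset.mem_range.mp hi)) hne
    have hN : (0 : ℤ) < N := by exact_mod_cast Nat.pos_of_ne_zero (NeZero.ne N)
    have h2 : (i : ℤ) < p.natDegree := by exact_mod_cast this
    nlinarith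
  · intro h
    exact absurd (Finset.mem_range.mpr (Nat.lt_succ_self _)) h

theorem psi0_injective : Function.Injective (psi0 N k) := by
  rw [injective_iff_map_eq_zero]
  intro p hp
  by_contra h0
  exact leadingCoeff_ne_zero.mpr h0 (by rw [← psi0_coeff (N := N) p, hp]; rfl)

theorem coeffMap_evJ (P : R0[X]) : coeffMap φ (evJ N P) = psi0 N k (P.map φ) := by
  rw [evJ, psi0, coe_eval₂RingHom, coe_eval₂RingHom, Polynomial.hom_eval₂, eval₂_map]
  congr 1
  · refine RingHom.ext fun c ↦ ?_
    simp [HahnSeries.C_apply]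
  · rw [coeffMap_qExpand, ModularCurve.coeffMap_jqModC]
    rfl

/-- The conjugate series in `k((Q))`. -/
def jK (q : Coset N) {d : ℕ} [NeZero d] (hd : d ∣ N) : LaurentSeries k :=
  coeffMap φ ((tri q hd).jSer (zetaUnit N))

theorem isPrimitiveRoot_map_zeta (hN : (N : k) ≠ 0) : IsPrimitiveRoot (φ (zetaUnit N : R0)) N := by
  haveI : NeZero (N : k) := ⟨hN⟩
  have h := (isPrimitiveRoot_zetaUnit (N := N)).isRoot_cyclotomic (Nat.pos_of_ne_zero (NeZero.ne N))
  refine isRoot_cyclotomic_iff.mp ?_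
  have h2 := h.map (f := φ)
  rwa [map_cyclotomic] at h2

theorem jK_injective (hN : (N : k) ≠ 0) :
    Function.Injective (fun q : Coset N ↦ jK φ q (dvd_refl N)) := by
  intro q₁ q₂ h
  have hl : ∀ q : Coset N, HasLead (jK φ q (dvd_refl N)) (-((tri q (dvd_refl N)).r : ℤ))
      (((Units.map φ.toMonoidHom (zetaUnit N) ^
        ((tri q (dvd_refl N)).b * ((N / (tri q (dvd_refl N)).e : ℕ) : ℤ))) ^ (-1 : ℤ) : kˣ) : k) := by
    intro q
    rw [jK, TriData.coeffMap_jSer]
    exact TriData.hasLead_jSer _ _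
  have h12 := (hl q₁).ext ((show jK φ q₁ (dvd_refl N) = jK φ q₂ (dvd_refl N) from h) ▸ hl q₂)
    (Units.ne_zero _) (Units.ne_zero _)
  obtain ⟨hr, hc⟩ := h12
  have hdiv : ∀ q : Coset N, N / (tri q (dvd_refl N)).e = (tri q (dvd_refl N)).a := fun q ↦
    Nat.div_eq_of_eq_mul_left (tri q (dvd_refl N)).e_pos (tri_mul q (dvd_refl N)).symm
  have ha : (tri q₁ (dvd_refl N)).a = (tri q₂ (dvd_refl N)).a := by
    simp only [TriData.r, hdiv, neg_inj, Nat.cast_inj] at hr
    exact Nat.mul_self_inj.mp hr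
  refine eq_of_tri_eq ha ?_
  rw [hdiv, hdiv, ← ha, zpow_neg_one, zpow_neg_one, Units.val_inj, inv_inj] at hc
  have hz : IsPrimitiveRoot (Units.map φ.toMonoidHom (zetaUnit N)) N :=
    IsPrimitiveRoot.coe_units_iff.mp (isPrimitiveRoot_map_zeta φ hN)
  have h1 := (hz.zpow_eq_one_iff_dvd _).mp
    (show (Units.map φ.toMonoidHom (zetaUnit N)) ^
      ((tri q₁ (dvd_refl N)).b * ((tri q₁ (dvd_refl N)).a : ℤ) -
        (tri q₂ (dvd_refl N)).b * ((tri q₁ (dvd_refl N)).a : ℤ)) = 1 by
      rw [zpow_sub, hc, mul_inv_cancel])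
  have hN' : (N : ℤ) = ((tri q₁ (dvd_refl N)).a : ℤ) * (tri q₁ (dvd_refl N)).e := by
    exact_mod_cast (tri_mul q₁ (dvd_refl N)).symm
  rw [hN', ← sub_mul, mul_comm _ ((tri q₁ (dvd_refl N)).a : ℤ)] at h1
  exact (mul_dvd_mul_iff_left (Int.natCast_ne_zero.mpr (tri q₁ (dvd_refl N)).a_pos.ne')).mp h1

theorem psi0_nonZeroDivisors :
    nonZeroDivisors k[X] ≤ (nonZeroDivisors (LaurentSeries k)).comap (psi0 N k) :=
  fun _ hp ↦ mem_nonZeroDivisors_of_ne_zero
    ((map_ne_zero_iff _ psi0_injective).mpr (nonZeroDivisors.ne_zero hp))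

variable (N k) in
/-- `k(X) → k((Q))`, `X ↦ j`. -/
def psi : RatFunc k →+* LaurentSeries k := RatFunc.liftRingHom (psi0 N k) psi0_nonZeroDivisors

theorem psi_algebraMap (p : k[X]) : psi N k (algebraMap k[X] (RatFunc k) p) = psi0 N k p := by
  have h := RatFunc.liftRingHom_apply_div (psi0 N k) psi0_nonZeroDivisors p 1
  rwa [map_one, div_one, map_one, div_one] at h

variable [Fintype (Coset N)]

/-- `P_f` over `k[j]`. -/
theorem exists_charPoly_k {f : UpperHalfPlane → ℂ} (hf : Conjugable N f) :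
    ∃ P : k[X][X], P.Monic ∧ P.natDegree = Fintype.card (Coset N) ∧
      P.map (psi0 N k) = ∏ q : Coset N, (X - C (coeffMap φ (expHom N (hf.conj q)))) := by
  obtain ⟨P, hP, hdeg, hmap⟩ := exists_charPoly hf
  refine ⟨P.map (Polynomial.mapRingHom φ), hP.map _, by rw [hP.natDegree_map, hdeg], ?_⟩
  have hcomp : (psi0 N k).comp (Polynomial.mapRingHom φ) = (coeffMap φ).comp (evJ N) :=
    RingHom.ext fun P ↦ (coeffMap_evJ φ P).symm
  rw [Polynomial.map_map, hcomp, ← Polynomial.map_map, hmap]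
  simp [Polynomial.map_prod]

theorem exists_lagrange_k {y z : UpperHalfPlane → ℂ} (hy : Conjugable N y) (hz : Conjugable N z) :
    ∃ Q : k[X][X], Q.map (psi0 N k) = lagrangeNum (fun q ↦ coeffMap φ (expHom N (hy.conj q)))
      (fun q ↦ coeffMap φ (expHom N (hz.conj q))) := by
  obtain ⟨Q, hQ⟩ := exists_lagrange hy hz
  refine ⟨Q.map (Polynomial.mapRingHom φ), ?_⟩
  have hcomp : (psi0 N k).comp (Polynomial.mapRingHom φ) = (coeffMap φ).comp (evJ N) :=
    RingHom.ext fun P ↦ (coeffMap_evJ φ P).symm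
  rw [Polynomial.map_map, hcomp, ← Polynomial.map_map, hQ, map_lagrangeNum]
  rfl

theorem isIntegralElem_conj {f : UpperHalfPlane → ℂ} (hf : Conjugable N f) (q : Coset N) :
    (psi0 N k).IsIntegralElem (coeffMap φ (expHom N (hf.conj q))) := by
  obtain ⟨P, hP, -, hmap⟩ := exists_charPoly_k φ hf
  refine ⟨P, hP, ?_⟩
  rw [eval₂_eq_eval_map, hmap, eval_prod]
  exact Finset.prod_eq_zero (Finset.mem_univ q) (by simp)

/-- The conjugate unit series in `k((Q))`. -/
def uK (q : Coset N) {d : ℕ} [NeZero d] (hd : d ∣ N) : LaurentSeries k :=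
  coeffMap φ ((tri q hd).uSer (zetaUnit N))

/-- The inverse unit series in `k((Q))`, up to a constant. -/
def vK (q : Coset N) {d : ℕ} [NeZero d] (hd : d ∣ N) : LaurentSeries k :=
  coeffMap φ ((tri q hd).vSer (zetaUnit N))

omit [Fintype (Coset N)] in
/-- A product over a set of cosets cut out by a polynomial over `k(j)` of values of a polynomial
over `k(j)` lies in `k(j)`. -/
theorem prod_eval_mem_range (O : Finset (Coset N)) (x : Coset N → LaurentSeries k)
    {G : (RatFunc k)[X]} (hmon : G.Monic) (hG : G.map (psi N k) = ∏ q ∈ O, (X - C (x q)))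
    (H : k[X][X]) : ∏ q ∈ O, (H.map (psi0 N k)).eval (x q) ∈ (psi N k).range := by
  set H' : (RatFunc k)[X] := H.map (algebraMap k[X] (RatFunc k))
  have hH : H'.map (psi N k) = H.map (psi0 N k) := by
    rw [Polynomial.map_map]
    congr 1
    exact RingHom.ext psi_algebraMap
  refine ⟨resultant G H' G.natDegree H'.natDegree, ?_⟩
  rw [← resultant_map_map]
  have hsplit : (G.map (psi N k)).Splits := by
    rw [hG]; exact Splits.prod fun q _ ↦ Splits.X_sub_C _
  have hdeg : (G.map (psi N k)).natDegree = G.natDegree := hmon.natDegree_map _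
  have h := resultant_eq_prod_eval (G.map (psi N k)) (H'.map (psi N k)) H'.natDegree
    natDegree_map_le hsplit
  rw [hdeg] at h
  rw [h, (hmon.map _).leadingCoeff, one_pow, one_mul, hG, hH,
    show (∏ q ∈ O, (X - C (x q))) = ((O.val.map x).map fun a ↦ X - C a).prod by
      rw [Multiset.map_map]; rfl,
    roots_multiset_prod_X_sub_C, Multiset.map_map]
  rfl

omit [Fintype (Coset N)] in
theorem mem_range_psi0_of_integral {e : LaurentSeries k} (he : e ∈ (psi N k).range)
    (hint : (psi0 N k).IsIntegralElem e) : e ∈ (psi0 N k).range := by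
  obtain ⟨e', rfl⟩ := he
  obtain ⟨p, hp, hpe⟩ := hint
  have hint' : IsIntegral k[X] e' := by
    refine ⟨p, hp, (psi N k).injective ?_⟩
    rw [map_zero, Polynomial.hom_eval₂, ← hpe]
    congr 1
    exact RingHom.ext psi_algebraMap
  obtain ⟨r, hr⟩ := IsIntegrallyClosed.isIntegral_iff.mp hint'
  exact ⟨r, by rw [← psi_algebraMap, hr]⟩

/-- `j(Nτ)` has degree exactly `card` over `k(j)`: its minimal polynomial is the full product. -/
theorem eq_univ_of_factor (hN : (N : k) ≠ 0) (O : Finset (Coset N))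
    (hone : ((1 : Matrix.SpecialLinearGroup (Fin 2) ℤ) : Coset N) ∈ O)
    {G : (RatFunc k)[X]} (hmon : G.Monic)
    (hG : G.map (psi N k) = ∏ q ∈ O, (X - C (jK φ q (dvd_refl N)))) : O = Finset.univ := by
  classical
  obtain ⟨P, hPm, hPd, hP⟩ := exists_charPoly_k φ (conjugable_jdFun (dvd_refl N))
  replace hP : P.map (psi0 N k) = ∏ q : Coset N, (X - C (jK φ q (dvd_refl N))) := by
    simpa only [expHom_conj_jdFun (dvd_refl N), jK] using hP
  have hinj := jK_injective φ hN
  -- the derivative does not vanish at any root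
  have hder : ∀ q : Coset N,
      (∏ q' : Coset N, (X - C (jK φ q' (dvd_refl N)))).derivative.eval (jK φ q (dvd_refl N)) ≠ 0 := by
    intro q h0
    have hsep : (∏ q' : Coset N, (X - C (jK φ q' (dvd_refl N)))).Separable :=
      separable_prod_X_sub_C_iff.mpr hinj
    have hroot : (∏ q' : Coset N, (X - C (jK φ q' (dvd_refl N)))).eval (jK φ q (dvd_refl N)) = 0 := by
      rw [eval_prod]; exact Finset.prod_eq_zero (Finset.mem_univ q) (by simp)
    exact hsep.eval₂_derivative_ne_zero (RingHom.id _) hroot h0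
  -- the product over any stable set of the conjugates of a modular function lies in `k(j)`
  have hprod : ∀ (O' : Finset (Coset N)) (G' : (RatFunc k)[X]), G'.Monic →
      G'.map (psi N k) = ∏ q ∈ O', (X - C (jK φ q (dvd_refl N))) →
      ∀ (z : UpperHalfPlane → ℂ) (hz : Conjugable N z),
        ∏ q ∈ O', coeffMap φ (expHom N (hz.conj q)) ∈ (psi0 N k).range := by
    intro O' G' hm' hG' z hz
    refine mem_range_psi0_of_integral ?_ ?_
    · obtain ⟨Q, hQ⟩ := exists_lagrange_k φ (conjugable_jdFun (dvd_refl N)) hz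
      replace hQ : Q.map (psi0 N k) = lagrangeNum (fun q ↦ jK φ q (dvd_refl N))
          (fun q ↦ coeffMap φ (expHom N (hz.conj q))) := by
        simpa only [expHom_conj_jdFun (dvd_refl N), jK] using hQ
      have hQe : ∀ q : Coset N, (Q.map (psi0 N k)).eval (jK φ q (dvd_refl N)) =
          coeffMap φ (expHom N (hz.conj q)) *
            (∏ q' : Coset N, (X - C (jK φ q' (dvd_refl N)))).derivative.eval
              (jK φ q (dvd_refl N)) := fun q ↦ by
        rw [hQ]
        exact eval_lagrangeNum (fun q ↦ jK φ q (dvd_refl N))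
          (fun q ↦ coeffMap φ (expHom N (hz.conj q))) q
      obtain ⟨a, ha⟩ := prod_eval_mem_range O' _ hm' hG' Q
      obtain ⟨b, hb⟩ := prod_eval_mem_range O' _ hm' hG' P.derivative
      refine ⟨a / b, ?_⟩
      rw [map_div₀, ha, hb, ← Polynomial.derivative_map, hP, Finset.prod_congr rfl fun q _ ↦ hQe q,
        Finset.prod_mul_distrib]
      exact mul_div_cancel_right₀ _ (Finset.prod_ne_zero_iff.mpr fun q _ ↦ hder q)
    · letI := (psi0 N k).toAlgebra
      exact IsIntegral.prod _ fun q _ ↦ isIntegralElem_conj φ hz q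
  -- orders of the modular units
  have horder : ∀ (O' : Finset (Coset N)) (G' : (RatFunc k)[X]), G'.Monic →
      G'.map (psi N k) = ∏ q ∈ O', (X - C (jK φ q (dvd_refl N))) → ∀ m, m ∣ N →
        ∑ q ∈ O', ((Int.gcd (m : ℤ) (lowerLeft q) : ℕ) : ℤ) ^ 2 = (m : ℤ) * (O'.card : ℤ) := by
    intro O' G' hm' hG' m hm
    haveI : NeZero m := ⟨fun h ↦ NeZero.ne N (Nat.eq_zero_of_zero_dvd (h ▸ hm))⟩
    have hmk : (m : k) ≠ 0 := by
      obtain ⟨c, hc⟩ := hm
      intro h
      exact hN (by rw [hc, Nat.cast_mul, h, zero_mul])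
    obtain ⟨pu, hpu⟩ := hprod O' G' hm' hG' _ (conjugable_uFun hm)
    obtain ⟨pv, hpv⟩ := hprod O' G' hm' hG' _ (conjugable_vFun hm)
    simp only [expHom_conj_uFun hm] at hpu
    simp only [expHom_conj_vFun hm] at hpv
    have huv : psi0 N k (pu * pv) = psi0 N k (C (((m : k) ^ 12) ^ O'.card)) := by
      rw [map_mul, hpu, hpv, ← Finset.prod_mul_distrib, psi0, coe_eval₂RingHom, eval₂_C]
      calc _ = ∏ _q ∈ O', (HahnSeries.C ((m : k) ^ 12) : LaurentSeries k) :=
            Finset.prod_congr rfl fun q _ ↦ by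
              rw [← map_mul, TriData.uSer_mul_vSer, tri_mul, coeffMap_single, map_pow, map_natCast]
              rfl
        _ = _ := by rw [Finset.prod_const, ← map_pow]
    have hne : pu * pv ≠ 0 := by
      rw [psi0_injective huv, Ne, C_eq_zero]
      exact pow_ne_zero _ (pow_ne_zero _ hmk)
    have hdeg0 : pu.natDegree = 0 := by
      have := natDegree_mul (left_ne_zero_of_mul hne) (right_ne_zero_of_mul hne)
      rw [psi0_injective huv, natDegree_C] at this
      omega
    obtain ⟨c, rfl⟩ := natDegree_eq_zero.mp hdeg0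
    have hc : c ≠ 0 := by
      intro h
      exact hne (by rw [h, map_zero, zero_mul])
    have h1 : HasLead (psi0 N k (C c)) 0 c := by
      rw [psi0, coe_eval₂RingHom, eval₂_C]
      exact hasLead_C c
    have h2 := hasLead_prod O' (s := fun q ↦ coeffMap φ ((tri q hm).uSer (zetaUnit N)))
      fun q _ ↦ ((tri q hm).hasLead_uSer (zetaUnit N)).map φ
    rw [← hpu] at h2
    have hlc : ∀ q ∈ O', φ (((tri q hm).a : R0) ^ 12 *
        ((((zetaUnit N) ^ ((tri q hm).b * ((N / (tri q hm).e : ℕ) : ℤ))) : R0ˣ) : R0)) ≠ 0 := by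
      intro q _
      rw [map_mul, map_pow, map_natCast]
      refine mul_ne_zero (pow_ne_zero _ fun h ↦ hmk ?_) ((Units.isUnit _).map φ).ne_zero
      rw [← tri_mul q hm, Nat.cast_mul, h, zero_mul]
    obtain ⟨hsum, -⟩ := h1.ext h2 hc (Finset.prod_ne_zero_iff.mpr hlc)
    rw [Finset.sum_sub_distrib, Finset.sum_const, nsmul_eq_mul, eq_comm, sub_eq_zero] at hsum
    have hNZ : (N : ℤ) ≠ 0 := Int.natCast_ne_zero.mpr (NeZero.ne N)
    refine mul_left_cancel₀ hNZ ?_
    rw [Finset.mul_sum,
      show (N : ℤ) * ((m : ℤ) * (O'.card : ℤ)) = (m : ℤ) * ((O'.card : ℤ) * N) by ring, ← hsum,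
      Finset.mul_sum]
    refine Finset.sum_congr rfl fun q _ ↦ ?_
    rw [← tri_a q hm]
    obtain ⟨k', hk'⟩ := (tri q hm).e_dvd
    have hNe : N / (tri q hm).e = k' := Nat.div_eq_of_eq_mul_right (tri q hm).e_pos hk'
    have hmz : (m : ℤ) = ((tri q hm).a : ℤ) * (tri q hm).e := by exact_mod_cast (tri_mul q hm).symm
    have hNz : (N : ℤ) = ((tri q hm).e : ℤ) * k' := by exact_mod_cast hk'
    rw [TriData.r, hNe, hNz, hmz]
    push_cast
    ring
  have hfull := horder Finset.univ (P.map (algebraMap k[X] (RatFunc k))) (hPm.map _) (by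
    rw [Polynomial.map_map, show (psi N k).comp (algebraMap k[X] (RatFunc k)) = psi0 N k from
      RingHom.ext psi_algebraMap, hP])
  have hempty : Finset.univ \ O = ∅ := by
    refine eq_empty_of_orders (Nat.pos_of_ne_zero (NeZero.ne N)) _ lowerLeft (fun q hq h ↦ ?_)
      fun m hm ↦ ?_
    · rw [(dvd_lowerLeft_iff q).mp h] at hq
      exact (Finset.mem_sdiff.mp hq).2 hone
    · rw [Finset.sum_sdiff_eq_sub (Finset.subset_univ O),
        Finset.card_sdiff_of_subset (Finset.subset_univ O), hfull m hm, horder O G hmon hG m hm,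
        Nat.cast_sub (Finset.card_le_card (Finset.subset_univ O))]
      simp [mul_sub]
  exact Finset.eq_univ_of_forall fun q ↦ by
    by_contra hq
    exact Finset.notMem_empty q (hempty ▸ Finset.mem_sdiff.mpr ⟨Finset.mem_univ q, hq⟩)

end Fermat.Agent.Igusa
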