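/-
`1, j_N, …, j_N^(ψ-1)` is a basis, in every characteristic not dividing `N` (helper50, S28).
-/
import Fermat.Agent.Igusa.Irreducible

set_option autoImplicit false

noncomputable section

open ModularCurve Polynomial

namespace Fermat.Agent.Igusa

variable (N : ℕ) [NeZero N]

/-- The number of cosets of `Γ₀(N)`. -/
def cosetCard : ℕ := Nat.card (Coset N)

theorem cosetCard_pos : 0 < cosetCard N := Nat.card_pos

theorem cosetCard_eq_index : cosetCard N = (CongruenceSubgroup.Gamma0 N).index :=
  (Subgroup.index_eq_card _).symm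

variable {N} {k : Type} [Field k] (φ : R0 →+* k)

theorem jK_one {d : ℕ} [NeZero d] (hd : d ∣ N) :
    jK φ ((1 : Matrix.SpecialLinearGroup (Fin 2) ℤ) : Coset N) hd =
      qExpand k N (qExpand k d (jqModC k)) := by
  haveI : NeZero (d * N) := ⟨Nat.mul_ne_zero (NeZero.ne d) (NeZero.ne N)⟩
  haveI : NeZero (N * d) := ⟨Nat.mul_ne_zero (NeZero.ne N) (NeZero.ne d)⟩
  rw [jK, jSer_tri_one hd, coeffMap_qExpand, ModularCurve.coeffMap_jqModC, qExpand_qExpand]
  exact qExpand_congr (mul_comm d N) _

/-- A relation of degree `< ψ(N)` of `j(Nτ)` over `k[j]` is trivial. -/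
theorem eq_zero_of_eval_jK (φ : R0 →+* k) (hN : (N : k) ≠ 0) (c : k[X][X])
    (hdeg : ∀ i, cosetCard N ≤ i → c.coeff i = 0)
    (hev : (c.map (psi0 N k)).eval (qExpand k N (jqNModC k N)) = 0) : c = 0 := by
  classical
  letI := Fintype.ofFinite (Coset N)
  set x : Coset N → LaurentSeries k := fun q ↦ jK φ q (dvd_refl N) with hx
  set one : Coset N := ((1 : Matrix.SpecialLinearGroup (Fin 2) ℤ) : Coset N)
  have hone : qExpand k N (jqNModC k N) = x one := (jK_one φ (dvd_refl N)).symm
  obtain ⟨P, hPm, hPd, hP⟩ := exists_charPoly_k φ (conjugable_jdFun (dvd_refl N))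
  replace hP : P.map (psi0 N k) = ∏ q : Coset N, (X - C (x q)) := by
    simpa only [expHom_conj_jdFun (dvd_refl N), hx, jK] using hP
  letI : Algebra (RatFunc k) (LaurentSeries k) := (psi N k).toAlgebra
  have hpsi : (psi N k).comp (algebraMap k[X] (RatFunc k)) = psi0 N k := RingHom.ext psi_algebraMap
  set P' : (RatFunc k)[X] := P.map (algebraMap k[X] (RatFunc k))
  have hP' : P'.map (psi N k) = ∏ q : Coset N, (X - C (x q)) := by rw [Polynomial.map_map, hpsi, hP]
  have hroot : aeval (x one) P' = 0 := by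
    rw [aeval_def, eval₂_eq_eval_map, show algebraMap (RatFunc k) (LaurentSeries k) = psi N k from rfl,
      hP', eval_prod]
    exact Finset.prod_eq_zero (Finset.mem_univ one) (by simp)
  have hint : IsIntegral (RatFunc k) (x one) := ⟨P', hPm.map _, hroot⟩
  set G := minpoly (RatFunc k) (x one) with hGdef
  have hGm : G.Monic := minpoly.monic hint
  have hdvd : G.map (psi N k) ∣ ∏ q : Coset N, (X - C (x q)) :=
    hP' ▸ Polynomial.map_dvd (psi N k) (minpoly.dvd _ _ hroot)
  set O : Finset (Coset N) := Finset.univ.filter fun q ↦ (G.map (psi N k)).IsRoot (x q)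
  have hprodne : (∏ q : Coset N, (X - C (x q))) ≠ 0 :=
    (monic_prod_of_monic _ _ fun q _ ↦ monic_X_sub_C _).ne_zero
  have hsplit : (G.map (psi N k)).Splits :=
    (Splits.prod fun q _ ↦ Splits.X_sub_C _).of_dvd hprodne hdvd
  have hinj : Function.Injective x := jK_injective φ hN
  have hProots : (∏ q : Coset N, (X - C (x q))).roots = Finset.univ.val.map x := by
    rw [show (∏ q : Coset N, (X - C (x q))) =
      ((Finset.univ.val.map x).map fun a ↦ X - C a).prod by rw [Multiset.map_map]; rfl,
      roots_multiset_prod_X_sub_C]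
  have hroots : (G.map (psi N k)).roots = O.val.map x := by
    have hle := Polynomial.roots.le_of_dvd hprodne hdvd
    rw [hProots] at hle
    refine (Multiset.Nodup.ext (Multiset.nodup_of_le hle (Finset.univ.nodup.map hinj))
      (O.nodup.map hinj)).mpr fun a ↦ ⟨fun ha ↦ ?_, fun ha ↦ ?_⟩
    · obtain ⟨q, -, rfl⟩ := Multiset.mem_map.mp (Multiset.mem_of_le hle ha)
      exact Multiset.mem_map.mpr ⟨q, Finset.mem_filter.mpr ⟨Finset.mem_univ q,
        (mem_roots (hGm.map _).ne_zero).mp ha⟩, rfl⟩
    · obtain ⟨q, hq, rfl⟩ := Multiset.mem_map.mp ha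
      exact (mem_roots (hGm.map _).ne_zero).mpr (Finset.mem_filter.mp hq).2
  have hG : G.map (psi N k) = ∏ q ∈ O, (X - C (x q)) := by
    conv_lhs => rw [hsplit.eq_prod_roots_of_monic (hGm.map _), hroots, Multiset.map_map]
    rfl
  have h1 : one ∈ O := by
    refine Finset.mem_filter.mpr ⟨Finset.mem_univ _, ?_⟩
    rw [IsRoot.def, eval_map, ← show algebraMap (RatFunc k) (LaurentSeries k) = psi N k from rfl,
      ← aeval_def]
    exact minpoly.aeval _ _
  have huniv := eq_univ_of_factor φ hN O h1 hGm hG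
  have hGdeg : G.natDegree = cosetCard N := by
    rw [← hGm.natDegree_map (psi N k), hG, huniv, natDegree_finsetProd_X_sub_C_eq_card,
      Finset.card_univ, cosetCard, Nat.card_eq_fintype_card]
  set c' : (RatFunc k)[X] := c.map (algebraMap k[X] (RatFunc k))
  have hc' : c' = 0 := by
    by_contra h0
    have hle : G.natDegree ≤ c'.natDegree := natDegree_le_natDegree (minpoly.degree_le_of_ne_zero _ _ h0 (by
      rw [aeval_def, eval₂_eq_eval_map, show algebraMap (RatFunc k) (LaurentSeries k) = psi N k from rfl,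
        Polynomial.map_map, hpsi, ← hone]
      exact hev))
    rw [hGdeg, natDegree_map_eq_of_injective (RatFunc.algebraMap_injective k)] at hle
    exact leadingCoeff_ne_zero.mpr (fun h ↦ h0 (by rw [show c' = c.map _ from rfl, h, Polynomial.map_zero]))
      (hdeg _ hle)
  exact (Polynomial.map_eq_zero_iff (RatFunc.algebraMap_injective k)).mp hc'

theorem qExpand_evalC (p : k[X]) :
    qExpand k N (p.eval₂ HahnSeries.C (jqModC k)) = psi0 N k p := by
  rw [psi0, coe_eval₂RingHom, Polynomial.hom_eval₂]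
  congr 1
  exact RingHom.ext fun c ↦ qExpand_C N c

theorem jqModC_transcendental {p : k[X]} (hp : p.eval₂ HahnSeries.C (jqModC k) = 0) : p = 0 := by
  have h := qExpand_evalC (N := 1) p
  rw [hp, map_zero] at h
  exact psi0_injective (h.symm.trans (map_zero _).symm)

/-- Linear independence of `1, j_N, …, j_N^(ψ-1)` over `k[j]`. -/
theorem indep_powers_jqN (φ : R0 →+* k) (hN : (N : k) ≠ 0) (c : Fin (cosetCard N) → k[X])
    (h : ∑ i, (c i).eval₂ HahnSeries.C (jqModC k) * jqNModC k N ^ (i : ℕ) = 0) : c = 0 := by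
  classical
  set P : k[X][X] := ∑ i, C (c i) * X ^ (i : ℕ)
  have hP : P = 0 := by
    refine eq_zero_of_eval_jK φ hN P (fun i hi ↦ ?_) ?_
    · simp only [P, finsetSum_coeff, coeff_C_mul_X_pow]
      exact Finset.sum_eq_zero fun j _ ↦ if_neg (by omega)
    · have h2 := congrArg (qExpand k N) h
      simp only [map_sum, map_mul, map_pow, map_zero, qExpand_evalC] at h2
      simp only [P, Polynomial.map_sum, Polynomial.map_mul, Polynomial.map_pow, map_C, map_X,
        eval_finsetSum, eval_mul, eval_C, eval_pow, eval_X]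
      exact h2
  funext i
  have := congrArg (fun p : k[X][X] ↦ p.coeff (i : ℕ)) hP
  simpa [P, finsetSum_coeff, coeff_C_mul_X_pow, Fin.val_inj] using this

/-- The modular equation stays separable in every characteristic prime to `N`. -/
theorem derivative_eval_ne_zero (φ : R0 →+* k) (hN : (N : k) ≠ 0) :
    ∃ P : R0[X][X], P.Monic ∧ P.natDegree = cosetCard N ∧
      P.eval₂ (eval₂RingHom HahnSeries.C (jqModC R0)) (jqNModC R0 N) = 0 ∧
      coeffMap φ (P.derivative.eval₂ (eval₂RingHom HahnSeries.C (jqModC R0)) (jqNModC R0 N)) ≠ 0 ∧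
      ∀ (d : ℕ) [NeZero d], d ∣ N → ∃ Q : R0[X][X],
        Q.eval₂ (eval₂RingHom HahnSeries.C (jqModC R0)) (jqNModC R0 N) =
          qExpand R0 d (jqModC R0) *
            P.derivative.eval₂ (eval₂RingHom HahnSeries.C (jqModC R0)) (jqNModC R0 N) := by
  classical
  letI := Fintype.ofFinite (Coset N)
  obtain ⟨P, hPm, hPd, hP⟩ := exists_charPoly (conjugable_jdFun (dvd_refl N))
  set one : Coset N := ((1 : Matrix.SpecialLinearGroup (Fin 2) ℤ) : Coset N)
  have hpar : (qExpand R0 N).comp (eval₂RingHom HahnSeries.C (jqModC R0)) = evJ N :=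
    Polynomial.ringHom_ext (fun a ↦ by simp [evJ]) (by simp [evJ])
  haveI : NeZero (N * N) := ⟨Nat.mul_ne_zero (NeZero.ne N) (NeZero.ne N)⟩
  have hx : qExpand R0 N (jqNModC R0 N) =
      expHom N ((conjugable_jdFun (dvd_refl N)).conj one) := by
    rw [expHom_conj_jdFun (dvd_refl N), jSer_tri_one, jqNModC, qExpand_qExpand]
  refine ⟨P, hPm, by rw [hPd, cosetCard, Nat.card_eq_fintype_card], qExpand_injective N ?_, ?_,
    fun d _ hd ↦ ?_⟩
  · rw [map_zero, Polynomial.hom_eval₂, hpar, hx, eval₂_eq_eval_map, hP, eval_prod]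
    exact Finset.prod_eq_zero (Finset.mem_univ one) (by rw [eval_sub, eval_X, eval_C, sub_self])
  · intro h0
    have h1 := congrArg (qExpand k N) h0
    rw [← coeffMap_qExpand, map_zero, Polynomial.hom_eval₂ _ _ (qExpand R0 N), hpar, hx,
      eval₂_eq_eval_map, ← Polynomial.derivative_map, hP, ← eval₂_hom, ← eval_map,
      ← Polynomial.derivative_map, Polynomial.map_prod] at h1
    simp only [Polynomial.map_sub, map_X, map_C] at h1
    have hinj : Function.Injective fun q : Coset N ↦
        coeffMap φ (expHom N ((conjugable_jdFun (dvd_refl N)).conj q)) := by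
      simpa only [expHom_conj_jdFun (dvd_refl N)] using! jK_injective φ hN
    refine (separable_prod_X_sub_C_iff.mpr hinj).eval₂_derivative_ne_zero (RingHom.id _) ?_ h1
    rw [show ∀ p : (LaurentSeries k)[X], ∀ a, p.eval₂ (RingHom.id _) a = p.eval a from
      fun p a ↦ rfl, eval_prod]
    exact Finset.prod_eq_zero (Finset.mem_univ one) (by simp)
  · obtain ⟨Q, hQ⟩ := exists_lagrange (conjugable_jdFun (dvd_refl N)) (conjugable_jdFun hd)
    refine ⟨Q, qExpand_injective N ?_⟩
    haveI : NeZero (N * d) := ⟨Nat.mul_ne_zero (NeZero.ne N) (NeZero.ne d)⟩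
    haveI : NeZero (d * N) := ⟨Nat.mul_ne_zero (NeZero.ne d) (NeZero.ne N)⟩
    rw [map_mul, Polynomial.hom_eval₂, Polynomial.hom_eval₂, hpar, hx,
      eval₂_eq_eval_map, eval₂_eq_eval_map, hQ, ← Polynomial.derivative_map, hP,
      qExpand_qExpand (N := d), qExpand_congr (mul_comm N d), ← jSer_tri_one hd,
      ← expHom_conj_jdFun hd]
    exact eval_lagrangeNum (fun q ↦ expHom N ((conjugable_jdFun (dvd_refl N)).conj q))
      (fun q ↦ expHom N ((conjugable_jdFun hd).conj q)) _

end Fermat.Agent.Igusa
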