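/-
Descent of the modular equation to an arbitrary field in which `N` is invertible (helper50, S28).
-/
import Fermat.Agent.Igusa.Basis
import Mathlib.FieldTheory.IsAlgClosed.Basic

set_option autoImplicit false

noncomputable section

open ModularCurve Polynomial

namespace Fermat.Agent.Igusa

/-- `X ↦ j`. -/
def evC (R : Type) [CommRing R] : R[X] →+* LaurentSeries R :=
  eval₂RingHom HahnSeries.C (jqModC R)

/-- `X ↦ j`, `Y ↦ j(Nτ)`. -/
def evXY (R : Type) [CommRing R] (N : ℕ) [NeZero N] : R[X][X] →+* LaurentSeries R :=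
  eval₂RingHom (evC R) (jqNModC R N)

theorem coeffMap_C' {R S : Type} [CommRing R] [CommRing S] (f : R →+* S) (c : R) :
    coeffMap f (HahnSeries.C c) = HahnSeries.C (f c) := by
  simp [HahnSeries.C_apply]

variable {N : ℕ} [NeZero N]

theorem coeffMap_evXY {R S : Type} [CommRing R] [CommRing S] (f : R →+* S) (p : R[X][X]) :
    coeffMap f (evXY R N p) = evXY S N (p.map (mapRingHom f)) := by
  have h1 : (coeffMap f).comp (evC R) = (evC S).comp (mapRingHom f) :=
    Polynomial.ringHom_ext (fun a ↦ by simp [evC, coeffMap_C'])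
      (by simp [evC, ModularCurve.coeffMap_jqModC])
  simp only [evXY, coe_eval₂RingHom, eval₂_map, hom_eval₂, h1, ModularCurve.coeffMap_jqNModC]

theorem evXY_eq_sum {R : Type} [CommRing R] (c : R[X][X])
    (hc : ∀ i, cosetCard N ≤ i → c.coeff i = 0) :
    evXY R N c = ∑ i : Fin (cosetCard N),
      (c.coeff i).eval₂ HahnSeries.C (jqModC R) * jqNModC R N ^ (i : ℕ) := by
  have hc2 : c = ∑ i ∈ Finset.range (cosetCard N), C (c.coeff i) * X ^ i := by
    ext i : 1
    simp only [finsetSum_coeff, coeff_C_mul_X_pow, Finset.sum_ite_eq, Finset.mem_range]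
    split_ifs with h
    · rfl
    · exact hc i (not_lt.mp h)
  conv_lhs => rw [hc2]
  rw [map_sum, Finset.sum_range]
  simp [evXY, evC]

/-- A ring homomorphism `R0 → k` exists for algebraically closed `k`. -/
theorem exists_hom_R0 (k : Type) [Field k] [IsAlgClosed k] : Nonempty (R0 →+* k) := by
  obtain ⟨p, hp⟩ := CharP.exists k
  rcases CharP.char_is_prime_or_zero k p with hpr | rfl
  · haveI : Fact p.Prime := ⟨hpr⟩
    haveI : (Ideal.span {(p : ℤ)}).IsMaximal :=
      PrincipalIdealRing.isMaximal_of_irreducible (Nat.prime_iff_prime_int.mp hpr).irreducible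
    obtain ⟨P, hP, hPp⟩ := Ideal.exists_ideal_over_maximal_of_isIntegral (S := R0)
      (Ideal.span {(p : ℤ)}) (by
        rw [(RingHom.injective_iff_ker_eq_bot (algebraMap ℤ R0)).mp
          (FaithfulSMul.algebraMap_injective ℤ R0)]
        exact bot_le)
    haveI := hP
    letI : Field (R0 ⧸ P) := Ideal.Quotient.field P
    have hpP : ((p : R0 ⧸ P)) = 0 := by
      have h : (p : ℤ) ∈ P.comap (algebraMap ℤ R0) :=
        hPp ▸ Ideal.mem_span_singleton_self _
      simpa using Ideal.Quotient.eq_zero_iff_mem.mpr (Ideal.mem_comap.mp h)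
    haveI : CharP (R0 ⧸ P) p := by
      refine (CharP.charP_iff_prime_eq_zero hpr).mpr hpP
    letI := ZMod.algebra (R0 ⧸ P) p
    letI := ZMod.algebra k p
    haveI : Algebra.IsIntegral (ZMod p) (R0 ⧸ P) := ⟨fun x ↦ by
      obtain ⟨r, rfl⟩ := Ideal.Quotient.mk_surjective x
      obtain ⟨g, hg, hgr⟩ := Algebra.IsIntegral.isIntegral (R := ℤ) r
      refine ⟨g.map (Int.castRingHom (ZMod p)), hg.map _, ?_⟩
      rw [eval₂_map, RingHom.ext_int ((algebraMap (ZMod p) (R0 ⧸ P)).comp (Int.castRingHom (ZMod p)))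
        ((Ideal.Quotient.mk P).comp (algebraMap ℤ R0)), ← hom_eval₂, hgr, map_zero]⟩
    exact ⟨((IsAlgClosed.lift : (R0 ⧸ P) →ₐ[ZMod p] k) : (R0 ⧸ P) →+* k).comp
      (Ideal.Quotient.mk P)⟩
  · haveI := CharP.charP_to_charZero k
    exact ⟨((IsAlgClosed.lift : R0 →ₐ[ℤ] k) : R0 →+* k)⟩

variable {K : Type} [Field K]

/-- `1, j_N, …, j_N^(ψ-1)` are independent over `K[j]`, for every field `K` with `N ≠ 0`. -/
theorem eq_zero_of_evXY (hN : (N : K) ≠ 0) (c : K[X][X])
    (hdeg : ∀ i, cosetCard N ≤ i → c.coeff i = 0) (h : evXY K N c = 0) : c = 0 := by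
  let f := algebraMap K (AlgebraicClosure K)
  obtain ⟨φ⟩ := exists_hom_R0 (AlgebraicClosure K)
  have hN' : (N : AlgebraicClosure K) ≠ 0 := by
    rw [← map_natCast f]; exact (map_ne_zero_iff f f.injective).mpr hN
  set c' := c.map (mapRingHom f)
  have hdeg' : ∀ i, cosetCard N ≤ i → c'.coeff i = 0 := fun i hi ↦ by
    rw [coeff_map, hdeg i hi, map_zero]
  have h' : evXY (AlgebraicClosure K) N c' = 0 := by rw [← coeffMap_evXY, h, map_zero]
  rw [evXY_eq_sum c' hdeg'] at h'
  have h0 := indep_powers_jqN φ hN' (fun i ↦ c'.coeff i) h'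
  have hc' : c' = 0 := by
    ext i : 1
    rcases lt_or_ge i (cosetCard N) with hi | hi
    · simpa using congrFun h0 ⟨i, hi⟩
    · rw [hdeg' i hi, coeff_zero]
  exact (Polynomial.map_eq_zero_iff (Polynomial.map_injective f f.injective)).mp hc'

section Retraction

variable {L : Type} [Field L] [Algebra K L]

/-- Apply a linear functional coefficientwise to a series. -/
def seriesFun (μ : L →ₗ[K] K) : LaurentSeries L →+ LaurentSeries K where
  toFun s := s.map μ.toAddMonoidHom
  map_zero' := by ext n; simp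
  map_add' s t := by ext n; simp

/-- Apply a linear functional coefficientwise to a polynomial. -/
def polyFun (μ : L →ₗ[K] K) : L[X] →+ K[X] where
  toFun p := ⟨.ofCoeff (p.toFinsupp.coeff.mapRange μ μ.map_zero)⟩
  map_zero' := by ext n; simp
  map_add' p q := by ext n; simp

/-- Apply a linear functional coefficientwise to a polynomial in two variables. -/
def polyFun₂ (μ : L →ₗ[K] K) : L[X][X] →+ K[X][X] where
  toFun p := ⟨.ofCoeff (p.toFinsupp.coeff.mapRange (polyFun μ) (map_zero _))⟩
  map_zero' := by ext n; simp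
  map_add' p q := by ext n; simp

theorem coeff_polyFun (μ : L →ₗ[K] K) (p : L[X]) (n : ℕ) :
    (polyFun μ p).coeff n = μ (p.coeff n) := rfl

theorem coeff_polyFun₂ (μ : L →ₗ[K] K) (p : L[X][X]) (n : ℕ) :
    (polyFun₂ μ p).coeff n = polyFun μ (p.coeff n) := rfl

theorem seriesFun_C_mul (μ : L →ₗ[K] K) (c : L) (s : LaurentSeries K) :
    seriesFun μ (HahnSeries.C c * coeffMap (algebraMap K L) s) = HahnSeries.C (μ c) * s := by
  ext n
  show μ ((HahnSeries.C c * coeffMap (algebraMap K L) s).coeff n) = _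
  rw [HahnSeries.C_mul_eq_smul, HahnSeries.C_mul_eq_smul, HahnSeries.coeff_smul,
    HahnSeries.coeff_smul, coeffMap_coeff, smul_eq_mul, smul_eq_mul, mul_comm c,
    ← Algebra.smul_def, μ.map_smul, smul_eq_mul, mul_comm]

theorem seriesFun_evXY_mul (μ : L →ₗ[K] K) (p : L[X][X]) (s : LaurentSeries K) :
    seriesFun μ (evXY L N p * coeffMap (algebraMap K L) s) = evXY K N (polyFun₂ μ p) * s := by
  have hC : ∀ (a : ℕ) (r : L[X]),
      seriesFun μ (evC L r * coeffMap (algebraMap K L) (jqNModC K N ^ a * s)) =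
        evC K (polyFun μ r) * (jqNModC K N ^ a * s) := by
    intro a r
    induction r using Polynomial.induction_on' with
    | add r r' hr hr' => simp only [map_add, add_mul, hr, hr']
    | monomial b c =>
      have h1 : polyFun μ (monomial b c) = monomial b (μ c) := by
        ext i; rw [coeff_polyFun, coeff_monomial, coeff_monomial]; split_ifs <;> simp
      rw [h1, evC, evC, coe_eval₂RingHom, coe_eval₂RingHom, eval₂_monomial, eval₂_monomial,
        mul_assoc, mul_assoc, ← seriesFun_C_mul μ c (jqModC K ^ b * (jqNModC K N ^ a * s))]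
      simp [ModularCurve.coeffMap_jqModC]
  induction p using Polynomial.induction_on' with
  | add p p' hp hp' => simp only [map_add, add_mul, hp, hp']
  | monomial a r =>
    have h1 : polyFun₂ μ (monomial a r) = monomial a (polyFun μ r) := by
      ext i : 1; rw [coeff_polyFun₂, coeff_monomial, coeff_monomial]; split_ifs <;> simp
    rw [h1, evXY, evXY, coe_eval₂RingHom, coe_eval₂RingHom, eval₂_monomial, eval₂_monomial,
      mul_assoc, mul_assoc, ← hC a r]
    simp [ModularCurve.coeffMap_jqNModC]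

theorem polyFun₂_map (μ : L →ₗ[K] K) (h1 : μ 1 = 1) (p : K[X][X]) :
    polyFun₂ μ (p.map (mapRingHom (algebraMap K L))) = p := by
  ext i j
  rw [coeff_polyFun₂, coeff_polyFun, coeff_map, coe_mapRingHom, coeff_map,
    Algebra.algebraMap_eq_smul_one, μ.map_smul, h1, smul_eq_mul, mul_one]

theorem polyFun₂_derivative (μ : L →ₗ[K] K) (p : L[X][X]) :
    polyFun₂ μ p.derivative = (polyFun₂ μ p).derivative := by
  ext i j
  simp only [coeff_polyFun₂, coeff_derivative, ← Nat.cast_add_one, ← nsmul_eq_mul', coeff_smul,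
    map_nsmul]

end Retraction

/-- The modular equation over an arbitrary field with `N ≠ 0`: `j(Nτ)` is a separable root of a
monic polynomial of degree `ψ(N)` over `K[j]`, and every `j(dτ)`, `d ∣ N`, is a rational
function of `j` and `j(Nτ)`. -/
theorem exists_modularEquation (hN : (N : K) ≠ 0) :
    ∃ P : K[X][X], P.Monic ∧ P.natDegree = cosetCard N ∧ evXY K N P = 0 ∧
      evXY K N P.derivative ≠ 0 ∧
      ∀ (d : ℕ) [NeZero d], d ∣ N → ∃ Q : K[X][X],
        evXY K N Q = qExpand K d (jqModC K) * evXY K N P.derivative := by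
  classical
  set L := AlgebraicClosure K
  let f := algebraMap K L
  obtain ⟨φ⟩ := exists_hom_R0 L
  have hN' : (N : L) ≠ 0 := by
    rw [← map_natCast f]; exact (map_ne_zero_iff f f.injective).mpr hN
  obtain ⟨P, hPm, hPd, hP0, hP', hPQ⟩ := derivative_eval_ne_zero (N := N) φ hN'
  obtain ⟨μ, hμ⟩ := (Algebra.linearMap K L).exists_leftInverse_of_injective
    (LinearMap.ker_eq_bot.mpr f.injective)
  have h1 : μ 1 = 1 := by
    simpa using congrArg (fun g : K →ₗ[K] K ↦ g 1) hμ
  set PL := P.map (mapRingHom φ) with hPL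
  have hPLm : PL.Monic := hPm.map _
  have hPLd : PL.natDegree = cosetCard N := by rw [hPL, hPm.natDegree_map, hPd]
  have hPL0 : evXY L N PL = 0 := by
    rw [hPL, ← coeffMap_evXY]
    show coeffMap φ (P.eval₂ _ _) = 0
    rw [show evC R0 = eval₂RingHom HahnSeries.C (jqModC R0) from rfl, hP0, map_zero]
  set P0 := polyFun₂ μ PL with hP0def
  have hcoef : ∀ i, cosetCard N < i → P0.coeff i = 0 := fun i hi ↦ by
    rw [coeff_polyFun₂, coeff_eq_zero_of_natDegree_lt (hPLd.symm ▸ hi), map_zero]
  have htop : P0.coeff (cosetCard N) = 1 := by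
    rw [coeff_polyFun₂, ← hPLd, hPLm.coeff_natDegree]
    ext j
    rw [coeff_polyFun, coeff_one, coeff_one]
    split_ifs <;> simp [h1]
  have hd0 : P0.natDegree = cosetCard N :=
    le_antisymm (natDegree_le_iff_coeff_eq_zero.mpr hcoef)
      (le_natDegree_of_ne_zero (by rw [htop]; exact one_ne_zero))
  have hm0 : P0.Monic := by rw [Monic, leadingCoeff, hd0, htop]
  have hz0 : evXY K N P0 = 0 := by
    have := seriesFun_evXY_mul (N := N) μ PL 1
    rwa [map_one, mul_one, mul_one, hPL0, map_zero, eq_comm] at this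
  have hmap : P0.map (mapRingHom f) = PL := by
    refine sub_eq_zero.mp (eq_zero_of_evXY hN' _ (fun i hi ↦ ?_) ?_)
    · rw [coeff_sub, coeff_map]
      rcases hi.lt_or_eq with h | rfl
      · rw [hcoef i h, coeff_eq_zero_of_natDegree_lt (hPLd.symm ▸ h), map_zero, sub_zero]
      · conv_lhs => arg 2; rw [← hPLd, hPLm.coeff_natDegree]
        rw [htop, map_one, sub_self]
    · rw [map_sub, hPL0, ← coeffMap_evXY, hz0, map_zero, sub_zero]
  have hder : coeffMap f (evXY K N P0.derivative) =
      coeffMap φ (evXY R0 N P.derivative) := by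
    rw [coeffMap_evXY, coeffMap_evXY, ← derivative_map, ← derivative_map, hmap]
  refine ⟨P0, hm0, hd0, hz0, fun h ↦ hP' ?_, fun d _ hd ↦ ?_⟩
  · rw [h, map_zero] at hder
    exact hder.symm
  · obtain ⟨Q, hQ⟩ := hPQ d hd
    refine ⟨polyFun₂ μ (Q.map (mapRingHom φ)), ?_⟩
    have hQ' : evXY L N (Q.map (mapRingHom φ)) =
        evXY L N PL.derivative * coeffMap f (qExpand K d (jqModC K)) := by
      rw [← coeffMap_evXY, show evXY R0 N Q = qExpand R0 d (jqModC R0) * evXY R0 N P.derivative from hQ,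
        map_mul, coeffMap_qExpand, coeffMap_qExpand, ModularCurve.coeffMap_jqModC,
        ModularCurve.coeffMap_jqModC, mul_comm, coeffMap_evXY, ← derivative_map]
    have := seriesFun_evXY_mul (N := N) μ (Q.map (mapRingHom φ)) 1
    rw [map_one, mul_one, mul_one, hQ', seriesFun_evXY_mul, polyFun₂_derivative] at this
    rw [← this, mul_comm]
  
end Fermat.Agent.Igusa
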