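/-
The Gauss valuation ring of `ℓ`-integral `q`-expansions and its reduction (helper50, S28).
-/
import Fermat.Prelude.Def_ModularCurve_X0ModL
import Fermat.Prelude.Def_GaloisRep_Flat

set_option autoImplicit false

noncomputable section

open ModularCurve Polynomial GaloisRep

namespace Fermat.Agent.Igusa

variable (ℓ : ℕ) [Fact ℓ.Prime]

theorem den_ne_zero (q : ↥(ratLocalizedAt ℓ)) : (((q : ℚ).den : ℕ) : ZMod ℓ) ≠ 0 := by
  rw [Ne, ZMod.natCast_eq_zero_iff]
  exact fun h ↦ ((Nat.Prime.coprime_iff_not_dvd (Fact.out : ℓ.Prime)).mp q.2.symm) h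

/-- The reduction `ℤ_(ℓ) → 𝔽_ℓ`. -/
def piL : ↥(ratLocalizedAt ℓ) →+* ZMod ℓ where
  toFun q := ((q : ℚ) : ZMod ℓ)
  map_one' := by simp
  map_mul' a b := Rat.cast_mul_of_ne_zero (den_ne_zero ℓ a) (den_ne_zero ℓ b)
  map_zero' := by simp
  map_add' a b := Rat.cast_add_of_ne_zero (den_ne_zero ℓ a) (den_ne_zero ℓ b)

/-- The inclusion `ℤ_(ℓ) → ℚ`. -/
abbrev iotaL : ↥(ratLocalizedAt ℓ) →+* ℚ := (ratLocalizedAt ℓ).subtype

theorem natCast_mem_iff (d : ℕ) (q : ℚ) (h : q.den ∣ d) (hd : ((d : ℕ) : ZMod ℓ) ≠ 0) :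
    q ∈ ratLocalizedAt ℓ := by
  refine ((Nat.Prime.coprime_iff_not_dvd (Fact.out : ℓ.Prime)).mpr fun h' ↦ hd ?_).symm
  rw [ZMod.natCast_eq_zero_iff]
  exact h'.trans h

theorem exists_eq_prime_mul {c : ↥(ratLocalizedAt ℓ)} (h : piL ℓ c = 0) :
    ∃ c' : ↥(ratLocalizedAt ℓ), c = (ℓ : ↥(ratLocalizedAt ℓ)) * c' ∧
      (c ≠ 0 → (c' : ℚ).num.natAbs < (c : ℚ).num.natAbs) := by
  have h1 : ((c : ℚ).num : ZMod ℓ) = 0 := by
    have h' : (((c : ℚ)) : ZMod ℓ) = 0 := h
    rw [Rat.cast_def, div_eq_zero_iff] at h'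
    exact h'.resolve_right (den_ne_zero ℓ c)
  obtain ⟨m, hm⟩ := (ZMod.intCast_zmod_eq_zero_iff_dvd _ _).mp h1
  have hmem : Rat.divInt m (c : ℚ).den ∈ ratLocalizedAt ℓ :=
    natCast_mem_iff ℓ (c : ℚ).den _ (Int.natCast_dvd_natCast.mp (Rat.den_dvd m (c : ℚ).den))
      (den_ne_zero ℓ c)
  refine ⟨⟨Rat.divInt m (c : ℚ).den, hmem⟩, Subtype.ext ?_, fun hc ↦ ?_⟩
  · show (c : ℚ) = (ℓ : ℚ) * Rat.divInt m (c : ℚ).den
    conv_lhs => rw [← Rat.num_div_den (c : ℚ), hm]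
    rw [Rat.divInt_eq_div]
    push_cast
    ring
  · have hm0 : m ≠ 0 := by
      rintro rfl
      exact hc (Subtype.ext (Rat.num_eq_zero.mp (by rw [hm, mul_zero])))
    have hd : ((c : ℚ).den : ℤ) ≠ 0 := Int.natCast_ne_zero.mpr (c : ℚ).den_nz
    calc (Rat.divInt m (c : ℚ).den).num.natAbs ≤ m.natAbs :=
          Nat.le_of_dvd (Int.natAbs_pos.mpr hm0) (Int.natAbs_dvd_natAbs.mpr (Rat.num_dvd m hd))
      _ < (c : ℚ).num.natAbs := by
          rw [hm, Int.natAbs_mul, Int.natAbs_natCast]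
          exact lt_mul_of_one_lt_left (Int.natAbs_pos.mpr hm0) (Fact.out : ℓ.Prime).one_lt

theorem exists_pow_mul_series (a : LaurentSeries ↥(ratLocalizedAt ℓ)) (ha : a ≠ 0) :
    ∃ (r : ℕ) (a' : LaurentSeries ↥(ratLocalizedAt ℓ)),
      a = (ℓ : LaurentSeries ↥(ratLocalizedAt ℓ)) ^ r * a' ∧ coeffMap (piL ℓ) a' ≠ 0 := by
  obtain ⟨n, hn⟩ : ∃ n, a.coeff n ≠ 0 := by
    by_contra h
    push Not at h
    exact ha (HahnSeries.ext (funext h))
  induction hM : ((a.coeff n : ℚ)).num.natAbs using Nat.strong_induction_on generalizing a with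
  | _ M ih =>
    by_cases h : coeffMap (piL ℓ) a = 0
    · have hall : ∀ i, piL ℓ (a.coeff i) = 0 := fun i ↦ by
        simpa using congrArg (fun s : LaurentSeries (ZMod ℓ) ↦ s.coeff i) h
      choose f hf hlt using fun i ↦ exists_eq_prime_mul ℓ (hall i)
      let a' : LaurentSeries ↥(ratLocalizedAt ℓ) := ⟨f, a.isPWO_support.mono fun i hi ↦ by
        simp only [HahnSeries.mem_support, Function.mem_support, ne_eq] at hi ⊢
        intro h0
        have := hf i
        rw [h0, eq_comm, mul_eq_zero] at this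
        exact hi (this.resolve_left (Nat.cast_ne_zero.mpr (Fact.out : ℓ.Prime).ne_zero))⟩
      have ha' : a = (ℓ : LaurentSeries ↥(ratLocalizedAt ℓ)) * a' := by
        ext i
        rw [← map_natCast HahnSeries.C, HahnSeries.C_mul_eq_smul, HahnSeries.coeff_smul, smul_eq_mul]
        exact congrArg Subtype.val (hf i)
      have hn' : a'.coeff n ≠ 0 := fun h0 ↦ hn (by
        rw [hf n, show f n = 0 from h0, mul_zero])
      have hne : a' ≠ 0 := fun h0 ↦ hn' (by rw [h0]; rfl)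
      obtain ⟨r, b, hb, hb'⟩ := ih _ (hM ▸ hlt n hn) a' hne hn' rfl
      exact ⟨r + 1, b, by rw [ha', hb, pow_succ']; ring, hb'⟩
    · exact ⟨0, a, by rw [pow_zero, one_mul], h⟩

theorem exists_pow_mul_poly (p : (↥(ratLocalizedAt ℓ))[X]) (hp : p ≠ 0) :
    ∃ (r : ℕ) (p' : (↥(ratLocalizedAt ℓ))[X]),
      p = (ℓ : (↥(ratLocalizedAt ℓ))[X]) ^ r * p' ∧ p'.map (piL ℓ) ≠ 0 := by
  induction hM : ((p.leadingCoeff : ℚ)).num.natAbs using Nat.strong_induction_on generalizing p with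
  | _ M ih =>
    by_cases h : p.map (piL ℓ) = 0
    · have hall : ∀ i, piL ℓ (p.coeff i) = 0 := fun i ↦ by
        rw [← coeff_map, h, coeff_zero]
      choose f hf hlt using fun i ↦ exists_eq_prime_mul ℓ (hall i)
      let p' : (↥(ratLocalizedAt ℓ))[X] :=
        ∑ i ∈ Finset.range (p.natDegree + 1), monomial i (f i)
      have hp' : p = (ℓ : (↥(ratLocalizedAt ℓ))[X]) * p' := by
        ext i
        rw [← map_natCast C, coeff_C_mul, finsetSum_coeff]
        simp only [coeff_monomial, Finset.sum_ite_eq', Finset.mem_range]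
        split_ifs with hi
        · exact congrArg Subtype.val (hf i)
        · rw [mul_zero, coeff_eq_zero_of_natDegree_lt (by omega)]
      have hne : p' ≠ 0 := fun h0 ↦ hp (by rw [hp', h0, mul_zero])
      have hdeg : p.natDegree = p'.natDegree := by
        conv_lhs => rw [hp', ← map_natCast C]
        exact natDegree_C_mul (Nat.cast_ne_zero.mpr (Fact.out : ℓ.Prime).ne_zero)
      have hlc : p'.leadingCoeff = f p.natDegree := by
        rw [leadingCoeff, ← hdeg, finsetSum_coeff]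
        simp [coeff_monomial]
      obtain ⟨r, b, hb, hb'⟩ := ih _ (hM ▸ hlt _ (leadingCoeff_ne_zero.mpr hp)) p' hne (by rw [hlc])
      exact ⟨r + 1, b, by rw [hp', hb, pow_succ']; ring, hb'⟩
    · exact ⟨0, p, by rw [pow_zero, one_mul], h⟩

/-- The embedding of series. -/
abbrev iotaS : LaurentSeries ↥(ratLocalizedAt ℓ) →+* LaurentSeries ℚ := coeffMap (iotaL ℓ)

/-- The reduction of series. -/
abbrev piS : LaurentSeries ↥(ratLocalizedAt ℓ) →+* LaurentSeries (ZMod ℓ) := coeffMap (piL ℓ)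

theorem iotaS_injective : Function.Injective (iotaS ℓ) := fun x y hxy ↦ by
  ext n
  simpa using congrArg (fun s : LaurentSeries ℚ ↦ s.coeff n) hxy

theorem piS_ell : piS ℓ (ℓ : LaurentSeries ↥(ratLocalizedAt ℓ)) = 0 := by
  rw [map_natCast, ← map_natCast HahnSeries.C, ZMod.natCast_self, map_zero]

/-- Quotients `a/b` of `ℓ`-integral series with `b ≢ 0 mod ℓ`. -/
def gaussRing : Subring (LaurentSeries ℚ) where
  carrier := {x | ∃ a b, piS ℓ b ≠ 0 ∧ x * iotaS ℓ b = iotaS ℓ a}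
  zero_mem' := ⟨0, 1, by simp, by simp⟩
  one_mem' := ⟨1, 1, by simp, by simp⟩
  neg_mem' := by
    rintro x ⟨a, b, hb, h⟩
    exact ⟨-a, b, hb, by rw [neg_mul, h, map_neg]⟩
  mul_mem' := by
    rintro x y ⟨a, b, hb, h⟩ ⟨a', b', hb', h'⟩
    exact ⟨a * a', b * b', by rw [map_mul]; exact mul_ne_zero hb hb',
      by rw [map_mul, map_mul, ← h, ← h']; ring⟩
  add_mem' := by
    rintro x y ⟨a, b, hb, h⟩ ⟨a', b', hb', h'⟩
    exact ⟨a * b' + a' * b, b * b', by rw [map_mul]; exact mul_ne_zero hb hb',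
      by rw [map_mul, map_add, map_mul, map_mul, ← h, ← h']; ring⟩

theorem iotaS_mem (a : LaurentSeries ↥(ratLocalizedAt ℓ)) : iotaS ℓ a ∈ gaussRing ℓ :=
  ⟨a, 1, by simp, by simp⟩

variable {ℓ}

/-- Reduction of an element of the Gauss ring. -/
def redFun (x : ↥(gaussRing ℓ)) : LaurentSeries (ZMod ℓ) :=
  piS ℓ x.2.choose / piS ℓ x.2.choose_spec.choose

theorem redFun_eq (x : ↥(gaussRing ℓ)) {a b : LaurentSeries ↥(ratLocalizedAt ℓ)}
    (hb : piS ℓ b ≠ 0) (h : (x : LaurentSeries ℚ) * iotaS ℓ b = iotaS ℓ a) :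
    redFun x = piS ℓ a / piS ℓ b := by
  have key : ∀ a₀ b₀ : LaurentSeries ↥(ratLocalizedAt ℓ), piS ℓ b₀ ≠ 0 →
      (x : LaurentSeries ℚ) * iotaS ℓ b₀ = iotaS ℓ a₀ →
      piS ℓ a₀ / piS ℓ b₀ = piS ℓ a / piS ℓ b := fun a₀ b₀ hb₀ h₀ ↦ by
    rw [div_eq_div_iff hb₀ hb, ← map_mul, ← map_mul]
    refine congrArg _ (iotaS_injective ℓ ?_)
    rw [map_mul, map_mul, ← h, ← h₀]
    ring
  exact key _ _ x.2.choose_spec.choose_spec.1 x.2.choose_spec.choose_spec.2

variable (ℓ) in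
/-- The reduction map. -/
def red : ↥(gaussRing ℓ) →+* LaurentSeries (ZMod ℓ) where
  toFun := redFun
  map_one' := by rw [redFun_eq 1 (a := 1) (b := 1) (by simp) (by simp)]; simp
  map_zero' := by rw [redFun_eq 0 (a := 0) (b := 1) (by simp) (by simp)]; simp
  map_mul' x y := by
    obtain ⟨a, b, hb, h⟩ := x.2
    obtain ⟨a', b', hb', h'⟩ := y.2
    rw [redFun_eq x hb h, redFun_eq y hb' h', redFun_eq (x * y) (a := a * a') (b := b * b')
      (by rw [map_mul]; exact mul_ne_zero hb hb') (by rw [map_mul, map_mul, ← h, ← h', Subring.coe_mul]; ring),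
      map_mul, map_mul, div_mul_div_comm]
  map_add' x y := by
    obtain ⟨a, b, hb, h⟩ := x.2
    obtain ⟨a', b', hb', h'⟩ := y.2
    rw [redFun_eq x hb h, redFun_eq y hb' h', redFun_eq (x + y) (a := a * b' + b * a') (b := b * b')
      (by rw [map_mul]; exact mul_ne_zero hb hb')
      (by rw [map_mul, map_add, map_mul, map_mul, ← h, ← h', Subring.coe_add]; ring),
      map_add, map_mul, map_mul, map_mul, div_add_div _ _ hb hb']

theorem red_iotaS (a : LaurentSeries ↥(ratLocalizedAt ℓ)) :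
    red ℓ ⟨iotaS ℓ a, iotaS_mem ℓ a⟩ = piS ℓ a := by
  show redFun _ = _
  rw [redFun_eq _ (a := a) (b := 1) (by simp) (by simp)]
  simp

/-- An element with zero reduction is divisible by `ℓ`. -/
theorem div_mem_of_red_eq_zero {x : ↥(gaussRing ℓ)} (h : red ℓ x = 0) :
    (x : LaurentSeries ℚ) / (ℓ : LaurentSeries ℚ) ∈ gaussRing ℓ := by
  obtain ⟨a, b, hb, hab⟩ := x.2
  have h0 : piS ℓ a = 0 := by
    have := redFun_eq x hb hab
    rw [show redFun x = red ℓ x from rfl, h, eq_comm, div_eq_zero_iff] at this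
    exact this.resolve_right hb
  rcases eq_or_ne a 0 with rfl | ha
  · refine ⟨0, b, hb, ?_⟩
    rw [div_mul_eq_mul_div, hab, map_zero, zero_div]
  obtain ⟨r, a', ha', hpa'⟩ := exists_pow_mul_series ℓ a ha
  rcases r with _ | r
  · rw [pow_zero, one_mul] at ha'
    exact absurd (ha' ▸ h0) hpa'
  refine ⟨(ℓ : LaurentSeries ↥(ratLocalizedAt ℓ)) ^ r * a', b, hb, ?_⟩
  have hl : (ℓ : LaurentSeries ℚ) ≠ 0 := by
    rw [← map_natCast HahnSeries.C]
    exact fun h ↦ (Fact.out : ℓ.Prime).ne_zero (Nat.cast_eq_zero.mp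
      (HahnSeries.C_injective (h.trans (map_zero _).symm)))
  rw [div_mul_eq_mul_div, hab, ha', pow_succ', mul_assoc, map_mul, map_natCast,
    mul_div_cancel_left₀ _ hl]

variable (ℓ) in
/-- Quotients of `ℓ`-integral series. -/
def fracField : IntermediateField ℚ (LaurentSeries ℚ) where
  carrier := {x | ∃ a b, b ≠ 0 ∧ x * iotaS ℓ b = iotaS ℓ a}
  zero_mem' := ⟨0, 1, one_ne_zero, by simp⟩
  one_mem' := ⟨1, 1, one_ne_zero, by simp⟩
  mul_mem' := by
    rintro x y ⟨a, b, hb, h⟩ ⟨a', b', hb', h'⟩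
    exact ⟨a * a', b * b', mul_ne_zero hb hb', by rw [map_mul, map_mul, ← h, ← h']; ring⟩
  add_mem' := by
    rintro x y ⟨a, b, hb, h⟩ ⟨a', b', hb', h'⟩
    exact ⟨a * b' + a' * b, b * b', mul_ne_zero hb hb',
      by rw [map_mul, map_add, map_mul, map_mul, ← h, ← h']; ring⟩
  inv_mem' := by
    rintro x ⟨a, b, hb, h⟩
    rcases eq_or_ne x 0 with rfl | hx
    · exact ⟨0, 1, one_ne_zero, by simp⟩
    refine ⟨b, a, fun ha ↦ ?_, ?_⟩
    · rw [ha, map_zero, mul_eq_zero] at h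
      exact hb ((map_eq_zero_iff _ (iotaS_injective ℓ)).mp (h.resolve_left hx))
    · rw [← h, ← mul_assoc, inv_mul_cancel₀ hx, one_mul]
  algebraMap_mem' c := by
    refine ⟨(c.num : LaurentSeries ↥(ratLocalizedAt ℓ)), (c.den : LaurentSeries ↥(ratLocalizedAt ℓ)), ?_, ?_⟩
    · rw [← map_natCast HahnSeries.C]
      exact fun h ↦ c.den_nz (Nat.cast_eq_zero.mp (HahnSeries.C_injective (h.trans (map_zero _).symm)))
    · rw [map_natCast, map_intCast, ← map_natCast (algebraMap ℚ (LaurentSeries ℚ)), ← map_mul,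
        Rat.mul_den_eq_num, map_intCast]

theorem exists_pow_mul_mem {x : LaurentSeries ℚ} (hx : x ∈ fracField ℓ) :
    ∃ r : ℕ, (ℓ : LaurentSeries ℚ) ^ r * x ∈ gaussRing ℓ := by
  obtain ⟨a, b, hb, h⟩ := hx
  obtain ⟨r, b', rfl, hb'⟩ := exists_pow_mul_series ℓ b hb
  exact ⟨r, a, b', hb', by rw [← h, map_mul, map_pow, map_natCast]; ring⟩

/-- The Gauss ring is integrally closed in the field of quotients. -/
theorem mem_gaussRing_of_relation {x : LaurentSeries ℚ} (hx : x ∈ fracField ℓ)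
    {g : (LaurentSeries ℚ)[X]} (hg : g.Monic) (hc : ∀ i, g.coeff i ∈ gaussRing ℓ)
    (h0 : g.eval x = 0) : x ∈ gaussRing ℓ := by
  classical
  have hex : ∃ r : ℕ, (ℓ : LaurentSeries ℚ) ^ r * x ∈ gaussRing ℓ := exists_pow_mul_mem hx
  have hspec := Nat.find_spec hex
  rcases h : Nat.find hex with _ | r
  · simpa [h] using hspec
  exfalso
  rw [h] at hspec
  set y : ↥(gaussRing ℓ) := ⟨_, hspec⟩
  have hl : (ℓ : LaurentSeries ℚ) ≠ 0 := by
    rw [← map_natCast HahnSeries.C]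
    exact fun h ↦ (Fact.out : ℓ.Prime).ne_zero (Nat.cast_eq_zero.mp
      (HahnSeries.C_injective (h.trans (map_zero _).symm)))
  have hy : red ℓ y ≠ 0 := fun hy ↦ Nat.find_min hex (m := r) (by omega) (by
    have := div_mem_of_red_eq_zero hy
    simpa [y, pow_succ', mul_assoc, mul_div_cancel_left₀ _ hl] using this)
  set L : ↥(gaussRing ℓ) := (ℓ : ↥(gaussRing ℓ)) ^ (r + 1)
  set n := g.natDegree
  have hsum : y ^ n + ∑ i ∈ Finset.range n, ⟨g.coeff i, hc i⟩ * L ^ (n - i) * y ^ i = 0 := by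
    refine Subtype.ext ?_
    rw [eval_eq_sum_range, Finset.sum_range_succ, hg.coeff_natDegree, one_mul, add_comm] at h0
    simp only [Subring.coe_add, Subring.coe_pow, AddSubmonoidClass.coe_finsetSum, Subring.coe_mul,
      ZeroMemClass.coe_zero, L, y, SubringClass.coe_natCast]
    have hterm : ∀ i ∈ Finset.range n, g.coeff i * ((ℓ : LaurentSeries ℚ) ^ (r + 1)) ^ (n - i) *
        ((ℓ : LaurentSeries ℚ) ^ (r + 1) * x) ^ i =
        ((ℓ : LaurentSeries ℚ) ^ (r + 1)) ^ n * (g.coeff i * x ^ i) := fun i hi ↦ by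
      rw [mul_pow ((ℓ : LaurentSeries ℚ) ^ (r + 1)) x,
        show ((ℓ : LaurentSeries ℚ) ^ (r + 1)) ^ n =
          ((ℓ : LaurentSeries ℚ) ^ (r + 1)) ^ (n - i) * ((ℓ : LaurentSeries ℚ) ^ (r + 1)) ^ i by
          rw [← pow_add, Nat.sub_add_cancel (Finset.mem_range.mp hi).le]]
      ring
    rw [Finset.sum_congr rfl hterm, ← Finset.mul_sum, mul_pow, ← mul_add, h0, mul_zero]
  have hred := congrArg (red ℓ) hsum
  rw [map_add, map_sum, map_zero, Finset.sum_eq_zero, add_zero, map_pow] at hred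
  · exact hy (eq_zero_of_pow_eq_zero hred)
  · intro i hi
    have hL : red ℓ L = 0 := by
      simp only [L, map_pow, map_natCast]
      rw [← map_natCast HahnSeries.C, ZMod.natCast_self, map_zero, zero_pow (Nat.succ_ne_zero r)]
    rw [map_mul, map_mul, map_pow, hL, zero_pow (Nat.sub_ne_zero_of_lt (Finset.mem_range.mp hi)),
      mul_zero, zero_mul]

end Fermat.Agent.Igusa
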