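/-
The `q`-expansion reduction of the charts of `X₀(N)` over `ℤ_(ℓ)`: its kernel is `ℓ B`
(helper50, S28).
-/
import Fermat.Agent.Igusa.Descent
import Fermat.Agent.Igusa.GaussRing
import Fermat.Prelude.Def_ModularCurve_IgusaScheme
import Mathlib.RingTheory.Polynomial.GaussLemma

set_option autoImplicit false

noncomputable section

open ModularCurve Polynomial GaloisRep IntermediateField

namespace Fermat.Agent.Igusa

variable {R S : Type} [CommRing R] [CommRing S]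

theorem coeffMap_eval₂C (f : R →+* S) (T0 : LaurentSeries R) (p : R[X]) :
    coeffMap f (p.eval₂ HahnSeries.C T0) = (p.map f).eval₂ HahnSeries.C (coeffMap f T0) := by
  rw [eval₂_map, hom_eval₂]
  congr 1
  exact RingHom.ext fun a ↦ by simp [coeffMap_C']

/-- The expansion of `1/j`. -/
def jInvSeries (R : Type) [CommRing R] : LaurentSeries R :=
  HahnSeries.single (1 : ℤ) 1 *
    HahnSeries.ofPowerSeries ℤ R ((jNum.invOfUnit 1).map (Int.castRingHom R))

theorem jqModC_mul_inv (R : Type) [CommRing R] : jqModC R * jInvSeries R = 1 := by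
  rw [jqModC, jInvSeries, mul_mul_mul_comm, HahnSeries.single_mul_single, ← map_mul, ← map_mul,
    PowerSeries.mul_invOfUnit _ _ (by rw [constantCoeff_jNum]; rfl)]
  simp

theorem coeffMap_jInvSeries (f : R →+* S) : coeffMap f (jInvSeries R) = jInvSeries S := by
  have h1 := congrArg (coeffMap f) (jqModC_mul_inv R)
  rw [map_mul, map_one, ModularCurve.coeffMap_jqModC] at h1
  calc coeffMap f (jInvSeries R)
      = (jqModC S * jInvSeries S) * coeffMap f (jInvSeries R) := by rw [jqModC_mul_inv, one_mul]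
    _ = (jqModC S * coeffMap f (jInvSeries R)) * jInvSeries S := by ring
    _ = _ := by rw [h1, one_mul]

/-- `ℚ(j)` inside `ℚ((q))`. -/
def E0 : IntermediateField ℚ (LaurentSeries ℚ) := IntermediateField.adjoin ℚ {jq}

theorem algebraMap_eq_C (c : ℚ) : algebraMap ℚ (LaurentSeries ℚ) c = HahnSeries.C c :=
  RingHom.congr_fun (Subsingleton.elim _ _) c

theorem aeval_eq_eval₂C (T : LaurentSeries ℚ) (p : ℚ[X]) :
    aeval T p = p.eval₂ HahnSeries.C T := by
  rw [aeval_def]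
  congr 1
  exact RingHom.ext algebraMap_eq_C

theorem exists_int_mul {ℓ : ℕ} [Fact ℓ.Prime] (p : ℚ[X]) :
    ∃ (D : ℕ) (p' : (↥(ratLocalizedAt ℓ))[X]), D ≠ 0 ∧
      p'.map (iotaL ℓ) = C (D : ℚ) * p := by
  induction p using Polynomial.induction_on' with
  | add p q hp hq =>
    obtain ⟨D, p', hD, hp'⟩ := hp
    obtain ⟨D', q', hD', hq'⟩ := hq
    refine ⟨D * D', C (D' : ↥(ratLocalizedAt ℓ)) * p' + C (D : ↥(ratLocalizedAt ℓ)) * q',
      mul_ne_zero hD hD', ?_⟩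
    simp only [Polynomial.map_add, Polynomial.map_mul, map_natCast, Polynomial.map_natCast, hp', hq',
      Nat.cast_mul, map_mul]
    ring
  | monomial n c =>
    refine ⟨c.den, monomial n (c.num : ↥(ratLocalizedAt ℓ)), c.den_nz, ?_⟩
    rw [map_monomial, C_mul_monomial, map_intCast, Rat.den_mul_eq_num]

variable {N : ℕ} [NeZero N] {ℓ : ℕ} [Fact ℓ.Prime]

/-- The transcendental parameters we use: `j` and `1/j`. -/
structure IsParam (T0 : LaurentSeries ↥(ratLocalizedAt ℓ)) : Prop where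
  transcendental : ∀ p : (ZMod ℓ)[X], p.eval₂ HahnSeries.C (piS ℓ T0) = 0 → p = 0
  adjoin_eq : IntermediateField.adjoin ℚ {iotaS ℓ T0} = E0

theorem IsParam.mem_E0 {T0 : LaurentSeries ↥(ratLocalizedAt ℓ)} (hT : IsParam T0) :
    iotaS ℓ T0 ∈ E0 :=
  hT.adjoin_eq ▸ subset_adjoin ℚ _ (Set.mem_singleton _)

theorem isParam_j : IsParam (ℓ := ℓ) (jqModC ↥(ratLocalizedAt ℓ)) := by
  refine ⟨fun p hp ↦ jqModC_transcendental ?_, ?_⟩
  · rwa [piS, ModularCurve.coeffMap_jqModC] at hp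
  · rw [iotaS, ModularCurve.coeffMap_jqModC, jqModC_rat, E0]

theorem isParam_jInv : IsParam (ℓ := ℓ) (jInvSeries ↥(ratLocalizedAt ℓ)) := by
  refine ⟨fun p hp ↦ ?_, ?_⟩
  · rw [piS, coeffMap_jInvSeries] at hp
    have hu := jqModC_mul_inv (ZMod ℓ)
    letI : Invertible (jInvSeries (ZMod ℓ)) := ⟨jqModC (ZMod ℓ), hu, by rw [mul_comm, hu]⟩
    have := eval₂_reverse_eq_zero_iff HahnSeries.C (jInvSeries (ZMod ℓ)) p
    exact (Polynomial.reverse_eq_zero).mp (jqModC_transcendental (this.mpr hp))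
  · rw [iotaS, coeffMap_jInvSeries, show jInvSeries ℚ = jq⁻¹ from
      eq_inv_of_mul_eq_one_right (jqModC_rat ▸ jqModC_mul_inv ℚ), E0]
    refine le_antisymm ?_ ?_
    · exact adjoin_le_iff.mpr (Set.singleton_subset_iff.mpr
        (inv_mem (subset_adjoin ℚ _ (Set.mem_singleton _))))
    · refine adjoin_le_iff.mpr (Set.singleton_subset_iff.mpr ?_)
      have h := inv_mem (subset_adjoin ℚ {jq⁻¹} (Set.mem_singleton _))
      rwa [inv_inv] at h

theorem ell_ne_zero : (ℓ : LaurentSeries ℚ) ≠ 0 := by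
  rw [← map_natCast HahnSeries.C]
  exact fun h ↦ (Fact.out : ℓ.Prime).ne_zero
    (Nat.cast_eq_zero.mp (HahnSeries.C_injective (h.trans (map_zero _).symm)))

theorem evC_jqModC_mem (p : (↥(ratLocalizedAt ℓ))[X]) :
    iotaS ℓ (p.eval₂ HahnSeries.C (jqModC ↥(ratLocalizedAt ℓ))) =
      (p.map (iotaL ℓ)).eval₂ HahnSeries.C jq := by
  rw [coeffMap_eval₂C, ModularCurve.coeffMap_jqModC, jqModC_rat]

/-- An `ℓ`-integral element of `ℚ(j)` is `p(j)/s(j)` with `s ≢ 0`. -/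
theorem exists_repr {c : LaurentSeries ℚ} (hc : c ∈ E0) (hg : c ∈ gaussRing ℓ) :
    ∃ p s : (↥(ratLocalizedAt ℓ))[X], s.map (piL ℓ) ≠ 0 ∧
      c * iotaS ℓ (s.eval₂ HahnSeries.C (jqModC ↥(ratLocalizedAt ℓ))) =
        iotaS ℓ (p.eval₂ HahnSeries.C (jqModC ↥(ratLocalizedAt ℓ))) := by
  set j0 := jqModC ↥(ratLocalizedAt ℓ)
  rcases eq_or_ne c 0 with rfl | hc0
  · exact ⟨0, 1, by simp, by simp⟩
  obtain ⟨r, s, hrs⟩ := (IntermediateField.mem_adjoin_simple_iff ℚ c).mp hc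
  obtain ⟨D, r', hD, hr'⟩ := exists_int_mul (ℓ := ℓ) r
  obtain ⟨D', s', hD', hs'⟩ := exists_int_mul (ℓ := ℓ) s
  set r'' := C (D' : ↥(ratLocalizedAt ℓ)) * r'
  set s'' := C (D : ↥(ratLocalizedAt ℓ)) * s'
  have hs0 : aeval jq s ≠ 0 := fun h ↦ hc0 (by rw [hrs, h, div_zero])
  have heq : c * iotaS ℓ (s''.eval₂ HahnSeries.C j0) = iotaS ℓ (r''.eval₂ HahnSeries.C j0) := by
    rw [evC_jqModC_mem, evC_jqModC_mem]
    simp only [s'', r'', Polynomial.map_mul, map_natCast, Polynomial.map_natCast, hr', hs',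
      eval₂_mul, eval₂_natCast, ← aeval_eq_eval₂C]
    rw [hrs]
    field_simp
  have hs''0 : s'' ≠ 0 := by
    intro h
    have h1 := congrArg (Polynomial.map (iotaL ℓ)) h
    simp only [s'', Polynomial.map_mul, hs', Polynomial.map_zero, mul_eq_zero, map_natCast,
      Polynomial.map_natCast] at h1
    rcases h1 with h1 | h1 | h1
    · exact hD (Nat.cast_eq_zero.mp h1)
    · exact hD' (Nat.cast_eq_zero.mp h1)
    · exact hs0 (by rw [h1, map_zero])
  rcases eq_or_ne r'' 0 with hr0 | hr0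
  · rw [hr0, eval₂_zero, map_zero, mul_eq_zero] at heq
    rcases heq with h | h
    · exact absurd h hc0
    · rw [evC_jqModC_mem, ← aeval_eq_eval₂C] at h
      simp only [s'', Polynomial.map_mul, map_natCast, Polynomial.map_natCast, hs', map_mul,
        mul_eq_zero, Nat.cast_eq_zero] at h
      have hne : ∀ n : ℕ, n ≠ 0 → (n : LaurentSeries ℚ) ≠ 0 := fun n hn hn' ↦ hn (by
        rw [← map_natCast HahnSeries.C] at hn'
        exact Nat.cast_eq_zero.mp (HahnSeries.C_injective (hn'.trans (map_zero _).symm)))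
      rcases h with h | h | h
      · exact absurd h (hne D hD)
      · exact absurd h (hne D' hD')
      · exact absurd h hs0
  obtain ⟨u, p₁, hp₁, hp₁'⟩ := exists_pow_mul_poly ℓ r'' hr0
  obtain ⟨v, s₁, hs₁, hs₁'⟩ := exists_pow_mul_poly ℓ s'' hs''0
  rw [hp₁, hs₁] at heq
  simp only [eval₂_mul, eval₂_pow, eval₂_natCast, map_mul, map_pow, map_natCast] at heq
  rcases le_or_gt v u with huv | huv
  · refine ⟨(ℓ : (↥(ratLocalizedAt ℓ))[X]) ^ (u - v) * p₁, s₁, hs₁', ?_⟩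
    simp only [eval₂_mul, eval₂_pow, eval₂_natCast, map_mul, map_pow, map_natCast]
    refine mul_left_cancel₀ (pow_ne_zero v (ell_ne_zero (ℓ := ℓ))) ?_
    rw [← mul_assoc, ← mul_assoc, ← pow_add, Nat.add_sub_cancel' huv, ← heq]
    ring
  · exfalso
    have h2 : (ℓ : LaurentSeries ℚ) ^ (v - u) * c * iotaS ℓ (s₁.eval₂ HahnSeries.C j0) =
        iotaS ℓ (p₁.eval₂ HahnSeries.C j0) := by
      refine mul_left_cancel₀ (pow_ne_zero u (ell_ne_zero (ℓ := ℓ))) ?_
      rw [← heq, ← mul_assoc, ← mul_assoc, ← pow_add, Nat.add_sub_cancel' huv.le]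
      ring
    have h3 : ((ℓ : ↥(gaussRing ℓ)) ^ (v - u) * ⟨c, hg⟩) *
        ⟨_, iotaS_mem ℓ (s₁.eval₂ HahnSeries.C j0)⟩ =
        ⟨_, iotaS_mem ℓ (p₁.eval₂ HahnSeries.C j0)⟩ := by
      refine Subtype.ext ?_
      simpa using h2
    have h4 := congrArg (red ℓ) h3
    rw [map_mul, map_mul, map_pow, map_natCast, ← map_natCast HahnSeries.C, ZMod.natCast_self,
      map_zero, zero_pow (by omega), zero_mul, zero_mul, red_iotaS, piS, coeffMap_eval₂C,
      ModularCurve.coeffMap_jqModC] at h4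
    exact hp₁' (jqModC_transcendental h4.symm)

/-- The coefficients of an `ℓ`-integral combination of `1, j_N, …` are `ℓ`-integral. -/
theorem coeff_mem_gaussRing (hℓN : ¬ ℓ ∣ N) (c : Fin (cosetCard N) → LaurentSeries ℚ)
    (hc : ∀ i, c i ∈ E0) (hE : ∀ i, c i ∈ fracField ℓ)
    (h : ∑ i, c i * jqNModC ℚ N ^ (i : ℕ) ∈ gaussRing ℓ) : ∀ i, c i ∈ gaussRing ℓ := by
  classical
  have hex : ∃ r : ℕ, ∀ i, (ℓ : LaurentSeries ℚ) ^ r * c i ∈ gaussRing ℓ := by
    choose r hr using fun i ↦ exists_pow_mul_mem (hE i)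
    refine ⟨Finset.univ.sup r, fun i ↦ ?_⟩
    have hle : r i ≤ Finset.univ.sup r := Finset.le_sup (Finset.mem_univ i)
    rw [← Nat.sub_add_cancel hle, pow_add, mul_assoc]
    exact mul_mem (pow_mem (_root_.natCast_mem _ ℓ) _) (hr i)
  have hspec := Nat.find_spec hex
  rcases hfind : Nat.find hex with _ | r
  · simpa [hfind] using hspec
  exfalso
  rw [hfind] at hspec
  have hmemE : ∀ i, (ℓ : LaurentSeries ℚ) ^ (r + 1) * c i ∈ E0 :=
    fun i ↦ mul_mem (pow_mem (_root_.natCast_mem _ ℓ) _) (hc i)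
  choose p s hs hps using fun i ↦ exists_repr (hmemE i) (hspec i)
  set j0 := jqModC ↥(ratLocalizedAt ℓ)
  set y : Fin (cosetCard N) → ↥(gaussRing ℓ) := fun i ↦ ⟨_, hspec i⟩
  have hy : ∀ i, red ℓ (y i) * ((s i).map (piL ℓ)).eval₂ HahnSeries.C (jqModC (ZMod ℓ)) =
      ((p i).map (piL ℓ)).eval₂ HahnSeries.C (jqModC (ZMod ℓ)) := fun i ↦ by
    have h1 : y i * ⟨_, iotaS_mem ℓ ((s i).eval₂ HahnSeries.C j0)⟩ =
        ⟨_, iotaS_mem ℓ ((p i).eval₂ HahnSeries.C j0)⟩ := Subtype.ext (hps i)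
    have h2 := congrArg (red ℓ) h1
    rwa [map_mul, red_iotaS, red_iotaS, piS, coeffMap_eval₂C, coeffMap_eval₂C,
      ModularCurve.coeffMap_jqModC] at h2
  have hN0 : (N : ZMod ℓ) ≠ 0 := by rwa [Ne, ZMod.natCast_eq_zero_iff]
  set J : ↥(gaussRing ℓ) := ⟨_, iotaS_mem ℓ (jqNModC ↥(ratLocalizedAt ℓ) N)⟩
  have hsum : ∑ i, y i * J ^ (i : ℕ) = (ℓ : ↥(gaussRing ℓ)) ^ (r + 1) * ⟨_, h⟩ := by
    refine Subtype.ext ?_
    simp only [AddSubmonoidClass.coe_finsetSum, Subring.coe_mul, Subring.coe_pow, y, J,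
      SubringClass.coe_natCast, Finset.mul_sum, iotaS, ModularCurve.coeffMap_jqNModC, mul_assoc]
  have hred := congrArg (red ℓ) hsum
  rw [map_sum, map_mul (red ℓ), map_pow, map_natCast, ← map_natCast HahnSeries.C,
    ZMod.natCast_self, map_zero, zero_pow (Nat.succ_ne_zero r), zero_mul] at hred
  replace hred : ∑ i : Fin (cosetCard N), red ℓ (y i) * jqNModC (ZMod ℓ) N ^ (i : ℕ) = 0 := by
    have hJ : red ℓ J = jqNModC (ZMod ℓ) N := by
      rw [show red ℓ J = piS ℓ _ from red_iotaS _, piS, ModularCurve.coeffMap_jqNModC]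
    simpa only [map_mul, map_pow, hJ] using hred
  have hzero : ∀ i, (p i).map (piL ℓ) = 0 := by
    set G : (ZMod ℓ)[X][X] := ∑ i, C ((p i).map (piL ℓ) *
      ∏ k ∈ Finset.univ.erase i, (s k).map (piL ℓ)) * X ^ (i : ℕ)
    have hG : G = 0 := by
      refine eq_zero_of_evXY hN0 G (fun n hn ↦ ?_) ?_
      · simp only [G, finsetSum_coeff, coeff_C_mul_X_pow]
        exact Finset.sum_eq_zero fun j _ ↦ if_neg (by omega)
      · simp only [G, evXY, coe_eval₂RingHom, eval₂_finsetSum, eval₂_mul, eval₂_C, eval₂_pow,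
          eval₂_X, evC, eval₂_finsetProd]
        calc _ = (∏ k, ((s k).map (piL ℓ)).eval₂ HahnSeries.C (jqModC (ZMod ℓ))) *
              ∑ i : Fin (cosetCard N), red ℓ (y i) * jqNModC (ZMod ℓ) N ^ (i : ℕ) := by
              rw [Finset.mul_sum]
              refine Finset.sum_congr rfl fun i _ ↦ ?_
              rw [← hy i, ← Finset.mul_prod_erase Finset.univ _ (Finset.mem_univ i)]
              ring
          _ = 0 := by rw [hred, mul_zero]
    intro i
    have hi := congrArg (fun g : (ZMod ℓ)[X][X] ↦ g.coeff (i : ℕ)) hG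
    simp only [G, finsetSum_coeff, coeff_C_mul_X_pow, coeff_zero, Fin.val_inj, Finset.sum_ite_eq,
      Finset.mem_univ, if_true, mul_eq_zero] at hi
    exact hi.resolve_right (Finset.prod_ne_zero_iff.mpr fun k _ ↦ hs k)
  refine Nat.find_min hex (m := r) (by omega) fun i ↦ ?_
  have hyi : red ℓ (y i) = 0 := by
    have := hy i
    rw [hzero i, eval₂_zero, mul_eq_zero] at this
    exact this.resolve_right fun h ↦ hs i (jqModC_transcendental h)
  simpa [y, pow_succ', mul_assoc, mul_div_cancel_left₀ _ (ell_ne_zero (ℓ := ℓ))]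
    using div_mem_of_red_eq_zero hyi

theorem full_le_fracField : modularFunctionFieldFull N ≤ fracField ℓ := by
  rw [modularFunctionFieldFull, adjoin_le_iff]
  rintro x ⟨d, hd, -, rfl⟩
  haveI := hd
  refine ⟨qExpand _ d (jqModC ↥(ratLocalizedAt ℓ)), 1, one_ne_zero, ?_⟩
  rw [map_one, mul_one, iotaS, coeffMap_qExpand, ModularCurve.coeffMap_jqModC, jqModC_rat]

theorem E0_le_full : E0 ≤ modularFunctionFieldFull N :=
  (adjoin_jq_le N).trans (modularFunctionField_le_full N)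

/-- Every element of the function field is an `E0`-combination of `1, j_N, …, j_N^(ψ-1)`. -/
theorem exists_combination {z : LaurentSeries ℚ} (hz : z ∈ modularFunctionFieldFull N) :
    ∃ c : Fin (cosetCard N) → LaurentSeries ℚ, (∀ i, c i ∈ E0) ∧
      z = ∑ i, c i * jqNModC ℚ N ^ (i : ℕ) := by
  obtain ⟨P, hPm, hPd, hP0, hP', hPQ⟩ :=
    exists_modularEquation (N := N) (K := ℚ) (Nat.cast_ne_zero.mpr (NeZero.ne N))
  let φE : ℚ[X] →+* E0 := (aeval (⟨jq, subset_adjoin ℚ _ (Set.mem_singleton _)⟩ : E0)).toRingHom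
  have hφE : (algebraMap E0 (LaurentSeries ℚ)).comp φE = evC ℚ := by
    refine Polynomial.ringHom_ext (fun a ↦ ?_) ?_
    · simp [φE, evC, algebraMap_eq_C]
    · simp [φE, evC, jqModC_rat]
  have hev : ∀ A : ℚ[X][X], evXY ℚ N A = aeval (jqNModC ℚ N) (A.map φE) := fun A ↦ by
    rw [aeval_def, eval₂_map, hφE]
    rfl
  set PE := P.map φE
  have hroot : aeval (jqNModC ℚ N) PE = 0 := by rw [← hev, hP0]
  have hint : IsIntegral E0 (jqNModC ℚ N) := ⟨PE, hPm.map _, hroot⟩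
  have hmem : ∀ A : ℚ[X][X], evXY ℚ N A ∈ E0⟮jqNModC ℚ N⟯ := fun A ↦ by
    rw [hev]
    exact IntermediateField.algebra_adjoin_le_adjoin _ _
      (Algebra.adjoin_singleton_eq_range_aeval E0 (jqNModC ℚ N) ▸ ⟨_, rfl⟩)
  have hle : (modularFunctionFieldFull N).toSubfield ≤ (E0⟮jqNModC ℚ N⟯).toSubfield := by
    rw [modularFunctionFieldFull, IntermediateField.adjoin_toSubfield, Subfield.closure_le]
    rintro x (⟨a, rfl⟩ | ⟨d, hd, hdN, rfl⟩)
    · rw [show algebraMap ℚ (LaurentSeries ℚ) a = (a : LaurentSeries ℚ) from eq_ratCast _ a]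
      exact SubfieldClass.ratCast_mem (E0⟮jqNModC ℚ N⟯).toSubfield a
    haveI := hd
    obtain ⟨Q, hQ⟩ := hPQ d hdN
    show qExpand ℚ d jq ∈ E0⟮jqNModC ℚ N⟯
    rw [jqModC_rat] at hQ
    rw [eq_div_of_mul_eq hP' hQ.symm]
    exact div_mem (hmem Q) (hmem _)
  have hz' : z ∈ E0⟮jqNModC ℚ N⟯ := hle hz
  rw [← IntermediateField.mem_toSubalgebra,
    IntermediateField.adjoin_simple_toSubalgebra_of_isAlgebraic hint.isAlgebraic,
    Algebra.adjoin_singleton_eq_range_aeval] at hz'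
  obtain ⟨g, rfl⟩ := hz'
  set g' := g %ₘ PE
  have hg' : aeval (jqNModC ℚ N) g = aeval (jqNModC ℚ N) g' :=
    (aeval_modByMonic_eq_self_of_root hroot).symm
  refine ⟨fun i ↦ (g'.coeff i : LaurentSeries ℚ), fun i ↦ (g'.coeff i).2, ?_⟩
  show aeval (jqNModC ℚ N) g = _
  rw [hg', aeval_eq_sum_range' (n := cosetCard N), Finset.sum_range]
  · rfl
  · have hne : PE ≠ 1 := fun h ↦ by
      have := congrArg natDegree h
      rw [hPm.natDegree_map, hPd, natDegree_one] at this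
      exact (cosetCard_pos N).ne' this
    have := natDegree_modByMonic_lt g (hPm.map φE) hne
    rwa [hPm.natDegree_map, hPd] at this

variable (N ℓ) in
/-- `ℓ`-integral elements of `ℚ(j)`. -/
def O0 : Subring (LaurentSeries ℚ) := gaussRing ℓ ⊓ E0.toSubfield.toSubring

theorem isIntegral_jqN (hℓN : ¬ ℓ ∣ N) : IsIntegral ↥(O0 ℓ) (jqNModC ℚ N) := by
  obtain ⟨c, hc, hsum⟩ := exists_combination (N := N) (z := jqNModC ℚ N ^ cosetCard N)
    (pow_mem (show jqNModC ℚ N ∈ modularFunctionFieldFull N from jqd_mem_full N dvd_rfl) _)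
  have hmem : jqNModC ℚ N ∈ gaussRing ℓ :=
    ⟨jqNModC ↥(ratLocalizedAt ℓ) N, 1, by simp, by
      rw [map_one, mul_one, iotaS, ModularCurve.coeffMap_jqNModC]⟩
  have hcg := coeff_mem_gaussRing hℓN c hc
    (fun i ↦ full_le_fracField (N := N) (E0_le_full (hc i))) (hsum ▸ pow_mem hmem _)
  refine ⟨X ^ cosetCard N - ∑ i : Fin (cosetCard N), monomial (i : ℕ) (⟨c i, hcg i, hc i⟩ : ↥(O0 ℓ)),
    ?_, ?_⟩
  · refine monic_X_pow_sub ?_
    refine (degree_sum_le _ _).trans_lt ((Finset.sup_lt_iff (WithBot.bot_lt_coe _)).mpr fun i _ ↦ ?_)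
    exact (degree_monomial_le _ _).trans_lt (WithBot.coe_lt_coe.mpr i.2)
  · simp [eval₂_finsetSum]
    exact sub_eq_zero.mpr hsum

/-- The key statement: an `ℓ`-integral element of `F` integral over `ℚ[T]` is integral over
`ℤ_(ℓ)[T]`. -/
theorem isIntegralElem_of_mem_gaussRing (hℓN : ¬ ℓ ∣ N) {T0 : LaurentSeries ↥(ratLocalizedAt ℓ)}
    (hT : IsParam T0) {z : LaurentSeries ℚ} (hz : z ∈ modularFunctionFieldFull N)
    (hzg : z ∈ gaussRing ℓ)
    (hzQ : (eval₂RingHom (HahnSeries.C) (iotaS ℓ T0) : ℚ[X] →+* LaurentSeries ℚ).IsIntegralElem z) :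
    ((iotaS ℓ).comp (eval₂RingHom HahnSeries.C T0) :
      (↥(ratLocalizedAt ℓ))[X] →+* LaurentSeries ℚ).IsIntegralElem z := by
  classical
  obtain ⟨c, hc, hsum⟩ := exists_combination hz
  have hcg := coeff_mem_gaussRing hℓN c hc
    (fun i ↦ full_le_fracField (N := N) (E0_le_full (hc i))) (hsum ▸ hzg)
  have hzint : IsIntegral ↥(O0 ℓ) z := by
    rw [hsum]
    exact IsIntegral.sum _ fun i _ ↦ (isIntegral_algebraMap (x := (⟨c i, hcg i, hc i⟩ : ↥(O0 ℓ)))).mul
      ((isIntegral_jqN hℓN).pow _)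
  obtain ⟨f, hfm, hfz⟩ := hzint
  obtain ⟨f2, hf2m, hf2z⟩ := hzQ
  let i0 : ↥(O0 ℓ) →+* E0 :=
    { toFun := fun a ↦ ⟨a, a.2.2⟩, map_one' := rfl, map_mul' := fun _ _ ↦ rfl, map_zero' := rfl,
      map_add' := fun _ _ ↦ rfl }
  let i2 : ℚ[X] →+* E0 := (aeval (⟨_, hT.mem_E0⟩ : E0)).toRingHom
  have hi2 : (algebraMap E0 (LaurentSeries ℚ)).comp i2 =
      eval₂RingHom HahnSeries.C (iotaS ℓ T0) := by
    refine Polynomial.ringHom_ext (fun a ↦ ?_) ?_
    · simp [i2, algebraMap_eq_C]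
    · simp [i2]
  have hzE : IsIntegral E0 z := ⟨f.map i0, hfm.map _, by rw [eval₂_map]; exact hfz⟩
  set g := minpoly E0 z
  have hgm : g.Monic := minpoly.monic hzE
  have hd1 : g ∣ f.map i0 := minpoly.dvd _ _ (by rw [aeval_def, eval₂_map]; exact hfz)
  have hd2 : g ∣ f2.map i2 := minpoly.dvd _ _ (by rw [aeval_def, eval₂_map, hi2]; exact hf2z)
  have hcoef : ∀ n, ∃ p : (↥(ratLocalizedAt ℓ))[X],
      (g.coeff n : LaurentSeries ℚ) = iotaS ℓ (p.eval₂ HahnSeries.C T0) := by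
    intro n
    have heg : (g.coeff n : LaurentSeries ℚ) ∈ gaussRing ℓ := by
      letI := i0.toAlgebra
      obtain ⟨q, hq⟩ := (lifts_iff_coeff_lifts _).mp
        (integralClosure.mem_lifts_of_monic_of_dvd_map E0 hfm hgm hd1) n
      obtain ⟨h, hhm, hh⟩ : IsIntegral ↥(O0 ℓ) (g.coeff n) := hq ▸ q.2
      refine mem_gaussRing_of_relation (full_le_fracField (N := N) (E0_le_full (g.coeff n).2))
        (hhm.map (algebraMap ↥(O0 ℓ) (LaurentSeries ℚ))) (fun i ↦ ?_) ?_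
      · rw [coeff_map]; exact (h.coeff i).2.1
      · rw [eval_map]
        have := congrArg (algebraMap E0 (LaurentSeries ℚ)) hh
        rw [hom_eval₂, map_zero] at this
        exact this
    have hTQ : Function.Injective
        (eval₂RingHom HahnSeries.C (iotaS ℓ T0) : ℚ[X] →+* LaurentSeries ℚ) := by
      rw [injective_iff_map_eq_zero]
      intro p hp
      by_contra hp0
      obtain ⟨D, p', hD, hp'⟩ := exists_int_mul (ℓ := ℓ) p
      have hp'0 : p' ≠ 0 := fun h ↦ by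
        rw [h, Polynomial.map_zero, eq_comm, mul_eq_zero] at hp'
        exact hp0 (hp'.resolve_left (by simpa using hD))
      obtain ⟨u, p₁, hp₁, hp₁'⟩ := exists_pow_mul_poly ℓ p' hp'0
      have h1 : iotaS ℓ (p'.eval₂ HahnSeries.C T0) = 0 := by
        rw [coeffMap_eval₂C, hp', eval₂_mul, show p.eval₂ HahnSeries.C (coeffMap (iotaL ℓ) T0) = 0
          from hp, mul_zero]
      rw [hp₁, eval₂_mul, eval₂_pow, eval₂_natCast, map_mul, map_pow, map_natCast] at h1
      have h2 := iotaS_injective ℓ (((mul_eq_zero.mp h1).resolve_left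
        (pow_ne_zero _ ell_ne_zero)).trans (map_zero _).symm)
      refine hp₁' (hT.transcendental _ ?_)
      rw [piS, ← coeffMap_eval₂C, h2, map_zero]
    -- `g.coeff n` is a polynomial in `T`
    obtain ⟨q, hq⟩ : ∃ q : ℚ[X], q.eval₂ HahnSeries.C (iotaS ℓ T0) = g.coeff n := by
      letI := i2.toAlgebra
      obtain ⟨q, hq⟩ := (lifts_iff_coeff_lifts _).mp
        (integralClosure.mem_lifts_of_monic_of_dvd_map E0 hf2m hgm hd2) n
      obtain ⟨h, hhm, hh⟩ : IsIntegral ℚ[X] (g.coeff n) := hq ▸ q.2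
      have hle : nonZeroDivisors ℚ[X] ≤ (nonZeroDivisors (LaurentSeries ℚ)).comap
          (eval₂RingHom HahnSeries.C (iotaS ℓ T0) : ℚ[X] →+* LaurentSeries ℚ) :=
        fun a ha ↦ mem_nonZeroDivisors_of_ne_zero
          ((map_ne_zero_iff _ hTQ).mpr (nonZeroDivisors.ne_zero ha))
      set Ψ := RatFunc.liftRingHom _ hle
      have hΨ : Ψ.comp (algebraMap ℚ[X] (RatFunc ℚ)) = eval₂RingHom HahnSeries.C (iotaS ℓ T0) :=
        RingHom.ext fun a ↦ by
          have h := RatFunc.liftRingHom_apply_div _ hle a 1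
          rwa [map_one, div_one, map_one, div_one] at h
      have hsub : E0.toSubfield ≤ Ψ.fieldRange := by
        rw [← hT.adjoin_eq, IntermediateField.adjoin_toSubfield, Subfield.closure_le]
        rintro x (⟨a, rfl⟩ | rfl)
        · exact ⟨algebraMap ℚ[X] _ (C a), by
            rw [← RingHom.comp_apply, hΨ, coe_eval₂RingHom, eval₂_C, algebraMap_eq_C]⟩
        · exact ⟨algebraMap ℚ[X] _ X, by rw [← RingHom.comp_apply, hΨ, coe_eval₂RingHom, eval₂_X]⟩
      obtain ⟨e, he⟩ := hsub (g.coeff n).2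
      have hint : IsIntegral ℚ[X] e := by
        refine ⟨h, hhm, Ψ.injective ?_⟩
        have h5 := congrArg (algebraMap E0 (LaurentSeries ℚ)) hh
        rw [hom_eval₂, map_zero] at h5
        rw [map_zero, hom_eval₂, hΨ, he, ← hi2]
        exact h5
      obtain ⟨q, hqe⟩ := IsIntegrallyClosed.isIntegral_iff.mp hint
      refine ⟨q, ?_⟩
      rw [← he, ← hqe, ← RingHom.comp_apply, hΨ]
      rfl
    obtain ⟨D, q', hD, hq'⟩ := exists_int_mul (ℓ := ℓ) q
    rcases eq_or_ne q 0 with rfl | hq0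
    · exact ⟨0, by rw [← hq]; simp⟩
    have hq'0 : q' ≠ 0 := fun h ↦ by
      rw [h, Polynomial.map_zero, eq_comm, mul_eq_zero] at hq'
      exact hq0 (hq'.resolve_left (by simpa using hD))
    obtain ⟨u, q₁, hq₁, hq₁'⟩ := exists_pow_mul_poly ℓ q' hq'0
    obtain ⟨v, Dw, hDw, hD'⟩ : ∃ (v Dw : ℕ), ¬ ℓ ∣ Dw ∧ D = ℓ ^ v * Dw := by
      obtain ⟨v, w, hw, he⟩ := Nat.exists_eq_pow_mul_and_not_dvd hD ℓ (Fact.out : ℓ.Prime).ne_one
      exact ⟨v, w, hw, he⟩
    have heq : (ℓ : LaurentSeries ℚ) ^ v * (Dw : LaurentSeries ℚ) * g.coeff n =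
        (ℓ : LaurentSeries ℚ) ^ u * iotaS ℓ (q₁.eval₂ HahnSeries.C T0) := by
      have h1 : (q'.map (iotaL ℓ)).eval₂ HahnSeries.C (iotaS ℓ T0) =
          (D : LaurentSeries ℚ) * g.coeff n := by
        rw [hq', eval₂_mul, eval₂_C, map_natCast, hq]
      rw [← coeffMap_eval₂C, hq₁, eval₂_mul, eval₂_pow, eval₂_natCast, map_mul, map_pow,
        map_natCast] at h1
      rw [h1, hD', Nat.cast_mul, Nat.cast_pow]
    rcases le_or_gt v u with huv | huv
    · have hw : (Dw : ℚ)⁻¹ ∈ ratLocalizedAt ℓ := by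
        refine natCast_mem_iff ℓ Dw _ ?_ (by rwa [Ne, ZMod.natCast_eq_zero_iff])
        rw [Rat.inv_natCast_den]
        split_ifs <;> simp
      refine ⟨C (⟨_, hw⟩ : ↥(ratLocalizedAt ℓ)) * ((ℓ : (↥(ratLocalizedAt ℓ))[X]) ^ (u - v) * q₁), ?_⟩
      simp only [eval₂_mul, eval₂_C, eval₂_pow, eval₂_natCast, map_mul, map_pow, map_natCast,
        iotaS, coeffMap_C']
      rw [show (iotaL ℓ) ⟨(Dw : ℚ)⁻¹, hw⟩ = (Dw : ℚ)⁻¹ from rfl, map_inv₀, map_natCast]
      have hDw0 : (Dw : LaurentSeries ℚ) ≠ 0 := by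
        rw [← map_natCast HahnSeries.C]
        exact fun h ↦ hDw ((Nat.cast_eq_zero.mp (HahnSeries.C_injective (h.trans (map_zero _).symm))) ▸ dvd_zero ℓ)
      refine mul_left_cancel₀ (mul_ne_zero (pow_ne_zero v (ell_ne_zero (ℓ := ℓ))) hDw0) ?_
      rw [heq]
      field_simp
      rw [mul_assoc, ← pow_add, Nat.add_sub_cancel' huv, mul_comm]
    · exfalso
      have h2 : (ℓ : LaurentSeries ℚ) ^ (v - u) * ((Dw : LaurentSeries ℚ) * g.coeff n) =
          iotaS ℓ (q₁.eval₂ HahnSeries.C T0) := by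
        refine mul_left_cancel₀ (pow_ne_zero u (ell_ne_zero (ℓ := ℓ))) ?_
        rw [← heq, ← mul_assoc, ← pow_add, Nat.add_sub_cancel' huv.le, mul_assoc]
      have h3 : (ℓ : ↥(gaussRing ℓ)) ^ (v - u) * ((Dw : ↥(gaussRing ℓ)) * ⟨_, heg⟩) =
          ⟨_, iotaS_mem ℓ (q₁.eval₂ HahnSeries.C T0)⟩ := Subtype.ext (by simpa using h2)
      have h4 := congrArg (red ℓ) h3
      rw [map_mul, map_pow, map_natCast, ← map_natCast HahnSeries.C, ZMod.natCast_self,
        map_zero, zero_pow (by omega), zero_mul, red_iotaS, piS, coeffMap_eval₂C] at h4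
      exact hq₁' (hT.transcendental _ h4.symm)
  choose p hp using hcoef
  refine ⟨X ^ g.natDegree + ∑ i ∈ Finset.range g.natDegree, monomial i (p i), ?_, ?_⟩
  · refine monic_X_pow_add ((degree_sum_le _ _).trans_lt
      ((Finset.sup_lt_iff (WithBot.bot_lt_coe _)).mpr fun i hi ↦ ?_))
    exact (degree_monomial_le _ _).trans_lt (WithBot.coe_lt_coe.mpr (Finset.mem_range.mp hi))
  · have h := minpoly.aeval E0 z
    rw [show minpoly E0 z = g from rfl, aeval_eq_sum_range, Finset.sum_range_succ,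
      hgm.coeff_natDegree, one_smul, add_comm] at h
    rw [eval₂_add, eval₂_X_pow, eval₂_finsetSum]
    simp only [eval₂_monomial, RingHom.comp_apply, coe_eval₂RingHom, ← hp]
    exact h

/-- Chart elements are `ℓ`-integral series. -/
theorem mem_gaussRing_of_isIntegralElem {T0 : LaurentSeries ↥(ratLocalizedAt ℓ)}
    {x : LaurentSeries ℚ} (hx : x ∈ modularFunctionFieldFull N)
    (h : ((iotaS ℓ).comp (eval₂RingHom HahnSeries.C T0) :
      (↥(ratLocalizedAt ℓ))[X] →+* LaurentSeries ℚ).IsIntegralElem x) : x ∈ gaussRing ℓ := by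
  obtain ⟨f, hf, hfx⟩ := h
  refine mem_gaussRing_of_relation (full_le_fracField hx) (hf.map _) (fun i ↦ ?_)
    ((eval_map _ _).trans hfx)
  rw [coeff_map]
  exact iotaS_mem ℓ _

/-- The kernel of the reduction on a chart is `ℓ` times the chart. -/
theorem isIntegralElem_div (hℓN : ¬ ℓ ∣ N) {T0 : LaurentSeries ↥(ratLocalizedAt ℓ)}
    (hT : IsParam T0) {x : LaurentSeries ℚ} (hx : x ∈ modularFunctionFieldFull N)
    (h : ((iotaS ℓ).comp (eval₂RingHom HahnSeries.C T0) :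
      (↥(ratLocalizedAt ℓ))[X] →+* LaurentSeries ℚ).IsIntegralElem x)
    (hred : red ℓ ⟨x, mem_gaussRing_of_isIntegralElem hx h⟩ = 0) :
    ((iotaS ℓ).comp (eval₂RingHom HahnSeries.C T0) :
      (↥(ratLocalizedAt ℓ))[X] →+* LaurentSeries ℚ).IsIntegralElem
        (x / (ℓ : LaurentSeries ℚ)) := by
  have hzg : x / (ℓ : LaurentSeries ℚ) ∈ gaussRing ℓ :=
    div_mem_of_red_eq_zero (x := ⟨x, mem_gaussRing_of_isIntegralElem hx h⟩) hred
  have hzF : x / (ℓ : LaurentSeries ℚ) ∈ modularFunctionFieldFull N :=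
    IntermediateField.div_mem _ hx (IntermediateField.natCast_mem _ ℓ)
  refine isIntegralElem_of_mem_gaussRing hℓN hT hzF hzg ?_
  have hcomp : (eval₂RingHom HahnSeries.C (iotaS ℓ T0)).comp (mapRingHom (iotaL ℓ)) =
      (iotaS ℓ).comp (eval₂RingHom HahnSeries.C T0) :=
    RingHom.ext fun p ↦ (coeffMap_eval₂C _ _ p).symm
  obtain ⟨f, hf, hfx⟩ := h
  set φ : ℚ[X] →+* LaurentSeries ℚ := eval₂RingHom HahnSeries.C (iotaS ℓ T0) with hφ
  have h1 : φ.IsIntegralElem x := ⟨f.map (mapRingHom (iotaL ℓ)), hf.map _, by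
    rw [eval₂_map, hcomp]; exact hfx⟩
  have h2 : φ.IsIntegralElem (φ (C ((ℓ : ℚ)⁻¹))) := RingHom.isIntegralElem_map φ
  have hv : φ (C ((ℓ : ℚ)⁻¹)) = (ℓ : LaurentSeries ℚ)⁻¹ := by
    rw [hφ, coe_eval₂RingHom, eval₂_C, map_inv₀, map_natCast]
  rw [hv] at h2
  rw [div_eq_mul_inv]
  exact RingHom.IsIntegralElem.mul φ h1 h2

end Fermat.Agent.Igusa
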