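/-
The charts of the Igusa model tensored with a field of characteristic `ℓ` embed in Laurent series
(helper50, S28).
-/
import Fermat.Agent.Igusa.ChartReduction
import Mathlib.LinearAlgebra.Basis.VectorSpace
import Mathlib.RingTheory.TensorProduct.Maps

set_option autoImplicit false

noncomputable section

open ModularCurve ModularCurve.IgusaScheme Polynomial GaloisRep
open scoped TensorProduct

namespace Fermat.Agent.Igusa

variable {N : ℕ} [NeZero N] {ℓ : ℕ} [Fact ℓ.Prime]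

theorem coe_algebraMap_chart (a : ↥(ratLocalizedAt ℓ)) :
    ((algebraMap ↥(ratLocalizedAt ℓ) ↥(modularFunctionFieldFull N) a :
      ↥(modularFunctionFieldFull N)) : LaurentSeries ℚ) = iotaS ℓ (HahnSeries.C a) := by
  rw [iotaS, coeffMap_C', ← algebraMap_eq_C, eq_ratCast]
  show (((algebraMap ℚ ↥(modularFunctionFieldFull N)) (a : ℚ) : ↥(modularFunctionFieldFull N)) :
    LaurentSeries ℚ) = _
  rw [eq_ratCast]
  simp

variable (N) in
/-- The inclusion of the function field in `ℚ((q))`. -/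
def coeF : ↥(modularFunctionFieldFull N) →+* LaurentSeries ℚ where
  toFun x := (x : LaurentSeries ℚ)
  map_one' := rfl
  map_mul' _ _ := rfl
  map_zero' := rfl
  map_add' _ _ := rfl

theorem coeF_apply (x : ↥(modularFunctionFieldFull N)) : coeF N x = (x : LaurentSeries ℚ) := rfl

/-- The generators are `ℓ`-integral series. -/
def IntegralGens (S : Set ↥(modularFunctionFieldFull N)) : Prop :=
  ∀ s ∈ S, (s : LaurentSeries ℚ) ∈ gaussRing ℓ

theorem adjoin_mem_gaussRing {S : Set ↥(modularFunctionFieldFull N)}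
    (hS : IntegralGens (ℓ := ℓ) S) {x : ↥(modularFunctionFieldFull N)}
    (hx : x ∈ Algebra.adjoin ↥(ratLocalizedAt ℓ) S) : (x : LaurentSeries ℚ) ∈ gaussRing ℓ := by
  induction hx using Algebra.adjoin_induction with
  | mem y hy => exact hS y hy
  | algebraMap a => rw [coe_algebraMap_chart]; exact iotaS_mem ℓ _
  | add y z _ _ hy hz => exact add_mem hy hz
  | mul y z _ _ hy hz => exact mul_mem hy hz

theorem chart_mem_gaussRing {S : Set ↥(modularFunctionFieldFull N)}
    (hS : IntegralGens (ℓ := ℓ) S) {x : ↥(modularFunctionFieldFull N)}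
    (hx : x ∈ chartAlg N ℓ S) : (x : LaurentSeries ℚ) ∈ gaussRing ℓ := by
  obtain ⟨p, hp, hpx⟩ := (mem_chartAlg_iff N ℓ).mp hx
  let v := coeF N
  refine mem_gaussRing_of_relation (full_le_fracField x.2)
    (hp.map (v.comp (algebraMap (Algebra.adjoin ↥(ratLocalizedAt ℓ) S) _))) (fun i ↦ ?_) ?_
  · rw [coeff_map]
    exact adjoin_mem_gaussRing hS (p.coeff i).2
  · rw [eval_map]
    have := congrArg v hpx
    rw [hom_eval₂, map_zero] at this
    exact this

/-- The `q`-expansion reduction of a chart. -/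
def redChart (S : Set ↥(modularFunctionFieldFull N)) (hS : IntegralGens (ℓ := ℓ) S) :
    ↥(chartAlg N ℓ S) →+* LaurentSeries (ZMod ℓ) :=
  (red ℓ).comp
    { toFun := fun x ↦ ⟨((x : ↥(modularFunctionFieldFull N)) : LaurentSeries ℚ),
        chart_mem_gaussRing hS x.2⟩
      map_one' := rfl
      map_mul' := fun _ _ ↦ rfl
      map_zero' := rfl
      map_add' := fun _ _ ↦ rfl }

theorem redChart_algebraMap {S : Set ↥(modularFunctionFieldFull N)}
    (hS : IntegralGens (ℓ := ℓ) S) (a : ↥(ratLocalizedAt ℓ)) :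
    redChart S hS (algebraMap _ _ a) = HahnSeries.C (piL ℓ a) := by
  have h : redChart S hS (algebraMap _ _ a) = red ℓ ⟨_, iotaS_mem ℓ (HahnSeries.C a)⟩ := by
    show red ℓ _ = red ℓ _
    congr 1
    exact Subtype.ext (coe_algebraMap_chart (N := N) a)
  rw [h, red_iotaS, piS, coeffMap_C']

/-- An element is in the chart of `T` exactly if it is integral over `ℤ_(ℓ)[T]`. -/
theorem mem_chartAlg_singleton_iff {T : ↥(modularFunctionFieldFull N)}
    {T0 : LaurentSeries ↥(ratLocalizedAt ℓ)} (hT : (T : LaurentSeries ℚ) = iotaS ℓ T0)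
    {x : ↥(modularFunctionFieldFull N)} :
    x ∈ chartAlg N ℓ {T} ↔
      ((iotaS ℓ).comp (eval₂RingHom HahnSeries.C T0) :
        (↥(ratLocalizedAt ℓ))[X] →+* LaurentSeries ℚ).IsIntegralElem (x : LaurentSeries ℚ) := by
  set v := coeF N
  have hv : v.comp (aeval T).toRingHom = (iotaS ℓ).comp (eval₂RingHom HahnSeries.C T0) := by
    refine Polynomial.ringHom_ext (fun a ↦ ?_) ?_
    · simp only [RingHom.comp_apply, AlgHom.toRingHom_eq_coe, AlgHom.coe_toRingHom, aeval_C,
        coe_eval₂RingHom, eval₂_C]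
      exact coe_algebraMap_chart (N := N) a
    · simp only [RingHom.comp_apply, AlgHom.toRingHom_eq_coe, AlgHom.coe_toRingHom, aeval_X,
        coe_eval₂RingHom, eval₂_X]
      exact hT
  let g : (↥(ratLocalizedAt ℓ))[X] →+* ↥(Algebra.adjoin ↥(ratLocalizedAt ℓ) {T}) :=
    (aeval (⟨T, Algebra.subset_adjoin (Set.mem_singleton T)⟩ :
      ↥(Algebra.adjoin ↥(ratLocalizedAt ℓ) {T}))).toRingHom
  have hg : (algebraMap ↥(Algebra.adjoin ↥(ratLocalizedAt ℓ) {T})
      ↥(modularFunctionFieldFull N)).comp g = (aeval T).toRingHom := by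
    refine Polynomial.ringHom_ext (fun a ↦ ?_) ?_
    · simp [g, ← IsScalarTower.algebraMap_apply]
    · simp [g]
  have hsurj : Function.Surjective g := by
    rintro ⟨y, hy⟩
    rw [Algebra.adjoin_singleton_eq_range_aeval] at hy
    obtain ⟨p, rfl⟩ := hy
    exact ⟨p, Subtype.ext (RingHom.congr_fun hg p)⟩
  rw [mem_chartAlg_iff]
  constructor
  · rintro ⟨p, hp, hpx⟩
    have hl : p ∈ lifts g := (lifts_iff_coeff_lifts p).mpr fun n ↦ hsurj _
    obtain ⟨q, rfl, -, hq⟩ := lifts_and_natDegree_eq_and_monic hl hp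
    refine ⟨q, hq, ?_⟩
    have h := congrArg v hpx
    rw [eval₂_map, hg, hom_eval₂, hv, map_zero] at h
    exact h
  · rintro ⟨q, hq, hqx⟩
    refine ⟨q.map g, hq.map _, v.injective ?_⟩
    rw [eval₂_map, hg, hom_eval₂, hv, map_zero]
    exact hqx

omit [Fact ℓ.Prime] in
theorem coe_jFull_eq :
    ((jFull N : ↥(modularFunctionFieldFull N)) : LaurentSeries ℚ) =
      iotaS ℓ (jqModC ↥(ratLocalizedAt ℓ)) := by
  rw [iotaS, ModularCurve.coeffMap_jqModC, jqModC_rat, coe_jFull]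

omit [Fact ℓ.Prime] in
theorem coe_jFull_inv_eq :
    (((jFull N)⁻¹ : ↥(modularFunctionFieldFull N)) : LaurentSeries ℚ) =
      iotaS ℓ (jInvSeries ↥(ratLocalizedAt ℓ)) := by
  rw [iotaS, coeffMap_jInvSeries, IntermediateField.coe_inv, coe_jFull]
  exact (eq_inv_of_mul_eq_one_right (jqModC_rat ▸ jqModC_mul_inv ℚ)).symm

omit [NeZero N] in
theorem integralGens_singleton {T : ↥(modularFunctionFieldFull N)}
    {T0 : LaurentSeries ↥(ratLocalizedAt ℓ)} (hT : (T : LaurentSeries ℚ) = iotaS ℓ T0) :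
    IntegralGens (ℓ := ℓ) {T} := by
  rintro s rfl
  rw [hT]
  exact iotaS_mem ℓ T0

theorem integralGens_mid : IntegralGens (ℓ := ℓ) {jFull N, (jFull N)⁻¹} := by
  rintro s (rfl | rfl)
  · exact integralGens_singleton coe_jFull_eq _ rfl
  · exact integralGens_singleton coe_jFull_inv_eq _ rfl

/-- The kernel of the reduction is `ℓ` times the chart. -/
theorem exists_eq_mul_of_redChart_eq_zero (hℓN : ¬ ℓ ∣ N) {T : ↥(modularFunctionFieldFull N)}
    {T0 : LaurentSeries ↥(ratLocalizedAt ℓ)} (hT : (T : LaurentSeries ℚ) = iotaS ℓ T0)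
    (hP : IsParam T0) (x : ↥(chartAlg N ℓ {T}))
    (hx : redChart {T} (integralGens_singleton hT) x = 0) :
    ∃ y : ↥(chartAlg N ℓ {T}), x = (ℓ : ↥(chartAlg N ℓ {T})) * y := by
  set x' : ↥(modularFunctionFieldFull N) := (x : ↥(modularFunctionFieldFull N))
  have hint := (mem_chartAlg_singleton_iff hT).mp x.2
  have hdiv := isIntegralElem_div hℓN hP x'.2 hint hx
  set y : ↥(modularFunctionFieldFull N) := x' / (ℓ : ↥(modularFunctionFieldFull N)) with hy
  have hcoe : ((y : ↥(modularFunctionFieldFull N)) : LaurentSeries ℚ) =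
      (x' : LaurentSeries ℚ) / (ℓ : LaurentSeries ℚ) := by
    rw [hy, IntermediateField.coe_div]; rfl
  refine ⟨⟨y, (mem_chartAlg_singleton_iff hT).mpr (hcoe ▸ hdiv)⟩, Subtype.ext ?_⟩
  show x' = _
  rw [Subalgebra.coe_mul]
  show x' = ((ℓ : ↥(chartAlg N ℓ {T})) : ↥(modularFunctionFieldFull N)) * y
  rw [hy, show (((ℓ : ↥(chartAlg N ℓ {T})) : ↥(modularFunctionFieldFull N))) =
    (ℓ : ↥(modularFunctionFieldFull N)) from map_natCast (chartAlg N ℓ {T}).val ℓ, mul_div_cancel₀ _ (fun h ↦ ell_ne_zero (ℓ := ℓ) (by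
    simpa using congrArg (fun z : ↥(modularFunctionFieldFull N) ↦ (z : LaurentSeries ℚ)) h))]

section Tensor

variable (K : Type) [Field K] [CharP K ℓ]

theorem algebraMap_eq_piL [Algebra ↥(ratLocalizedAt ℓ) K] (a : ↥(ratLocalizedAt ℓ)) :
    algebraMap ↥(ratLocalizedAt ℓ) K a = ZMod.castHom dvd_rfl K (piL ℓ a) := by
  have h : a * ((a : ℚ).den : ↥(ratLocalizedAt ℓ)) = ((a : ℚ).num : ↥(ratLocalizedAt ℓ)) :=
    Subtype.ext (by simp [Rat.mul_den_eq_num])
  have h1 := congrArg (algebraMap ↥(ratLocalizedAt ℓ) K) h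
  have h2 := congrArg ((ZMod.castHom dvd_rfl K).comp (piL ℓ)) h
  rw [map_mul, map_natCast, map_intCast] at h1 h2
  refine mul_right_cancel₀ ?_ (h1.trans h2.symm)
  have := den_ne_zero ℓ a
  rw [← map_natCast (ZMod.castHom dvd_rfl K)]
  exact (_root_.map_ne_zero _).mpr this

variable [Algebra ↥(ratLocalizedAt ℓ) K] {S : Set ↥(modularFunctionFieldFull N)}

/-- `B ⊗ K → K((q))`. -/
theorem exists_tensorHom (hS : IntegralGens (ℓ := ℓ) S) :
    ∃ f : ↥(chartAlg N ℓ S) ⊗[↥(ratLocalizedAt ℓ)] K →+* LaurentSeries K,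
      ∀ x c, f (x ⊗ₜ c) = coeffMap (ZMod.castHom dvd_rfl K) (redChart S hS x) * HahnSeries.C c := by
  letI iA : Algebra ↥(ratLocalizedAt ℓ) (LaurentSeries K) :=
    ((HahnSeries.C : K →+* LaurentSeries K).comp (algebraMap ↥(ratLocalizedAt ℓ) K)).toAlgebra
  let a1 : ↥(chartAlg N ℓ S) →ₐ[↥(ratLocalizedAt ℓ)] LaurentSeries K :=
    { (coeffMap (ZMod.castHom dvd_rfl K)).comp (redChart S hS) with
      commutes' := fun a ↦ by
        show coeffMap (ZMod.castHom dvd_rfl K) (redChart S hS (algebraMap _ _ a)) =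
          HahnSeries.C (algebraMap ↥(ratLocalizedAt ℓ) K a)
        rw [redChart_algebraMap hS, coeffMap_C', algebraMap_eq_piL] }
  let a2 : K →ₐ[↥(ratLocalizedAt ℓ)] LaurentSeries K :=
    { (HahnSeries.C : K →+* LaurentSeries K) with commutes' := fun a ↦ rfl }
  exact ⟨(Algebra.TensorProduct.productMap a1 a2).toRingHom,
    fun x c ↦ Algebra.TensorProduct.productMap_apply_tmul a1 a2 x c⟩

theorem nontrivial_tensor (hS : IntegralGens (ℓ := ℓ) S) :
    Nontrivial (↥(chartAlg N ℓ S) ⊗[↥(ratLocalizedAt ℓ)] K) := by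
  obtain ⟨f, -⟩ := exists_tensorHom K hS
  exact f.domain_nontrivial

theorem exists_sum_basis {B : Type} [CommRing B] [Algebra ↥(ratLocalizedAt ℓ) B]
    {ι : Type} (β : @Module.Basis ι (ZMod ℓ) K _ _ (ZMod.algebra K ℓ).toModule)
    (z : B ⊗[↥(ratLocalizedAt ℓ)] K) :
    ∃ b : ι →₀ B, z = b.sum fun i x ↦ x ⊗ₜ β i := by
  letI := ZMod.algebra K ℓ
  classical
  induction z using TensorProduct.induction_on with
  | zero => exact ⟨0, by simp⟩
  | add y w hy hw =>
    obtain ⟨b, rfl⟩ := hy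
    obtain ⟨b', rfl⟩ := hw
    exact ⟨b + b', (Finsupp.sum_add_index' (h := fun i x ↦ x ⊗ₜ β i)
      (fun i ↦ TensorProduct.zero_tmul _ _) fun i x y ↦ TensorProduct.add_tmul _ _ _).symm⟩
  | tmul x c =>
    refine ⟨(β.repr c).mapRange (fun a : ZMod ℓ ↦ a.val • x) (by simp), ?_⟩
    rw [Finsupp.sum_mapRange_index (h := fun i (y : B) ↦ y ⊗ₜ[↥(ratLocalizedAt ℓ)] β i)
      (fun i ↦ TensorProduct.zero_tmul _ _)]
    conv_lhs => rw [← β.linearCombination_repr c, Finsupp.linearCombination_apply, Finsupp.sum]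
    rw [TensorProduct.tmul_sum, Finsupp.sum]
    refine Finset.sum_congr rfl fun i _ ↦ ?_
    rw [TensorProduct.smul_tmul, ← Nat.cast_smul_eq_nsmul (ZMod ℓ) (β.repr c i).val,
      ZMod.natCast_zmod_val]

theorem tensorHom_injective (hℓN : ¬ ℓ ∣ N) {T : ↥(modularFunctionFieldFull N)}
    {T0 : LaurentSeries ↥(ratLocalizedAt ℓ)} (hT : (T : LaurentSeries ℚ) = iotaS ℓ T0)
    (hP : IsParam T0) :
    IsDomain (↥(chartAlg N ℓ {T}) ⊗[↥(ratLocalizedAt ℓ)] K) := by
  letI := ZMod.algebra K ℓ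
  set hS := integralGens_singleton hT
  obtain ⟨f, hf⟩ := exists_tensorHom K hS
  refine Function.Injective.isDomain f ?_
  rw [injective_iff_map_eq_zero]
  intro z hz
  let β := Module.Basis.ofVectorSpace (ZMod ℓ) K
  obtain ⟨b, rfl⟩ := exists_sum_basis K β z
  have hb : ∀ i ∈ b.support, redChart {T} hS (b i) = 0 := by
    intro i hi
    ext n
    have h1 := congrArg (fun s : LaurentSeries K ↦ s.coeff n) hz
    simp only [Finsupp.sum, map_sum, hf, HahnSeries.coeff_sum, HahnSeries.coeff_zero,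
      HahnSeries.C_apply, HahnSeries.coeff_mul_single_zero, coeffMap_coeff] at h1
    have h2 : ∑ j ∈ b.support, (redChart {T} hS (b j)).coeff n • β j = 0 := by
      simpa only [Algebra.smul_def, RingHom.congr_fun
        (Subsingleton.elim (algebraMap (ZMod ℓ) K) (ZMod.castHom dvd_rfl K))] using h1
    exact linearIndependent_iff'.mp β.linearIndependent _ _ h2 i hi
  rw [Finsupp.sum]
  refine Finset.sum_eq_zero fun i hi ↦ ?_
  obtain ⟨y, hy⟩ := exists_eq_mul_of_redChart_eq_zero hℓN hT hP (b i) (hb i hi)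
  rw [hy, ← nsmul_eq_mul, TensorProduct.smul_tmul, nsmul_eq_mul, CharP.cast_eq_zero, zero_mul,
    TensorProduct.tmul_zero]

end Tensor

end Fermat.Agent.Igusa
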