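/-
A fibred product over a scheme covered by two charts with meeting pullbacks is integral when the
pieces are (helper50, S28).
-/
import Mathlib.AlgebraicGeometry.Pullbacks
import Mathlib.AlgebraicGeometry.Properties

set_option autoImplicit false

noncomputable section

open AlgebraicGeometry CategoryTheory CategoryTheory.Limits

namespace Fermat.Agent.Igusa

universe u

set_option backward.isDefEq.respectTransparency false in
theorem isIntegral_pullback_of_two {X Y Z U V W : Scheme.{u}} (f : X ⟶ Z) (g : Y ⟶ Z)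
    (i : U ⟶ X) (j : V ⟶ X) [IsOpenImmersion i] [IsOpenImmersion j]
    (hcov : ∀ x, x ∈ Set.range i ∨ x ∈ Set.range j)
    (a : W ⟶ U) (b : W ⟶ V) (hab : a ≫ i = b ≫ j)
    (hW : Nonempty ↥(pullback ((a ≫ i) ≫ f) g))
    (hU : IsIntegral (pullback (i ≫ f) g)) (hV : IsIntegral (pullback (j ≫ f) g)) :
    IsIntegral (pullback f g) := by
  let iU := pullback.map (i ≫ f) g f g i (𝟙 Y) (𝟙 Z) (by simp) (by simp)
  let iV := pullback.map (j ≫ f) g f g j (𝟙 Y) (𝟙 Z) (by simp) (by simp)
  let 𝒰 : X.OpenCover := Scheme.Cover.mkOfCovers Bool (fun t ↦ Bool.rec V U t)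
    (fun t ↦ match t with | true => i | false => j)
    (fun x ↦ (hcov x).elim (fun ⟨y, hy⟩ ↦ ⟨true, y, hy⟩) (fun ⟨y, hy⟩ ↦ ⟨false, y, hy⟩))
    (fun t ↦ by cases t <;> assumption)
  let 𝒱 := Scheme.Pullback.openCoverOfLeft 𝒰 f g
  have hint : ∀ t, IsIntegral (𝒱.X t) := by
    intro t
    cases t
    · exact hV
    · exact hU
  haveI : ∀ t, IsReduced (𝒱.X t) := fun t ↦ by have := hint t; infer_instance
  haveI : IsReduced (pullback f g) := IsReduced.of_openCover (𝒰 := 𝒱)
  obtain ⟨w⟩ := hW
  let cU := pullback.map ((a ≫ i) ≫ f) g (i ≫ f) g a (𝟙 Y) (𝟙 Z) (by simp) (by simp)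
  let cV := pullback.map ((a ≫ i) ≫ f) g (j ≫ f) g b (𝟙 Y) (𝟙 Z)
    (by rw [hab]; simp) (by simp)
  have hc : cU ≫ iU = cV ≫ iV :=
    pullback.hom_ext
      (by simp only [cU, cV, iU, iV, pullback.map, Category.assoc, pullback.lift_fst,
            pullback.lift_fst_assoc, hab])
      (by simp only [cU, cV, iU, iV, pullback.map, Category.assoc, pullback.lift_snd,
            pullback.lift_snd_assoc, Category.comp_id])
  have hmem : ∀ t : Bool, iU (cU w) ∈ (𝒱.f t).opensRange := by
    intro t
    cases t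
    · refine ⟨cV w, ?_⟩
      show (cV ≫ iV) w = (cU ≫ iU) w
      rw [hc]
    · exact ⟨cU w, rfl⟩
  have hpre : PreirreducibleSpace ↥(pullback f g) := by
    refine PreirreducibleSpace.of_isOpenCover (U := fun t : Bool ↦ (𝒱.f t).opensRange) ?_ ?_ ?_
    · intro t t' _ hd
      exact (hd inf_le_left inf_le_right)
        ⟨hmem t, hmem t'⟩
    · exact 𝒱.iSup_opensRange
    · intro t
      have := hint t
      refine Subtype.preirreducibleSpace ?_
      show IsPreirreducible (Set.range (𝒱.f t))
      rw [← Set.image_univ]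
      exact (PreirreducibleSpace.isPreirreducible_univ).image _ (𝒱.f t).continuous.continuousOn
  haveI : IrreducibleSpace ↥(pullback f g) :=
    { toPreirreducibleSpace := hpre, toNonempty := ⟨iU (cU w)⟩ }
  exact isIntegral_of_irreducibleSpace_of_isReduced _

end Fermat.Agent.Igusa
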